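import Mathlib
import Fermat.Prelude.Def_AlgebraicCurve_BaseChangeGalois
import Fermat.Agent.Lib.RR.Weil
import Fermat.Agent.S27.Abstract

set_option autoImplicit false

/-!
# S27, part D (zeta count in characteristic `p`): definitions  (sub-architect helper28)

`k` an algebraically closed field, algebraic over `𝔽_p`; `F / k` a function field (`IsRRField k F`).
A *Frobenius structure* `S : FrobStr k F` is a semilinear automorphism `σ` of `F` which is
`c ↦ c ^ q` on `k` (`q = p ^ f`), has finite orbits on `F`, and fixes a place `P₀`.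

* `S.pow m hm`      : the Frobenius structure `(σ ^ m, q ^ m, P₀)`.
* `S.fixPl j`, `S.Npl j` : the places fixed by `σ ^ j`, their number `N_j`.
* `S.effInv d`, `S.aCoef d` : the `σ`-invariant effective divisors of degree `d`, their number.
* `S.zeta`          : `Z(t) = Σ a_d t^d ∈ ℤ⟦t⟧`.
* `S.sigmaEnd`      : `σ` as an endomorphism of `Pic⁰`;  `J_m = fixedPow S.sigmaEnd m`.
* `S.cls D`         : the class of `D - deg(D) P₀` in `Pic⁰`.
* `S.Lser χ`        : `L(χ, t) = Σ_{D ≥ 0 invariant} χ(cls D) t^{deg D} ∈ ℂ⟦t⟧`, for any `χ : Pic⁰ → ℂ`.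
* `S.nrmPl j P`     : the divisor `P + σ P + ⋯ + σ^{j-1} P`;  `S.nu χ j = Σ_{σ^j P = P} χ(cls (nrmPl j P))`.
* `IsNewton Z N`    : `t Z'(t) = Z(t) Σ_{j ≥ 1} N_j t^j`.
-/

noncomputable section

open AlgebraicCurve

namespace Fermat.Agent.S27

open Fermat.Agent.RR

/-- A Frobenius structure on a function field over an algebraic closure of a finite field. -/
structure FrobStr (k F : Type*) [Field k] [Field F] [Algebra k F] where
  /-- the characteristic -/
  p : ℕ
  hp : p.Prime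
  char : CharP k p
  /-- `q = p ^ f` -/
  f : ℕ
  hf : 0 < f
  /-- the Frobenius -/
  σ : SemilinearAut k F
  base : ∀ c : k, SemilinearAut.baseAut σ c = c ^ (p ^ f)
  orbit : ∀ x : F, ∃ m : ℕ, 0 < m ∧ (σ ^ m) • x = x
  /-- a fixed place -/
  P₀ : Place k F
  fixed : σ • P₀ = P₀

namespace FrobStr

variable {k F : Type*} [Field k] [Field F] [Algebra k F]

/-- `q = p ^ f` -/
def q (S : FrobStr k F) : ℕ := S.p ^ S.f

theorem one_lt_q (S : FrobStr k F) : 1 < S.q :=
  Nat.one_lt_pow (Nat.pos_iff_ne_zero.mp S.hf) S.hp.one_lt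

theorem base_pow (S : FrobStr k F) (m : ℕ) (c : k) :
    SemilinearAut.baseAut (S.σ ^ m) c = c ^ (S.p ^ (S.f * m)) := by
  induction m generalizing c with
  | zero => simp
  | succ m ih =>
    rw [pow_succ, SemilinearAut.baseAut_mul, RingAut.mul_apply, S.base, ih, ← pow_mul, mul_add,
      mul_one, pow_add, mul_comm]

theorem pow_smul_P₀ (S : FrobStr k F) (m : ℕ) : (S.σ ^ m) • S.P₀ = S.P₀ := by
  induction m with
  | zero => simp
  | succ m ih => rw [pow_succ, mul_smul, S.fixed, ih]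

/-- the Frobenius structure `(σ ^ m, q ^ m, P₀)` -/
def pow (S : FrobStr k F) (m : ℕ) (hm : 0 < m) : FrobStr k F where
  p := S.p
  hp := S.hp
  char := S.char
  f := S.f * m
  hf := Nat.mul_pos S.hf hm
  σ := S.σ ^ m
  base := S.base_pow m
  orbit := fun x => by
    obtain ⟨n, hn, hx⟩ := S.orbit x
    refine ⟨n, hn, ?_⟩
    rw [← pow_mul, mul_comm, pow_mul]
    have key : ∀ i : ℕ, ((S.σ ^ n) ^ i) • x = x := by
      intro i
      induction i with
      | zero => simp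
      | succ i ih => rw [pow_succ, mul_smul, hx, ih]
    exact key m
  P₀ := S.P₀
  fixed := S.pow_smul_P₀ m

@[simp] theorem pow_σ (S : FrobStr k F) (m : ℕ) (hm : 0 < m) : (S.pow m hm).σ = S.σ ^ m := rfl

@[simp] theorem pow_P₀ (S : FrobStr k F) (m : ℕ) (hm : 0 < m) : (S.pow m hm).P₀ = S.P₀ := rfl

@[simp] theorem pow_p (S : FrobStr k F) (m : ℕ) (hm : 0 < m) : (S.pow m hm).p = S.p := rfl

theorem pow_q (S : FrobStr k F) (m : ℕ) (hm : 0 < m) : (S.pow m hm).q = S.q ^ m := by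
  show S.p ^ (S.f * m) = (S.p ^ S.f) ^ m
  rw [pow_mul]

/-- the places fixed by `σ ^ j` -/
def fixPl (S : FrobStr k F) (j : ℕ) : Set (Place k F) := {P | (S.σ ^ j) • P = P}

/-- `N_j`, the number of places fixed by `σ ^ j` -/
def Npl (S : FrobStr k F) (j : ℕ) : ℕ := Nat.card (S.fixPl j)

/-- the `σ`-invariant effective divisors of degree `d` -/
def effInv (S : FrobStr k F) (d : ℕ) : Set (Divisor k F) :=
  {D | 0 ≤ D ∧ Divisor.degree D = (d : ℤ) ∧ S.σ • D = D}

/-- `a_d`, the number of `σ`-invariant effective divisors of degree `d` -/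
def aCoef (S : FrobStr k F) (d : ℕ) : ℕ := Nat.card (S.effInv d)

/-- the zeta function `Z(t) = Σ a_d t^d` -/
def zeta (S : FrobStr k F) : PowerSeries ℤ := PowerSeries.mk fun d => (S.aCoef d : ℤ)

/-- `σ` as an endomorphism of `Pic⁰` -/
def sigmaEnd (S : FrobStr k F) : AddMonoid.End (Pic0 k F) :=
  DistribMulAction.toAddMonoidEnd (SemilinearAut k F) (Pic0 k F) S.σ

theorem sigmaEnd_apply (S : FrobStr k F) (x : Pic0 k F) : S.sigmaEnd x = S.σ • x := rfl

theorem sigmaEnd_pow_apply (S : FrobStr k F) (m : ℕ) (x : Pic0 k F) :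
    (S.sigmaEnd ^ m) x = (S.σ ^ m) • x := by
  unfold sigmaEnd
  rw [← map_pow]
  rfl

theorem pow_sigmaEnd (S : FrobStr k F) (m : ℕ) (hm : 0 < m) :
    (S.pow m hm).sigmaEnd = S.sigmaEnd ^ m := by
  ext x
  rw [sigmaEnd_pow_apply]
  rfl

theorem fixedPow_pow (S : FrobStr k F) (m : ℕ) (hm : 0 < m) (j : ℕ) :
    fixedPow (S.pow m hm).sigmaEnd j = fixedPow S.sigmaEnd (m * j) := by
  ext x
  rw [mem_fixedPow, mem_fixedPow, pow_sigmaEnd, ← pow_mul]

theorem normPow_pow (S : FrobStr k F) (m : ℕ) (hm : 0 < m) (ℓ : ℕ) :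
    normPow (S.pow m hm).sigmaEnd 1 ℓ = normPow S.sigmaEnd m ℓ := by
  unfold normPow
  rw [pow_sigmaEnd, pow_one]

open Classical in
/-- the class of `D - deg(D) P₀` in `Pic⁰` (junk value `0` if `deg P₀ ≠ 1`; it never is) -/
def cls (S : FrobStr k F) (D : Divisor k F) : Pic0 k F :=
  if h : Divisor.degree (D - Divisor.degree D • Finsupp.single S.P₀ (1 : ℤ)) = 0 then
    Pic0.mk ⟨D - Divisor.degree D • Finsupp.single S.P₀ (1 : ℤ), h⟩
  else 0

/-- the coefficients of `L(χ, t)` -/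
def Lcoef (S : FrobStr k F) (χ : Pic0 k F → ℂ) (d : ℕ) : ℂ :=
  ∑ᶠ D ∈ S.effInv d, χ (S.cls D)

/-- `L(χ, t) = Σ_{D ≥ 0, σ D = D} χ(cls D) t^{deg D}` -/
def Lser (S : FrobStr k F) (χ : Pic0 k F → ℂ) : PowerSeries ℂ :=
  PowerSeries.mk (S.Lcoef χ)

/-- the divisor `P + σ P + ⋯ + σ^{j-1} P` -/
def nrmPl (S : FrobStr k F) (j : ℕ) (P : Place k F) : Divisor k F :=
  ∑ i ∈ Finset.range j, Finsupp.single ((S.σ ^ i) • P) (1 : ℤ)

/-- `ν_j(χ) = Σ_{σ^j P = P} χ(cls (P + σ P + ⋯ + σ^{j-1} P))` -/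
def nu (S : FrobStr k F) (χ : Pic0 k F → ℂ) (j : ℕ) : ℂ :=
  ∑ᶠ P ∈ S.fixPl j, χ (S.cls (S.nrmPl j P))

/-- `χ` is a character of the group `J₁` of `σ`-fixed classes (its values outside `J₁` are
irrelevant) -/
structure IsCharOn (S : FrobStr k F) (χ : Pic0 k F → ℂ) : Prop where
  map_zero : χ 0 = 1
  map_add : ∀ x ∈ fixedPow S.sigmaEnd 1, ∀ y ∈ fixedPow S.sigmaEnd 1, χ (x + y) = χ x * χ y

end FrobStr

/-- `N` is the Newton sequence of `Z`: `t Z'(t) = Z(t) Σ_{j ≥ 1} N_j t^j`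
(the value `N 0` is irrelevant). -/
def IsNewton {R : Type*} [CommRing R] (Z : PowerSeries R) (N : ℕ → R) : Prop :=
  PowerSeries.X * PowerSeries.derivative R Z
    = Z * PowerSeries.mk fun j => if j = 0 then 0 else N j

end Fermat.Agent.S27
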