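import Mathlib
import Fermat.Agent.S27.Zeta.Defs
import Fermat.Agent.S27.Zeta.Fin

set_option autoImplicit false
set_option linter.style.haveILetI false

/-!
# S27, part D, seat Z1 (FROB): existence of a Frobenius structure  (helper18)

`k` algebraically closed of characteristic `p`, every element of `k` in a finite field
(`c ^ (p ^ n) = c` for some `n > 0`), `F / k` a function field.  Then `F` has a Frobenius structure
fixing a given place.

Proof.  `F = Frac (k[X_i : i ∈ s] / 𝔭)` (`s` a finite set of field generators of `F / k`: the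
transcendental element `x` of `hRR.exists_x` and generators of `F` over `k(x)`); `𝔭` is generated by
finitely many polynomials, whose coefficients lie in a finite field `{c | c ^ (p ^ f) = c}`.  The
coefficientwise Frobenius `φ = MvPolynomial.mapEquiv (c ↦ c ^ (p^f))` is a ring automorphism of
`k[X]` fixing the generators of `𝔭`, so `φ 𝔭 = 𝔭`; it induces `σ` on the quotient and on the
fraction field `F`.  Orbits are finite (the elements with a finite orbit form a subfield which
contains `k` and the generators).  Finally the place `P₀` has a finite `σ`-orbit (seat Z2,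
`exists_mem_fixPl_aux`), so a power of `σ` fixes `P₀`.
-/

noncomputable section

open AlgebraicCurve IntermediateField

namespace Fermat.Agent.S27

open Fermat.Agent.RR

variable {k F : Type*} [Field k] [Field F] [Algebra k F]

/-! ### elementary lemmas -/

/-- `c ^ (p ^ n) = c` implies `c ^ (p ^ (n t)) = c`. -/
theorem z1_pow_fix {c : k} {p n : ℕ} (h : c ^ (p ^ n) = c) (t : ℕ) : c ^ (p ^ (n * t)) = c := by
  induction t with
  | zero => simp
  | succ t ih => rw [Nat.mul_succ, pow_add, pow_mul, ih, h]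

theorem z1_pow_fix_of_dvd {c : k} {p n f : ℕ} (h : c ^ (p ^ n) = c) (hd : n ∣ f) :
    c ^ (p ^ f) = c := by
  obtain ⟨t, rfl⟩ := hd
  exact z1_pow_fix h t

/-- the base automorphism of a power. -/
theorem z1_baseAut_pow (σ : SemilinearAut k F) {p f : ℕ}
    (h : ∀ c : k, SemilinearAut.baseAut σ c = c ^ (p ^ f)) (m : ℕ) (c : k) :
    SemilinearAut.baseAut (σ ^ m) c = c ^ (p ^ (f * m)) := by
  induction m generalizing c with
  | zero => simp
  | succ m ih =>
    rw [pow_succ, SemilinearAut.baseAut_mul, RingAut.mul_apply, h, ih, ← pow_mul, mul_add,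
      mul_one, pow_add, mul_comm]

/-- an element fixed by `σ ^ m` is fixed by `σ ^ (m t)`. -/
theorem z1_pow_mul_smul (σ : SemilinearAut k F) {x : F} {m : ℕ} (h : (σ ^ m) • x = x) (t : ℕ) :
    (σ ^ (m * t)) • x = x := by
  rw [pow_mul]
  induction t with
  | zero => simp
  | succ t ih => rw [pow_succ, mul_smul, h, ih]

/-- the elements with a finite orbit: closed under addition. -/
theorem z1_orbit_add (σ : SemilinearAut k F) {x y : F}
    (hx : ∃ m : ℕ, 0 < m ∧ (σ ^ m) • x = x) (hy : ∃ m : ℕ, 0 < m ∧ (σ ^ m) • y = y) :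
    ∃ m : ℕ, 0 < m ∧ (σ ^ m) • (x + y) = x + y := by
  obtain ⟨a, ha, hxa⟩ := hx
  obtain ⟨b, hb, hyb⟩ := hy
  refine ⟨a * b, Nat.mul_pos ha hb, ?_⟩
  rw [smul_add, z1_pow_mul_smul σ hxa b, mul_comm, z1_pow_mul_smul σ hyb a]

/-- the elements with a finite orbit: closed under multiplication. -/
theorem z1_orbit_mul (σ : SemilinearAut k F) {x y : F}
    (hx : ∃ m : ℕ, 0 < m ∧ (σ ^ m) • x = x) (hy : ∃ m : ℕ, 0 < m ∧ (σ ^ m) • y = y) :
    ∃ m : ℕ, 0 < m ∧ (σ ^ m) • (x * y) = x * y := by
  obtain ⟨a, ha, hxa⟩ := hx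
  obtain ⟨b, hb, hyb⟩ := hy
  refine ⟨a * b, Nat.mul_pos ha hb, ?_⟩
  rw [smul_mul', z1_pow_mul_smul σ hxa b, mul_comm a b, z1_pow_mul_smul σ hyb a]

/-- the elements with a finite orbit: closed under inversion. -/
theorem z1_orbit_inv (σ : SemilinearAut k F) {x : F}
    (hx : ∃ m : ℕ, 0 < m ∧ (σ ^ m) • x = x) :
    ∃ m : ℕ, 0 < m ∧ (σ ^ m) • x⁻¹ = x⁻¹ := by
  obtain ⟨a, ha, hxa⟩ := hx
  refine ⟨a, ha, ?_⟩
  rw [SemilinearAut.smul_def, map_inv₀, ← SemilinearAut.smul_def, hxa]

/-! ### finite generation -/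

/-- a function field is finitely generated as a field. -/
theorem z1_exists_gen (hRR : IsRRField k F) :
    ∃ s : Finset F, IntermediateField.adjoin k (s : Set F) = ⊤ := by
  classical
  obtain ⟨x, -, hfin, -⟩ := hRR.exists_x
  haveI := hfin
  obtain ⟨t, ht⟩ := IntermediateField.fg_of_noetherian (⊤ : IntermediateField k⟮x⟯ F)
  refine ⟨insert x t, ?_⟩
  have h := IntermediateField.adjoin_adjoin_left k ({x} : Set F) (t : Set F)
  rw [ht, IntermediateField.restrictScalars_top] at h
  rw [Finset.coe_insert, Set.insert_eq, ← h]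

/-! ### the construction -/

/-- **the semilinear Frobenius of a function field** over an algebraic closure of a finite
field. -/
theorem z1_exists_sigma (p : ℕ) [Fact p.Prime] [CharP k p] [IsAlgClosed k]
    (halg : ∀ c : k, ∃ n : ℕ, 0 < n ∧ c ^ (p ^ n) = c) (hRR : IsRRField k F) :
    ∃ (f : ℕ) (σ : SemilinearAut k F), 0 < f ∧
      (∀ c : k, SemilinearAut.baseAut σ c = c ^ (p ^ f)) ∧
      ∀ x : F, ∃ m : ℕ, 0 < m ∧ (σ ^ m) • x = x := by
  classical
  obtain ⟨s, hs⟩ := z1_exists_gen hRR
  -- the presentation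
  let ev : MvPolynomial (s : Set F) k →ₐ[k] F := MvPolynomial.aeval (fun i : (s : Set F) => (i : F))
  have hfg : (RingHom.ker (ev : MvPolynomial (s : Set F) k →+* F)).FG :=
    IsNoetherian.noetherian _
  obtain ⟨G, hG⟩ := hfg
  -- the exponent
  choose n hn0 hn using halg
  have hf : 0 < ∏ g ∈ G, ∏ m ∈ g.support, n (g.coeff m) :=
    Finset.prod_pos (fun g _ => Finset.prod_pos (fun m _ => hn0 _))
  have hfix : ∀ g ∈ G, ∀ m, (g.coeff m) ^ (p ^ (∏ g ∈ G, ∏ m ∈ g.support, n (g.coeff m))) =
      g.coeff m := by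
    intro g hg m
    by_cases hm : m ∈ g.support
    · exact z1_pow_fix_of_dvd (hn _) ((Finset.dvd_prod_of_mem _ hm).trans
        (Finset.dvd_prod_of_mem (fun g => ∏ m ∈ g.support, n (g.coeff m)) hg))
    · rw [MvPolynomial.notMem_support_iff.mp hm, zero_pow (pow_pos (Fact.out : p.Prime).pos _).ne']
  generalize (∏ g ∈ G, ∏ m ∈ g.support, n (g.coeff m)) = f at hf hfix
  -- the coefficientwise Frobenius
  have hφG : ∀ g ∈ G, MvPolynomial.mapEquiv (s : Set F) (iterateFrobeniusEquiv k p f) g = g := by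
    intro g hg
    ext m
    rw [MvPolynomial.mapEquiv_apply, MvPolynomial.coeff_map]
    exact hfix g hg m
  have hI : RingHom.ker (ev : MvPolynomial (s : Set F) k →+* F) =
      (RingHom.ker (ev : MvPolynomial (s : Set F) k →+* F)).map
        ((MvPolynomial.mapEquiv (s : Set F) (iterateFrobeniusEquiv k p f) :
          MvPolynomial (s : Set F) k ≃+* MvPolynomial (s : Set F) k) :
          MvPolynomial (s : Set F) k →+* MvPolynomial (s : Set F) k) := by
    have hG' : Ideal.span (G : Set (MvPolynomial (s : Set F) k)) =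
        RingHom.ker (ev : MvPolynomial (s : Set F) k →+* F) := hG
    rw [← hG', Ideal.map_span]
    congr 1
    ext y
    constructor
    · intro hy
      exact ⟨y, hy, hφG y hy⟩
    · rintro ⟨z, hz, rfl⟩
      have := hφG z hz
      rw [RingEquiv.coe_toRingHom, this]
      exact hz
  -- the fraction field
  letI : Algebra (MvPolynomial (s : Set F) k ⧸ RingHom.ker (ev : MvPolynomial (s : Set F) k →+* F))
      F := (RingHom.kerLift (ev : MvPolynomial (s : Set F) k →+* F)).toAlgebra
  have hmk : ∀ P : MvPolynomial (s : Set F) k,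
      algebraMap (MvPolynomial (s : Set F) k ⧸ RingHom.ker (ev : MvPolynomial (s : Set F) k →+* F))
        F (Ideal.Quotient.mk _ P) = ev P := fun P => rfl
  haveI : FaithfulSMul
      (MvPolynomial (s : Set F) k ⧸ RingHom.ker (ev : MvPolynomial (s : Set F) k →+* F)) F :=
    (faithfulSMul_iff_algebraMap_injective _ _).mpr (RingHom.kerLift_injective _)
  have hrange : Algebra.adjoin k (s : Set F) = ev.range := by
    have h1 := Algebra.adjoin_range_eq_range_aeval k (fun i : (s : Set F) => (i : F))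
    rw [Subtype.range_coe] at h1
    exact h1
  haveI : IsFractionRing
      (MvPolynomial (s : Set F) k ⧸ RingHom.ker (ev : MvPolynomial (s : Set F) k →+* F)) F :=
    IsFractionRing.of_field _ _ (by
      intro z
      have hz : z ∈ IntermediateField.adjoin k (s : Set F) := by
        rw [hs]
        trivial
      obtain ⟨r, hr, t, ht, rfl⟩ := IntermediateField.mem_adjoin_iff_div.mp hz
      rw [hrange] at hr ht
      obtain ⟨P, rfl⟩ := hr
      obtain ⟨Q, rfl⟩ := ht
      exact ⟨Ideal.Quotient.mk _ P, Ideal.Quotient.mk _ Q, rfl⟩)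
  have hτ : ∀ P : MvPolynomial (s : Set F) k,
      (IsFractionRing.ringEquivOfRingEquiv (K := F) (L := F)
        (Ideal.quotientEquiv _ _ (MvPolynomial.mapEquiv (s : Set F) (iterateFrobeniusEquiv k p f))
          hI)) (ev P) =
        ev (MvPolynomial.mapEquiv (s : Set F) (iterateFrobeniusEquiv k p f) P) := by
    intro P
    rw [← hmk, IsFractionRing.ringEquivOfRingEquiv_algebraMap, Ideal.quotientEquiv_mk, hmk]
  have hτc : ∀ c : k,
      (IsFractionRing.ringEquivOfRingEquiv (K := F) (L := F)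
        (Ideal.quotientEquiv _ _ (MvPolynomial.mapEquiv (s : Set F) (iterateFrobeniusEquiv k p f))
          hI)) (algebraMap k F c) = algebraMap k F (iterateFrobeniusEquiv k p f c) := by
    intro c
    have h1 := hτ (MvPolynomial.C c)
    rw [MvPolynomial.mapEquiv_apply, MvPolynomial.map_C] at h1
    have h2 : ∀ d : k, ev (MvPolynomial.C d) = algebraMap k F d := fun d =>
      MvPolynomial.aeval_C _ d
    rw [h2, h2] at h1
    exact h1
  have hτx : ∀ i : (s : Set F),
      (IsFractionRing.ringEquivOfRingEquiv (K := F) (L := F)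
        (Ideal.quotientEquiv _ _ (MvPolynomial.mapEquiv (s : Set F) (iterateFrobeniusEquiv k p f))
          hI)) (i : F) = i := by
    intro i
    have h1 := hτ (MvPolynomial.X i)
    rw [MvPolynomial.mapEquiv_apply, MvPolynomial.map_X] at h1
    have h2 : ev (MvPolynomial.X i) = (i : F) := MvPolynomial.aeval_X _ i
    rw [h2] at h1
    exact h1
  -- the semilinear automorphism
  refine ⟨f, ⟨(IsFractionRing.ringEquivOfRingEquiv (K := F) (L := F)
      (Ideal.quotientEquiv _ _ (MvPolynomial.mapEquiv (s : Set F) (iterateFrobeniusEquiv k p f))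
        hI), iterateFrobeniusEquiv k p f), SemilinearAut.mem_iff.mpr hτc⟩, hf, fun c => rfl, ?_⟩
  intro x
  have hx : x ∈ IntermediateField.adjoin k (s : Set F) := by
    rw [hs]
    trivial
  induction hx using IntermediateField.adjoin_induction with
  | mem y hy => exact ⟨1, one_pos, by rw [pow_one]; exact hτx ⟨y, hy⟩⟩
  | algebraMap c =>
    refine ⟨n c, hn0 c, ?_⟩
    rw [SemilinearAut.smul_algebraMap, z1_baseAut_pow _ (fun c => rfl) (n c) c, mul_comm,
      z1_pow_fix (hn c) f]
  | add y z _ _ hy hz => exact z1_orbit_add _ hy hz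
  | inv y _ hy => exact z1_orbit_inv _ hy
  | mul y z _ _ hy hz => exact z1_orbit_mul _ hy hz

/-- **Seat Z1 (FROB).** -/
theorem exists_frobStr (p : ℕ) (hp : p.Prime) [CharP k p] [IsAlgClosed k]
    (halg : ∀ c : k, ∃ n : ℕ, 0 < n ∧ c ^ (p ^ n) = c)
    (hRR : IsRRField k F) (P₀ : Place k F) :
    ∃ S : FrobStr k F, S.p = p ∧ S.P₀ = P₀ := by
  haveI : Fact p.Prime := ⟨hp⟩
  obtain ⟨f, σ, hf, hbase, horb⟩ := z1_exists_sigma p halg hRR
  obtain ⟨j, hj, hfix⟩ := exists_mem_fixPl_aux hRR σ horb P₀
  refine ⟨⟨p, hp, inferInstance, f * j, Nat.mul_pos hf hj, σ ^ j, z1_baseAut_pow σ hbase j,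
    fun x => ?_, P₀, hfix⟩, rfl, rfl⟩
  obtain ⟨m, hm, hx⟩ := horb x
  refine ⟨m, hm, ?_⟩
  rw [← pow_mul, mul_comm]
  exact z1_pow_mul_smul σ hx j

end Fermat.Agent.S27
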