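import Mathlib
import Fermat.Agent.S27.Zeta.Defs

set_option autoImplicit false

/-!
# S27, part D, seat Z5a (NEWTON): Newton sequences of power series (pure algebra)

PROVED (helper13); helper lemmas: `newtonSer`, `isNewton_def`, `coeff_newtonSer_*`.

`IsNewton Z N : t Z' = Z Σ_{j ≥ 1} N_j t^j` (logarithmic derivative).
* additivity under products, uniqueness (constant term `1`, no torsion), rescaling `t ↦ c t`;
* `1 - c t` has Newton sequence `- c^j`;
* the matrix statements (`isNewton_charpolyRev`, `exists_matrix_charpolyRev`) are in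
  `Zeta/NewtonMat.lean` (seat Z5a-MAT).
-/

noncomputable section

open PowerSeries

namespace Fermat.Agent.S27

variable {R : Type*} [CommRing R]

/-- the series `Σ_{j ≥ 1} N_j t^j` -/
def newtonSer (N : ℕ → R) : R⟦X⟧ := PowerSeries.mk fun j => if j = 0 then 0 else N j

theorem isNewton_def {Z : R⟦X⟧} {N : ℕ → R} :
    IsNewton Z N ↔ X * PowerSeries.derivative R Z = Z * newtonSer N := Iff.rfl

theorem coeff_newtonSer_zero (N : ℕ → R) : coeff 0 (newtonSer N) = 0 := by
  simp [newtonSer]

theorem coeff_newtonSer_succ (N : ℕ → R) (j : ℕ) : coeff (j + 1) (newtonSer N) = N (j + 1) := by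
  simp [newtonSer]

theorem newtonSer_add (N N' : ℕ → R) :
    newtonSer (fun j => N j + N' j) = newtonSer N + newtonSer N' := by
  ext j
  rcases j with _ | j
  · rw [map_add, coeff_newtonSer_zero, coeff_newtonSer_zero, coeff_newtonSer_zero, add_zero]
  · rw [map_add, coeff_newtonSer_succ, coeff_newtonSer_succ, coeff_newtonSer_succ]

/-- `X * φ` has the shifted coefficients -/
theorem newtonSer_eq_X_mul (N : ℕ → R) :
    newtonSer N = X * PowerSeries.mk fun j => N (j + 1) := by
  ext j
  rcases j with _ | j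
  · simp [coeff_newtonSer_zero]
  · rw [coeff_newtonSer_succ, coeff_succ_X_mul, coeff_mk]

/-- the Newton sequence of a product is the sum of the Newton sequences -/
theorem IsNewton.mul {Z Z' : R⟦X⟧} {N N' : ℕ → R} (h : IsNewton Z N) (h' : IsNewton Z' N') :
    IsNewton (Z * Z') (fun j => N j + N' j) := by
  rw [isNewton_def] at h h' ⊢
  rw [newtonSer_add, Derivation.leibniz, smul_eq_mul, smul_eq_mul]
  linear_combination Z' * h + Z * h'

theorem coeff_X_mul_derivative (Z : R⟦X⟧) (d : ℕ) :
    coeff d (X * PowerSeries.derivative R Z) = (d : R) * coeff d Z := by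
  rcases d with _ | d
  · simp
  · rw [coeff_succ_X_mul, PowerSeries.coeff_derivative]
    push_cast
    ring

theorem coeff_mul_newtonSer (Z : R⟦X⟧) (N : ℕ → R) (d : ℕ) :
    coeff d (Z * newtonSer N) = ∑ j ∈ Finset.range d, N (j + 1) * coeff (d - 1 - j) Z := by
  rw [mul_comm, PowerSeries.coeff_mul, Finset.Nat.sum_antidiagonal_eq_sum_range_succ_mk,
    Finset.sum_range_succ']
  simp only [coeff_newtonSer_zero, zero_mul, add_zero, coeff_newtonSer_succ]
  refine Finset.sum_congr rfl fun j _ => ?_
  rw [Nat.sub_sub, add_comm 1 j]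

/-- the coefficient form of `IsNewton`: `d a_d = Σ_{j=1}^{d} N_j a_{d-j}` -/
theorem isNewton_iff {Z : R⟦X⟧} {N : ℕ → R} :
    IsNewton Z N ↔ ∀ d : ℕ, (d : R) * coeff d Z
      = ∑ j ∈ Finset.range d, N (j + 1) * coeff (d - 1 - j) Z := by
  rw [isNewton_def, PowerSeries.ext_iff]
  refine forall_congr' fun d => ?_
  rw [coeff_X_mul_derivative, coeff_mul_newtonSer]

/-- a power series with constant term `1` is determined by its Newton sequence -/
theorem IsNewton.unique [IsDomain R] [CharZero R] {Z Z' : R⟦X⟧} {N N' : ℕ → R}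
    (h : IsNewton Z N) (h' : IsNewton Z' N') (hN : ∀ j, 0 < j → N j = N' j)
    (h0 : constantCoeff Z = 1) (h0' : constantCoeff Z' = 1) : Z = Z' := by
  rw [isNewton_iff] at h h'
  ext d
  induction d using Nat.strong_induction_on with
  | _ d ih =>
    rcases Nat.eq_zero_or_pos d with hd | hd
    · subst hd
      rw [coeff_zero_eq_constantCoeff_apply, coeff_zero_eq_constantCoeff_apply, h0, h0']
    · have hd0 : (d : R) ≠ 0 := Nat.cast_ne_zero.2 hd.ne'
      apply mul_left_cancel₀ hd0
      rw [h d, h' d]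
      refine Finset.sum_congr rfl fun j hj => ?_
      rw [Finset.mem_range] at hj
      rw [hN (j + 1) (Nat.succ_pos j), ih (d - 1 - j) (by omega)]

/-- `1 - c t` has Newton sequence `- c^j` -/
theorem isNewton_one_sub (c : R) : IsNewton (1 - C c * X : R⟦X⟧) (fun j => -c ^ j) := by
  rw [isNewton_def]
  have hder : PowerSeries.derivative R (1 - C c * X : R⟦X⟧) = -C c := by
    have h1 : (1 - C c * X : R⟦X⟧) = ((1 - Polynomial.C c * Polynomial.X : Polynomial R) : R⟦X⟧) := by
      simp
    rw [h1, PowerSeries.derivative_coe]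
    simp
  rw [hder]
  ext d
  rcases d with _ | d
  · simp [coeff_newtonSer_zero, PowerSeries.coeff_mul]
  · rw [coeff_succ_X_mul, sub_mul, one_mul, map_sub, coeff_newtonSer_succ, mul_assoc,
      PowerSeries.coeff_C_mul, coeff_succ_X_mul]
    rcases d with _ | d
    · simp [coeff_newtonSer_zero]
    · rw [coeff_newtonSer_succ]
      simp
      ring

/-- rescaling `t ↦ c t` -/
theorem IsNewton.rescale {Z : R⟦X⟧} {N : ℕ → R} (h : IsNewton Z N) (c : R) :
    IsNewton (PowerSeries.rescale c Z) (fun j => c ^ j * N j) := by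
  rw [isNewton_iff] at h ⊢
  intro d
  rw [PowerSeries.coeff_rescale]
  have e : (d : R) * (c ^ d * coeff d Z) = c ^ d * ((d : R) * coeff d Z) := by ring
  rw [e, h d, Finset.mul_sum]
  refine Finset.sum_congr rfl fun j hj => ?_
  rw [Finset.mem_range] at hj
  rw [PowerSeries.coeff_rescale]
  have hd : c ^ d = c ^ (j + 1) * c ^ (d - 1 - j) := by
    rw [← pow_add]
    congr 1
    omega
  rw [hd]
  ring

/-- change of coefficients -/
theorem IsNewton.map {R' : Type*} [CommRing R'] (φ : R →+* R') {Z : R⟦X⟧} {N : ℕ → R}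
    (h : IsNewton Z N) : IsNewton (PowerSeries.map φ Z) (fun j => φ (N j)) := by
  rw [isNewton_iff] at h ⊢
  intro d
  have := congrArg φ (h d)
  rw [map_mul, map_natCast, map_sum] at this
  rw [PowerSeries.coeff_map, this]
  refine Finset.sum_congr rfl fun j _ => ?_
  rw [map_mul, PowerSeries.coeff_map]

end Fermat.Agent.S27
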