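import Mathlib

set_option autoImplicit false

/-!
# S27, part D, seat Z5b-ABS: the abstract orbit recursion (pure combinatorics, Mathlib only)

PROVED (helper21); helper lemmas `orc*`.

`X` a set with a permutation `τ` whose powers `τ^j` (`j ≥ 1`) have finitely many fixed points and
whose orbits are finite.  A *divisor* is `D : X →₀ ℤ`; it is invariant if `mapDomain τ D = D`; its
degree is the sum of its coefficients.  `w` is a weight on divisors, multiplicative on invariant
effective divisors.  With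
  `a_d = Σ_{D ≥ 0 invariant of degree d} w D`,
  `s_j = Σ_{τ^j x = x} w (x + τ x + ⋯ + τ^{j-1} x)`
one has `d a_d = Σ_{j=1}^{d} s_j a_{d-j}`.

Proof.  For an invariant effective `D` of degree `d`: `d = Σ_x D(x)`, and for every `x`
  `D(x) = #{j ≥ 1 | τ^j x = x, x + τ x + ⋯ + τ^{j-1} x ≤ D}`
(the `j` are the multiples `i e` of the length `e` of the orbit `O` of `x`, and
`x + ⋯ + τ^{ie-1} x = i O ≤ D ⟺ i ≤ D(x)`); `D' ↦ D' + (x + ⋯ + τ^{j-1} x)` is a bijection from the
invariant effective divisors of degree `d - j` onto those of degree `d` which are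
`≥ x + ⋯ + τ^{j-1} x`.
-/

namespace Fermat.Agent.S27

open Function

section OrbitRec

open Classical

variable {X : Type*} (τ : Equiv.Perm X)

/-- the divisor `x + τ x + ⋯ + τ^{j-1} x` -/
noncomputable def orcN (j : ℕ) (x : X) : X →₀ ℤ :=
  ∑ i ∈ Finset.range j, Finsupp.single ((τ ^ i) x) (1 : ℤ)

/-- the degree, as an additive map -/
noncomputable def orcDeg : (X →₀ ℤ) →+ ℤ := Finsupp.liftAddHom fun _ => AddMonoidHom.id ℤ

theorem orcDeg_apply (D : X →₀ ℤ) : orcDeg D = D.sum fun _ n => n := by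
  simp only [orcDeg, Finsupp.liftAddHom_apply]
  rfl

theorem orcDeg_single (x : X) (n : ℤ) : orcDeg (Finsupp.single x n) = n := by
  simp [orcDeg]

theorem orcDeg_nonneg {D : X →₀ ℤ} (hD : 0 ≤ D) : 0 ≤ orcDeg D := by
  rw [orcDeg_apply, Finsupp.sum]
  exact Finset.sum_nonneg fun x _ => hD x

theorem orcDeg_mono {D E : X →₀ ℤ} (h : D ≤ E) : orcDeg D ≤ orcDeg E := by
  have h1 : 0 ≤ E - D := fun x => by
    simp only [Finsupp.coe_zero, Pi.zero_apply, Finsupp.coe_sub, Pi.sub_apply]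
    exact sub_nonneg.mpr (h x)
  have h2 := orcDeg_nonneg h1
  rw [map_sub] at h2
  linarith

theorem orcDeg_N (j : ℕ) (x : X) : orcDeg (orcN τ j x) = j := by
  rw [orcN, map_sum]
  simp [orcDeg_single]

theorem orcN_nonneg (j : ℕ) (x : X) : 0 ≤ orcN τ j x := by
  rw [orcN]
  refine Finset.sum_nonneg fun i _ => ?_
  intro y
  classical
  rw [Finsupp.coe_zero, Pi.zero_apply, Finsupp.single_apply]
  split_ifs <;> norm_num

theorem orcN_add (a b : ℕ) (x : X) :
    orcN τ (a + b) x = orcN τ a x + orcN τ b ((τ ^ a) x) := by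
  rw [orcN, orcN, orcN, Finset.sum_range_add]
  congr 1
  refine Finset.sum_congr rfl fun i _ => ?_
  rw [add_comm a i, pow_add, Equiv.Perm.mul_apply]

theorem orcN_mul {e : ℕ} {x : X} (he : (τ ^ e) x = x) (t : ℕ) :
    orcN τ (e * t) x = t • orcN τ e x := by
  induction t with
  | zero => simp [orcN]
  | succ t ih =>
    have hpow : (τ ^ (e * t)) x = x := by
      rw [pow_mul]
      clear ih
      induction t with
      | zero => simp
      | succ t ih2 => rw [pow_succ, Equiv.Perm.mul_apply, he, ih2]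
    rw [Nat.mul_succ, orcN_add, ih, hpow, succ_nsmul]

theorem orcN_inv {j : ℕ} {x : X} (h : (τ ^ j) x = x) :
    Finsupp.mapDomain τ (orcN τ j x) = orcN τ j x := by
  rw [orcN, Finsupp.mapDomain_finsetSum]
  simp only [Finsupp.mapDomain_single]
  have h1 : ∀ i : ℕ, τ ((τ ^ i) x) = (τ ^ (i + 1)) x := fun i => by
    rw [pow_succ', Equiv.Perm.mul_apply]
  simp only [h1]
  have h2 := Finset.sum_range_succ (fun i => Finsupp.single ((τ ^ i) x) (1 : ℤ)) j
  have h3 := Finset.sum_range_succ' (fun i => Finsupp.single ((τ ^ i) x) (1 : ℤ)) j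
  rw [h2] at h3
  simp only [h, pow_zero, Equiv.Perm.coe_one, id_eq] at h3
  exact (add_right_cancel h3).symm

theorem orc_inv_apply {D : X →₀ ℤ} (hD : Finsupp.mapDomain τ D = D) (y : X) : D (τ y) = D y := by
  conv_lhs => rw [← hD]
  exact Finsupp.mapDomain_apply τ.injective D y

theorem orc_inv_apply_pow {D : X →₀ ℤ} (hD : Finsupp.mapDomain τ D = D) (i : ℕ) (y : X) :
    D ((τ ^ i) y) = D y := by
  induction i with
  | zero => simp
  | succ i ih => rw [pow_succ', Equiv.Perm.mul_apply, orc_inv_apply τ hD, ih]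

theorem orcN_apply (j : ℕ) (x y : X) :
    orcN τ j x y = ∑ i ∈ Finset.range j, if (τ ^ i) x = y then (1 : ℤ) else 0 := by
  rw [orcN, Finsupp.finsetSum_apply]
  refine Finset.sum_congr rfl fun i _ => ?_
  rw [Finsupp.single_apply]

theorem orc_pow_eq_iterate (i : ℕ) (x : X) : (τ ^ i) x = (⇑τ)^[i] x := by
  rw [Equiv.Perm.iterate_eq_pow]

/-- on the minimal period the divisor of the orbit has coefficients `0` or `1` -/
theorem orcN_minimal_le_one (x y : X) : orcN τ (minimalPeriod τ x) x y ≤ 1 := by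
  classical
  rw [orcN_apply, Finset.sum_ite, Finset.sum_const_zero, add_zero, Finset.sum_const,
    nsmul_one]
  have : ((Finset.range (minimalPeriod τ x)).filter fun i => (τ ^ i) x = y).card ≤ 1 := by
    rw [Finset.card_le_one]
    intro a ha b hb
    rw [Finset.mem_filter, Finset.mem_range] at ha hb
    have hinj := iterate_injOn_Iio_minimalPeriod (f := ⇑τ) (x := x)
    apply hinj (Set.mem_Iio.mpr ha.1) (Set.mem_Iio.mpr hb.1)
    show (⇑τ)^[a] x = (⇑τ)^[b] x
    rw [← orc_pow_eq_iterate, ← orc_pow_eq_iterate, ha.2, hb.2]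
  exact_mod_cast this

theorem orcN_pos_imp {j : ℕ} {x y : X} (h : 0 < orcN τ j x y) : ∃ i, (τ ^ i) x = y := by
  classical
  rw [orcN_apply] at h
  by_contra hne
  rw [not_exists] at hne
  have : ∑ i ∈ Finset.range j, (if (τ ^ i) x = y then (1 : ℤ) else 0) = 0 :=
    Finset.sum_eq_zero fun i _ => if_neg (hne i)
  omega

theorem orcN_self_pos {j : ℕ} (hj : 0 < j) (x : X) : 1 ≤ orcN τ j x x := by
  classical
  rw [orcN_apply]
  have h0 : (0 : ℕ) ∈ Finset.range j := Finset.mem_range.mpr hj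
  calc (1 : ℤ) = if (τ ^ 0) x = x then (1 : ℤ) else 0 := by simp
    _ ≤ _ := Finset.single_le_sum (f := fun i => if (τ ^ i) x = x then (1 : ℤ) else 0)
        (fun i _ => by split_ifs <;> norm_num) h0

theorem orcN_minimal_self {x : X} (hx : 0 < minimalPeriod τ x) :
    orcN τ (minimalPeriod τ x) x x = 1 :=
  le_antisymm (orcN_minimal_le_one τ x x) (orcN_self_pos τ hx x)

/-- `t O_x ≤ D ⟺ t ≤ D(x)` for an invariant effective divisor `D` -/
theorem orcN_le_iff {D : X →₀ ℤ} (hD0 : 0 ≤ D) (hD : Finsupp.mapDomain τ D = D) {x : X}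
    (hx : 0 < minimalPeriod τ x) (t : ℕ) :
    t • orcN τ (minimalPeriod τ x) x ≤ D ↔ (t : ℤ) ≤ D x := by
  constructor
  · intro h
    have := h x
    rw [Finsupp.smul_apply, orcN_minimal_self τ hx, nsmul_one] at this
    exact_mod_cast this
  · intro h y
    rw [Finsupp.smul_apply]
    by_cases hy : 0 < orcN τ (minimalPeriod τ x) x y
    · obtain ⟨i, hi⟩ := orcN_pos_imp τ hy
      have h1 : orcN τ (minimalPeriod τ x) x y = 1 :=
        le_antisymm (orcN_minimal_le_one τ x y) hy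
      rw [h1, nsmul_one, ← hi, orc_inv_apply_pow τ hD]
      exact h
    · have h1 : orcN τ (minimalPeriod τ x) x y = 0 :=
        le_antisymm (not_lt.mp hy) (orcN_nonneg τ _ x y)
      rw [h1, smul_zero]
      exact hD0 y

theorem orc_minimal_pow (x : X) : (τ ^ minimalPeriod τ x) x = x := by
  rw [orc_pow_eq_iterate]
  exact isPeriodicPt_minimalPeriod τ x

theorem orc_minimal_pos {x : X} {j : ℕ} (hj : 0 < j) (h : (τ ^ j) x = x) :
    0 < minimalPeriod τ x := by
  apply IsPeriodicPt.minimalPeriod_pos hj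
  show (⇑τ)^[j] x = x
  rw [← orc_pow_eq_iterate, h]

theorem orc_minimal_dvd {x : X} {j : ℕ} (h : (τ ^ j) x = x) : minimalPeriod τ x ∣ j := by
  apply IsPeriodicPt.minimalPeriod_dvd
  show (⇑τ)^[j] x = x
  rw [← orc_pow_eq_iterate, h]

/-- the degree bounds the orbit length times the multiplicity -/
theorem orc_deg_ge {D : X →₀ ℤ} (hD0 : 0 ≤ D) (hD : Finsupp.mapDomain τ D = D) {x : X}
    (hx : 0 < minimalPeriod τ x) : (minimalPeriod τ x : ℤ) * D x ≤ orcDeg D := by
  have hDx : 0 ≤ D x := hD0 x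
  have h1 : (D x).toNat • orcN τ (minimalPeriod τ x) x ≤ D := by
    rw [orcN_le_iff τ hD0 hD hx, Int.toNat_of_nonneg hDx]
  have h2 := orcDeg_mono h1
  rw [map_nsmul, orcDeg_N, nsmul_eq_mul, Int.toNat_of_nonneg hDx] at h2
  linarith [mul_comm (D x) (minimalPeriod τ x : ℤ)]

/-- the set of invariant effective divisors of degree `d` -/
def orcInv (d : ℕ) : Set (X →₀ ℤ) :=
  {D | 0 ≤ D ∧ (D.sum fun _ n => n) = (d : ℤ) ∧ Finsupp.mapDomain τ D = D}

theorem mem_orcInv {d : ℕ} {D : X →₀ ℤ} :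
    D ∈ orcInv τ d ↔ 0 ≤ D ∧ orcDeg D = (d : ℤ) ∧ Finsupp.mapDomain τ D = D := by
  rw [orcDeg_apply]
  rfl

/-- **the count**: `D(x)` is the number of `j` with `τ^j x = x` and `x + ⋯ + τ^{j-1} x ≤ D` -/
theorem orc_count {d : ℕ} {D : X →₀ ℤ} (hD : D ∈ orcInv τ d) (x : X)
    (hx : 0 < minimalPeriod τ x) :
    ((Finset.range d).filter fun j => (τ ^ (j + 1)) x = x ∧ orcN τ (j + 1) x ≤ D).card
      = (D x).toNat := by
  rw [mem_orcInv] at hD
  obtain ⟨hD0, hdeg, hinv⟩ := hD
  set e := minimalPeriod τ x with he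
  have hDx : 0 ≤ D x := hD0 x
  have hbound := orc_deg_ge τ hD0 hinv hx
  rw [hdeg, ← he] at hbound
  have hset : ((Finset.range d).filter fun j => (τ ^ (j + 1)) x = x ∧ orcN τ (j + 1) x ≤ D)
      = (Finset.range (D x).toNat).image fun t => e * (t + 1) - 1 := by
    ext j
    rw [Finset.mem_filter, Finset.mem_range, Finset.mem_image]
    constructor
    · rintro ⟨hj, hper, hle⟩
      obtain ⟨s, hs⟩ := orc_minimal_dvd τ hper
      rw [← he] at hs
      have hs0 : 0 < s := by
        rcases Nat.eq_zero_or_pos s with h0 | h0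
        · rw [h0, mul_zero] at hs
          omega
        · exact h0
      rw [hs, orcN_mul τ (orc_minimal_pow τ x), orcN_le_iff τ hD0 hinv hx] at hle
      refine ⟨s - 1, ?_, ?_⟩
      · rw [Finset.mem_range]
        omega
      · rw [Nat.sub_add_cancel hs0, ← hs]
        omega
    · rintro ⟨t, ht, rfl⟩
      rw [Finset.mem_range] at ht
      have hpos : 0 < e * (t + 1) := Nat.mul_pos hx (Nat.succ_pos t)
      have hsucc : e * (t + 1) - 1 + 1 = e * (t + 1) := Nat.sub_add_cancel hpos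
      have ht' : ((t + 1 : ℕ) : ℤ) ≤ D x := by
        have : t + 1 ≤ (D x).toNat := ht
        omega
      refine ⟨?_, ?_, ?_⟩
      · have h1 : (e : ℤ) * ((t + 1 : ℕ) : ℤ) ≤ (e : ℤ) * D x :=
          mul_le_mul_of_nonneg_left ht' (Int.natCast_nonneg e)
        have h2 : ((e * (t + 1) : ℕ) : ℤ) ≤ (d : ℤ) := by
          push_cast
          push_cast at h1
          linarith
        have h3 : e * (t + 1) ≤ d := by exact_mod_cast h2
        omega
      · rw [hsucc, pow_mul]
        have key : ∀ n : ℕ, ((τ ^ e) ^ n) x = x := by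
          intro n
          induction n with
          | zero => simp
          | succ n ih => rw [pow_succ, Equiv.Perm.mul_apply, orc_minimal_pow τ x, ih]
        exact key (t + 1)
      · rw [hsucc, orcN_mul τ (orc_minimal_pow τ x), orcN_le_iff τ hD0 hinv hx]
        exact ht'
  rw [hset, Finset.card_image_of_injective, Finset.card_range]
  intro a b hab
  simp only at hab
  have ha : 0 < e * (a + 1) := Nat.mul_pos hx (Nat.succ_pos a)
  have hb : 0 < e * (b + 1) := Nat.mul_pos hx (Nat.succ_pos b)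
  have h1 : e * (a + 1) = e * (b + 1) := by omega
  have h2 := Nat.eq_of_mul_eq_mul_left hx h1
  omega

section Finite

variable (hfix : ∀ j : ℕ, 0 < j → {x : X | (τ ^ j) x = x}.Finite)
  (horb : ∀ x : X, ∃ j : ℕ, 0 < j ∧ (τ ^ j) x = x)

/-- the fixed points of `τ^(j+1)` as a finset -/
noncomputable def orcFix (j : ℕ) : Finset X := (hfix (j + 1) (Nat.succ_pos j)).toFinset

theorem mem_orcFix {j : ℕ} {x : X} : x ∈ orcFix τ hfix j ↔ (τ ^ (j + 1)) x = x := by
  rw [orcFix, Set.Finite.mem_toFinset]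
  rfl

/-- the points with orbit of length `≤ d` -/
noncomputable def orcU (d : ℕ) : Finset X := (Finset.range d).biUnion fun j => orcFix τ hfix j

theorem orcFix_subset_orcU {d j : ℕ} (hj : j < d) : orcFix τ hfix j ⊆ orcU τ hfix d :=
  Finset.subset_biUnion_of_mem (fun j => orcFix τ hfix j) (Finset.mem_range.mpr hj)

include horb in
theorem orc_periodic (x : X) : 0 < minimalPeriod τ x := by
  obtain ⟨j, hj, hx⟩ := horb x
  exact orc_minimal_pos τ hj hx

include horb in
theorem orc_mem_orcU {d : ℕ} {D : X →₀ ℤ} (hD : D ∈ orcInv τ d) {x : X} (hx : D x ≠ 0) :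
    x ∈ orcU τ hfix d := by
  have hD' := (mem_orcInv τ).mp hD
  obtain ⟨hD0, hdeg, hinv⟩ := hD'
  have hpos := orc_periodic τ horb x
  have hb := orc_deg_ge τ hD0 hinv hpos
  rw [hdeg] at hb
  have hDx : 1 ≤ D x := by
    have := hD0 x
    simp only [Finsupp.coe_zero, Pi.zero_apply] at this
    omega
  have he : (minimalPeriod τ x : ℤ) ≤ d := by nlinarith
  have he' : minimalPeriod τ x ≤ d := by exact_mod_cast he
  rw [orcU, Finset.mem_biUnion]
  refine ⟨minimalPeriod τ x - 1, Finset.mem_range.mpr (by omega), ?_⟩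
  rw [mem_orcFix, Nat.sub_add_cancel hpos]
  exact orc_minimal_pow τ x

include horb in
theorem orc_apply_le {d : ℕ} {D : X →₀ ℤ} (hD : D ∈ orcInv τ d) (x : X) : D x ≤ d := by
  have hD' := (mem_orcInv τ).mp hD
  obtain ⟨hD0, hdeg, hinv⟩ := hD'
  have hpos := orc_periodic τ horb x
  have hb := orc_deg_ge τ hD0 hinv hpos
  rw [hdeg] at hb
  have hDx : 0 ≤ D x := hD0 x
  have h1 : (1 : ℤ) ≤ minimalPeriod τ x := by exact_mod_cast hpos
  nlinarith

include hfix horb in
theorem orcInv_finite (d : ℕ) : (orcInv τ d).Finite := by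
  refine Set.Finite.subset
    (Finset.finite_toSet ((orcU τ hfix d).finsupp fun _ => Finset.Icc (0 : ℤ) d)) ?_
  intro D hD
  rw [Finset.mem_coe, Finset.mem_finsupp_iff]
  refine ⟨fun x hx => ?_, fun x _ => ?_⟩
  · exact orc_mem_orcU τ hfix horb hD (Finsupp.mem_support_iff.mp hx)
  · rw [Finset.mem_Icc]
    exact ⟨((mem_orcInv τ).mp hD).1 x, orc_apply_le τ horb hD x⟩

include horb in
/-- `d = Σ_j #{x | τ^(j+1) x = x, x + ⋯ + τ^j x ≤ D}` -/
theorem orc_double_count {d : ℕ} {D : X →₀ ℤ} (hD : D ∈ orcInv τ d) :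
    ∑ j ∈ Finset.range d, ∑ x ∈ orcFix τ hfix j,
      (if orcN τ (j + 1) x ≤ D then 1 else 0 : ℕ) = d := by
  have hD' := (mem_orcInv τ).mp hD
  obtain ⟨hD0, hdeg, hinv⟩ := hD'
  have h1 : ∀ j ∈ Finset.range d, ∑ x ∈ orcFix τ hfix j,
      (if orcN τ (j + 1) x ≤ D then 1 else 0 : ℕ)
      = ∑ x ∈ orcU τ hfix d,
        (if (τ ^ (j + 1)) x = x ∧ orcN τ (j + 1) x ≤ D then 1 else 0 : ℕ) := by
    intro j hj
    rw [← Finset.sum_subset (orcFix_subset_orcU τ hfix (Finset.mem_range.mp hj))]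
    · refine Finset.sum_congr rfl fun x hx => ?_
      rw [mem_orcFix] at hx
      simp only [hx, true_and]
    · intro x _ hx
      rw [mem_orcFix] at hx
      simp only [hx, false_and, if_false]
  rw [Finset.sum_congr rfl h1, Finset.sum_comm]
  have h2 : ∀ x ∈ orcU τ hfix d, ∑ j ∈ Finset.range d,
      (if (τ ^ (j + 1)) x = x ∧ orcN τ (j + 1) x ≤ D then 1 else 0 : ℕ) = (D x).toNat := by
    intro x _
    rw [← orc_count τ hD x (orc_periodic τ horb x), Finset.card_filter]
  rw [Finset.sum_congr rfl h2]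
  have h3 : ((∑ x ∈ orcU τ hfix d, (D x).toNat : ℕ) : ℤ) = d := by
    push_cast
    rw [← hdeg, orcDeg_apply, Finsupp.sum]
    have h4 : ∀ x ∈ orcU τ hfix d, ((D x).toNat : ℤ) = D x := fun x _ =>
      Int.toNat_of_nonneg (hD0 x)
    rw [Finset.sum_congr rfl h4]
    symm
    refine Finset.sum_subset (fun x hx => ?_) (fun x _ hx => ?_)
    · exact orc_mem_orcU τ hfix horb hD (Finsupp.mem_support_iff.mp hx)
    · exact Finsupp.notMem_support_iff.mp hx
  exact_mod_cast h3

include horb in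
/-- the bijection `D' ↦ D' + N` on the level of sums -/
theorem orc_sum_shift {R : Type*} [CommRing R] (w : (X →₀ ℤ) → R)
    (hw : ∀ D E : X →₀ ℤ, 0 ≤ D → 0 ≤ E → Finsupp.mapDomain τ D = D →
      Finsupp.mapDomain τ E = E → w (D + E) = w D * w E)
    {d j : ℕ} (hj : j < d) {x : X} (hx : (τ ^ (j + 1)) x = x) :
    ∑ D ∈ (orcInv_finite τ hfix horb d).toFinset, (if orcN τ (j + 1) x ≤ D then w D else 0)
      = w (orcN τ (j + 1) x) * ∑ D ∈ (orcInv_finite τ hfix horb (d - 1 - j)).toFinset, w D := by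
  set N := orcN τ (j + 1) x with hN
  have hN0 : 0 ≤ N := orcN_nonneg τ _ x
  have hNinv : Finsupp.mapDomain τ N = N := orcN_inv τ hx
  have hNdeg : orcDeg N = ((j + 1 : ℕ) : ℤ) := orcDeg_N τ _ x
  rw [← Finset.sum_filter, Finset.mul_sum]
  symm
  refine Finset.sum_bij' (fun D' _ => D' + N) (fun D _ => D - N) ?_ ?_ ?_ ?_ ?_
  · intro D' hD'
    rw [Set.Finite.mem_toFinset, mem_orcInv] at hD'
    obtain ⟨h0, hdeg, hinv⟩ := hD'
    rw [Finset.mem_filter, Set.Finite.mem_toFinset, mem_orcInv]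
    refine ⟨⟨add_nonneg h0 hN0, ?_, ?_⟩, ?_⟩
    · rw [map_add, hdeg, hNdeg]
      push_cast
      omega
    · rw [Finsupp.mapDomain_add, hinv, hNinv]
    · exact le_add_of_nonneg_left h0
  · intro D hD
    rw [Finset.mem_filter, Set.Finite.mem_toFinset, mem_orcInv] at hD
    obtain ⟨⟨h0, hdeg, hinv⟩, hle⟩ := hD
    rw [Set.Finite.mem_toFinset, mem_orcInv]
    refine ⟨sub_nonneg.mpr hle, ?_, ?_⟩
    · rw [map_sub, hdeg, hNdeg]
      push_cast
      omega
    · have := Finsupp.mapDomain_add (f := τ) (v₁ := D - N) (v₂ := N)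
      rw [sub_add_cancel, hinv, hNinv] at this
      have h2 : D - N + N = Finsupp.mapDomain τ (D - N) + N := by
        rw [sub_add_cancel]
        exact this
      exact (add_right_cancel h2).symm
  · intro D' _
    exact add_sub_cancel_right D' N
  · intro D _
    exact sub_add_cancel D N
  · intro D' hD'
    rw [Set.Finite.mem_toFinset, mem_orcInv] at hD'
    obtain ⟨h0, -, hinv⟩ := hD'
    rw [hw D' N h0 hN0 hinv hNinv, mul_comm]

end Finite

end OrbitRec

/-- **Seat Z5b-ABS.**  The abstract orbit recursion. -/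
theorem orbit_recursion {X : Type*} {R : Type*} [CommRing R] (τ : Equiv.Perm X)
    (hfix : ∀ j : ℕ, 0 < j → {x : X | (τ ^ j) x = x}.Finite)
    (horb : ∀ x : X, ∃ j : ℕ, 0 < j ∧ (τ ^ j) x = x)
    (w : (X →₀ ℤ) → R)
    (hw : ∀ D E : X →₀ ℤ, 0 ≤ D → 0 ≤ E → Finsupp.mapDomain τ D = D →
      Finsupp.mapDomain τ E = E → w (D + E) = w D * w E)
    (d : ℕ) :
    (d : R) * ∑ᶠ D ∈ {D : X →₀ ℤ | 0 ≤ D ∧ (D.sum fun _ n => n) = (d : ℤ) ∧
        Finsupp.mapDomain τ D = D}, w D
      = ∑ j ∈ Finset.range d,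
          (∑ᶠ x ∈ {x : X | (τ ^ (j + 1)) x = x},
              w (∑ i ∈ Finset.range (j + 1), Finsupp.single ((τ ^ i) x) (1 : ℤ)))
            * ∑ᶠ D ∈ {D : X →₀ ℤ | 0 ≤ D ∧ (D.sum fun _ n => n) = ((d - 1 - j : ℕ) : ℤ) ∧
                Finsupp.mapDomain τ D = D}, w D := by
  classical
  have hA : ∀ e : ℕ, ∑ᶠ D ∈ {D : X →₀ ℤ | 0 ≤ D ∧ (D.sum fun _ n => n) = (e : ℤ) ∧
      Finsupp.mapDomain τ D = D}, w D = ∑ D ∈ (orcInv_finite τ hfix horb e).toFinset, w D :=
    fun e => finsum_mem_eq_finite_toFinset_sum w (orcInv_finite τ hfix horb e)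
  have hX : ∀ j : ℕ, ∑ᶠ x ∈ {x : X | (τ ^ (j + 1)) x = x},
      w (∑ i ∈ Finset.range (j + 1), Finsupp.single ((τ ^ i) x) (1 : ℤ))
        = ∑ x ∈ orcFix τ hfix j, w (orcN τ (j + 1) x) :=
    fun j => finsum_mem_eq_finite_toFinset_sum _ (hfix (j + 1) (Nat.succ_pos j))
  rw [hA d]
  simp only [hA, hX]
  rw [Finset.mul_sum]
  have h1 : ∀ D ∈ (orcInv_finite τ hfix horb d).toFinset, (d : R) * w D
      = ∑ j ∈ Finset.range d, ∑ x ∈ orcFix τ hfix j,
          (if orcN τ (j + 1) x ≤ D then w D else 0) := by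
    intro D hD
    rw [Set.Finite.mem_toFinset] at hD
    have hc := orc_double_count τ hfix horb hD
    have hc' : ((∑ j ∈ Finset.range d, ∑ x ∈ orcFix τ hfix j,
        (if orcN τ (j + 1) x ≤ D then 1 else 0 : ℕ) : ℕ) : R) = (d : R) := by
      rw [hc]
    rw [← hc']
    push_cast
    rw [Finset.sum_mul]
    refine Finset.sum_congr rfl fun j _ => ?_
    rw [Finset.sum_mul]
    refine Finset.sum_congr rfl fun x _ => ?_
    split_ifs <;> simp
  rw [Finset.sum_congr rfl h1, Finset.sum_comm]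
  refine Finset.sum_congr rfl fun j hj => ?_
  rw [Finset.sum_comm, Finset.sum_mul]
  refine Finset.sum_congr rfl fun x hx => ?_
  rw [mem_orcFix] at hx
  exact orc_sum_shift τ hfix horb w hw (Finset.mem_range.mp hj) hx

end Fermat.Agent.S27
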