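import Mathlib
import Fermat.Agent.S27.Zeta.Defs
import Fermat.Agent.S27.Zeta.Fin
import Fermat.Agent.S27.Zeta.Newton
import Fermat.Agent.S27.Zeta.OrbitRec

set_option autoImplicit false

/-!
# S27, part D, seat Z5b (COUNT): the Newton sequence of `L(χ, t)` is `ν_j(χ)`

(replaces the Euler product.)  For an invariant effective `D` of degree `d`:
`d = Σ_P D(P)`, so
  `d Lcoef χ d = Σ_D χ(D) Σ_P D(P) = Σ_P Σ_{i ≥ 1} Σ_{D : D(P) ≥ i} χ(D)`.
For `P` with orbit `O_P` of length `e`: `{D : D(P) ≥ i} = {D' + i O_P}`, `deg D' = d - i e`, and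
`χ(D' + i O_P) = χ(D') χ(i O_P)`, `i O_P = nrmPl (i e) P`.  With `j = i e`:
  `d Lcoef χ d = Σ_{j ≥ 1} Lcoef χ (d - j) Σ_{P : e(P) ∣ j} χ(nrmPl j P) = Σ_j ν_j(χ) Lcoef χ (d - j)`
because `σ^j P = P ⟺ e(P) ∣ j`.   (`cls` of an invariant divisor lies in `J₁` since `σ P₀ = P₀`;
`cls` is additive since `deg P₀ = 1`.)

The combinatorial identity is `orbit_recursion` (`Zeta/OrbitRec.lean`, Mathlib only); this file is
the bridge (helper29).
-/

noncomputable section

open AlgebraicCurve PowerSeries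

namespace Fermat.Agent.S27

open Fermat.Agent.RR

variable {k F : Type*} [Field k] [Field F] [Algebra k F]

namespace FrobStr

/-- the permutation of the places induced by `σ` -/
def placePerm (S : FrobStr k F) : Equiv.Perm (Place k F) := MulAction.toPerm S.σ

theorem placePerm_pow_apply (S : FrobStr k F) (j : ℕ) (P : Place k F) :
    (S.placePerm ^ j) P = (S.σ ^ j) • P := by
  unfold placePerm
  induction j generalizing P with
  | zero => simp
  | succ j ih =>
    rw [pow_succ, pow_succ, Equiv.Perm.mul_apply, mul_smul, ← ih]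
    rfl

/-- the degree is the sum of the coefficients -/
theorem degree_eq_sum (hRR : IsRRField k F) (D : Divisor k F) :
    Divisor.degree D = D.sum fun _ n => n := by
  unfold Divisor.degree
  rw [Finsupp.liftAddHom_apply]
  refine Finsupp.sum_congr fun v _ => ?_
  rw [AddMonoidHom.coe_mulRight, hRR.deg_one v, Nat.cast_one]
  exact mul_one _

theorem degree_sub_eq_zero (hRR : IsRRField k F) (S : FrobStr k F) (D : Divisor k F) :
    Divisor.degree (D - Divisor.degree D • Finsupp.single S.P₀ (1 : ℤ)) = 0 := by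
  rw [map_sub, map_zsmul, Divisor.degree_single, hRR.deg_one S.P₀, Nat.cast_one, mul_one,
    smul_eq_mul, mul_one, sub_self]

theorem cls_eq (hRR : IsRRField k F) (S : FrobStr k F) (D : Divisor k F) :
    S.cls D = Pic0.mk ⟨D - Divisor.degree D • Finsupp.single S.P₀ (1 : ℤ),
      degree_sub_eq_zero hRR S D⟩ := by
  unfold cls
  rw [dif_pos (degree_sub_eq_zero hRR S D)]

theorem cls_add (hRR : IsRRField k F) (S : FrobStr k F) (D E : Divisor k F) :
    S.cls (D + E) = S.cls D + S.cls E := by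
  rw [cls_eq hRR, cls_eq hRR, cls_eq hRR, ← Pic0.mk_add]
  congr 1
  apply Subtype.ext
  show D + E - Divisor.degree (D + E) • Finsupp.single S.P₀ (1 : ℤ) =
    (D - Divisor.degree D • Finsupp.single S.P₀ (1 : ℤ)) +
      (E - Divisor.degree E • Finsupp.single S.P₀ (1 : ℤ))
  rw [map_add, add_smul]
  abel

theorem cls_mem_fixedPow (hRR : IsRRField k F) (S : FrobStr k F) {D : Divisor k F}
    (hD : S.σ • D = D) : S.cls D ∈ fixedPow S.sigmaEnd 1 := by
  rw [mem_fixedPow, pow_one, sigmaEnd_apply, cls_eq hRR, SemilinearAut.pic0_smul_mk]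
  congr 1
  apply Subtype.ext
  rw [SemilinearAut.coe_degZeroSMulHom]
  show S.σ • (D - Divisor.degree D • Finsupp.single S.P₀ (1 : ℤ)) =
    D - Divisor.degree D • Finsupp.single S.P₀ (1 : ℤ)
  rw [smul_sub, hD, smul_comm, SemilinearAut.smul_single, S.fixed]

theorem chi_cls_add (hRR : IsRRField k F) (S : FrobStr k F) {χ : Pic0 k F → ℂ}
    (hχ : S.IsCharOn χ) {D E : Divisor k F} (hD : S.σ • D = D) (hE : S.σ • E = E) :
    χ (S.cls (D + E)) = χ (S.cls D) * χ (S.cls E) := by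
  rw [cls_add hRR]
  exact hχ.map_add _ (cls_mem_fixedPow hRR S hD) _ (cls_mem_fixedPow hRR S hE)

theorem effInv_eq (hRR : IsRRField k F) (S : FrobStr k F) (d : ℕ) :
    S.effInv d = {D : Place k F →₀ ℤ | 0 ≤ D ∧ (D.sum fun _ n => n) = (d : ℤ) ∧
      Finsupp.mapDomain S.placePerm D = D} := by
  ext D
  simp only [effInv, Set.mem_ofPred_eq, degree_eq_sum hRR]
  rfl

theorem fixPl_eq (S : FrobStr k F) (j : ℕ) :
    S.fixPl j = {x : Place k F | (S.placePerm ^ j) x = x} := by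
  ext P
  simp only [fixPl, Set.mem_ofPred_eq, placePerm_pow_apply]

theorem nrmPl_eq (S : FrobStr k F) (j : ℕ) (P : Place k F) :
    S.nrmPl j P = ∑ i ∈ Finset.range j, Finsupp.single ((S.placePerm ^ i) P) (1 : ℤ) := by
  unfold nrmPl
  refine Finset.sum_congr rfl fun i _ => ?_
  rw [placePerm_pow_apply]

theorem placePerm_finite (hRR : IsRRField k F) (S : FrobStr k F) (j : ℕ) (hj : 0 < j) :
    {x : Place k F | (S.placePerm ^ j) x = x}.Finite := by
  rw [← fixPl_eq]
  exact fixPl_finite hRR S j hj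

theorem placePerm_orbit (hRR : IsRRField k F) (S : FrobStr k F) (x : Place k F) :
    ∃ j : ℕ, 0 < j ∧ (S.placePerm ^ j) x = x := by
  obtain ⟨j, hj, hx⟩ := exists_mem_fixPl hRR S x
  rw [fixPl_eq] at hx
  exact ⟨j, hj, hx⟩

end FrobStr

/-- the number of elements of a finite set as a `finsum` -/
theorem finsum_mem_one_eq_card {α : Type*} (s : Set α) (hs : s.Finite) :
    ∑ᶠ x ∈ s, (1 : ℤ) = (Nat.card s : ℤ) := by
  rw [finsum_mem_eq_finite_toFinset_sum _ hs, Finset.sum_const, nsmul_eq_mul, mul_one,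
    Nat.card_eq_card_finite_toFinset hs]

/-- **Seat Z5b (COUNT).** -/
theorem isNewton_Lser (hRR : IsRRField k F) (S : FrobStr k F) (χ : Pic0 k F → ℂ)
    (hχ : S.IsCharOn χ) : IsNewton (S.Lser χ) (S.nu χ) := by
  rw [isNewton_iff]
  intro d
  have h := orbit_recursion (R := ℂ) S.placePerm (S.placePerm_finite hRR) (S.placePerm_orbit hRR)
    (fun D => χ (S.cls D))
    (fun D E _ _ hD hE => FrobStr.chi_cls_add hRR S hχ hD hE) d
  have hL : ∀ e : ℕ, coeff e (S.Lser χ) = ∑ᶠ D ∈ {D : Place k F →₀ ℤ | 0 ≤ D ∧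
      (D.sum fun _ n => n) = (e : ℤ) ∧ Finsupp.mapDomain S.placePerm D = D}, χ (S.cls D) := by
    intro e
    rw [FrobStr.Lser, coeff_mk, FrobStr.Lcoef, FrobStr.effInv_eq hRR]
  have hν : ∀ j : ℕ, S.nu χ j = ∑ᶠ x ∈ {x : Place k F | (S.placePerm ^ j) x = x},
      χ (S.cls (∑ i ∈ Finset.range j, Finsupp.single ((S.placePerm ^ i) x) (1 : ℤ))) := by
    intro j
    rw [FrobStr.nu, FrobStr.fixPl_eq]
    refine finsum_mem_congr rfl fun x _ => ?_
    rw [FrobStr.nrmPl_eq]
  rw [hL d, h]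
  refine Finset.sum_congr rfl fun j _ => ?_
  rw [hL, hν]

/-- **Seat Z5b (COUNT)**, the case `χ = 1`: the Newton sequence of `Z` is `N_j`. -/
theorem isNewton_zeta (hRR : IsRRField k F) (S : FrobStr k F) :
    IsNewton S.zeta (fun j => (S.Npl j : ℤ)) := by
  rw [isNewton_iff]
  intro d
  have h := orbit_recursion (R := ℤ) S.placePerm (S.placePerm_finite hRR) (S.placePerm_orbit hRR)
    (fun _ => (1 : ℤ)) (fun _ _ _ _ _ _ => (mul_one _).symm) d
  have hL : ∀ e : ℕ, coeff e S.zeta = ∑ᶠ D ∈ {D : Place k F →₀ ℤ | 0 ≤ D ∧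
      (D.sum fun _ n => n) = (e : ℤ) ∧ Finsupp.mapDomain S.placePerm D = D}, (1 : ℤ) := by
    intro e
    rw [FrobStr.zeta, coeff_mk, FrobStr.aCoef, ← FrobStr.effInv_eq hRR,
      finsum_mem_one_eq_card _ (effInv_finite hRR S e)]
  have hν : ∀ j : ℕ, (S.Npl (j + 1) : ℤ) =
      ∑ᶠ x ∈ {x : Place k F | (S.placePerm ^ (j + 1)) x = x}, (1 : ℤ) := by
    intro j
    rw [FrobStr.Npl, ← FrobStr.fixPl_eq,
      finsum_mem_one_eq_card _ (fixPl_finite hRR S (j + 1) (Nat.succ_pos j))]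
  rw [hL d, h]
  refine Finset.sum_congr rfl fun j _ => ?_
  rw [hL, hν]

end Fermat.Agent.S27
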