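import Mathlib
import Fermat.Agent.S27.Zeta.Defs

set_option autoImplicit false

/-!
# S27, part D, seat Z5a-MAT (NEWTON for matrices, pure algebra)

PROVED (helper21): Jacobi's formula via dual numbers over `R⟦t⟧` (`nwj_derivative_charpolyRev`),
the matrix via the power basis of `AdjoinRoot (P.reflect n)`.

* `det (1 - t B)` has Newton sequence `- tr (B^j)`.  Proof: over `R⟦t⟧[s]`,
  `det (1 - (t + s) B) = det (1 - t B) det (1 - s B (1 - t B)⁻¹)`; the coefficient of `s` is
  `d/dt det (1 - t B) = - det (1 - t B) tr (B (1 - t B)⁻¹)` (`Matrix.derivative_det_one_add_X_smul`),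
  and `(1 - t B)⁻¹ = Σ t^j B^j`.  (Or: Jacobi's formula with the adjugate / dual numbers.)
* an integer polynomial `P` with `P(0) = 1` is `det (1 - t A)` for an integer matrix `A`
  (companion matrix of the reversed polynomial; or `Algebra.leftMulMatrix` of the root of
  `AdjoinRoot P.reverse` in its power basis + `Matrix.charpoly_leftMulMatrix`,
  `Matrix.reverse_charpoly`).
-/

noncomputable section

open PowerSeries

namespace Fermat.Agent.S27

variable {R : Type*} [CommRing R]


section Jacobi

variable {n : ℕ} (B : Matrix (Fin n) (Fin n) R)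

/-- the matrix `Σ t^j B^j` over `R⟦t⟧` -/
def nwjGeom : Matrix (Fin n) (Fin n) R⟦X⟧ := fun a b => PowerSeries.mk fun j => (B ^ j) a b

theorem nwj_one_sub_mul_geom :
    (1 - (X : R⟦X⟧) • B.map (C : R →+* R⟦X⟧)) * nwjGeom B = 1 := by
  ext a b d
  rw [Matrix.sub_mul, Matrix.one_mul, Matrix.smul_mul, Matrix.sub_apply, Matrix.smul_apply,
    smul_eq_mul, map_sub]
  cases d with
  | zero =>
    rw [coeff_zero_X_mul, sub_zero]
    simp only [nwjGeom, coeff_mk, pow_zero]
    by_cases hab : a = b
    · subst hab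
      simp
    · simp [Matrix.one_apply_ne hab]
  | succ d =>
    rw [coeff_succ_X_mul, Matrix.mul_apply, map_sum]
    simp only [nwjGeom, coeff_mk, Matrix.map_apply, coeff_C_mul]
    rw [pow_succ', Matrix.mul_apply, sub_self]
    by_cases hab : a = b
    · subst hab
      simp
    · simp [Matrix.one_apply_ne hab]

theorem nwj_trace_geom_mul :
    Matrix.trace (nwjGeom B * B.map (C : R →+* R⟦X⟧))
      = PowerSeries.mk fun j => (B ^ (j + 1)).trace := by
  ext d
  rw [coeff_mk, Matrix.trace, Matrix.trace, map_sum]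
  refine Finset.sum_congr rfl fun a _ => ?_
  rw [Matrix.diag_apply, Matrix.diag_apply, Matrix.mul_apply, map_sum, pow_succ, Matrix.mul_apply]
  refine Finset.sum_congr rfl fun c _ => ?_
  simp only [nwjGeom, Matrix.map_apply]
  rw [mul_comm, coeff_C_mul, coeff_mk, mul_comm]

theorem nwj_coe_charpolyRev :
    ((B.charpolyRev : Polynomial R) : R⟦X⟧)
      = Matrix.det (1 - (X : R⟦X⟧) • B.map (C : R →+* R⟦X⟧)) := by
  have h := RingHom.map_det (Polynomial.coeToPowerSeries.ringHom (R := R))
    (1 - (Polynomial.X : Polynomial R) • B.map (Polynomial.C : R →+* Polynomial R))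
  rw [Matrix.charpolyRev]
  rw [show ((Matrix.det (1 - (Polynomial.X : Polynomial R) • B.map (Polynomial.C)) :
      Polynomial R) : R⟦X⟧) = Polynomial.coeToPowerSeries.ringHom
        (Matrix.det (1 - (Polynomial.X : Polynomial R) • B.map (Polynomial.C))) from rfl, h]
  congr 1
  ext a b d
  simp [Matrix.map_apply, Matrix.sub_apply, Matrix.one_apply, apply_ite]
  exact mul_comm _ _

end Jacobi

section Dual

variable {S : Type*} [CommRing S] {n : ℕ}

open TrivSqZeroExt in
/-- the first-order expansion of `det (M - ε N)` when `M` is invertible -/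
theorem nwj_det_sub_eps (M V N : Matrix (Fin n) (Fin n) S) (hMV : M * V = 1) :
    Matrix.det (M.map (inlHom S S) - (DualNumber.eps : DualNumber S) • N.map (inlHom S S))
      = inlHom S S (Matrix.det M)
        - DualNumber.eps * inlHom S S (Matrix.det M * Matrix.trace (V * N)) := by
  have hMV' : M.map (inlHom S S) * V.map (inlHom S S) = 1 := by
    have h1 := congrArg (inlHom S S).mapMatrix hMV
    rw [map_mul, map_one] at h1
    exact h1
  have hfac : M.map (inlHom S S) - (DualNumber.eps : DualNumber S) • N.map (inlHom S S)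
      = M.map (inlHom S S) * (1 + (-(DualNumber.eps : DualNumber S)) •
          (V.map (inlHom S S) * N.map (inlHom S S))) := by
    rw [Matrix.mul_add, Matrix.mul_one, Matrix.mul_smul, ← Matrix.mul_assoc, hMV',
      Matrix.one_mul, neg_smul, sub_eq_add_neg]
  rw [hfac, Matrix.det_mul, Matrix.det_one_add_smul]
  have heps : (-(DualNumber.eps : DualNumber S)) ^ 2 = 0 := by
    rw [neg_sq, pow_two, DualNumber.eps_mul_eps]
  rw [heps, mul_zero, add_zero]
  have hdet : Matrix.det (M.map (inlHom S S)) = inlHom S S (Matrix.det M) :=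
    (RingHom.map_det (inlHom S S) M).symm
  have htr : Matrix.trace (V.map (inlHom S S) * N.map (inlHom S S))
      = inlHom S S (Matrix.trace (V * N)) := by
    rw [← Matrix.map_mul]
    exact (AddMonoidHom.map_trace (inlHom S S).toAddMonoidHom (V * N)).symm
  rw [hdet, htr, map_mul]
  ring

end Dual


open TrivSqZeroExt in
/-- Jacobi's formula for `det (1 - t B)` in `R⟦t⟧` -/
theorem nwj_derivative_charpolyRev {n : ℕ} (B : Matrix (Fin n) (Fin n) R) :
    PowerSeries.derivative R ((B.charpolyRev : Polynomial R) : R⟦X⟧)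
      = -(((B.charpolyRev : Polynomial R) : R⟦X⟧)
          * PowerSeries.mk fun j => (B ^ (j + 1)).trace) := by
  set P : Polynomial R := B.charpolyRev with hP
  let ι : R⟦X⟧ →+* DualNumber R⟦X⟧ := inlHom R⟦X⟧ R⟦X⟧
  let f : R →+* DualNumber R⟦X⟧ := ι.comp (C : R →+* R⟦X⟧)
  have hε : (DualNumber.eps : DualNumber R⟦X⟧) ^ 2 = 0 := by
    rw [pow_two, DualNumber.eps_mul_eps]
  have h1 := Polynomial.eval_add_of_sq_eq_zero (P.map f) (ι X) DualNumber.eps hε
  have hev : ∀ z : DualNumber R⟦X⟧, (P.map f).eval z = Matrix.det (1 - z • B.map f) := by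
    intro z
    rw [Polynomial.eval_map, hP, Matrix.charpolyRev, ← Polynomial.coe_eval₂RingHom,
      RingHom.map_det]
    congr 1
    refine Matrix.ext fun a b => ?_
    simp only [RingHom.mapMatrix_apply, Matrix.map_apply, Matrix.sub_apply, Matrix.smul_apply,
      Matrix.one_apply, map_sub, smul_eq_mul, Polynomial.coe_eval₂RingHom]
    split_ifs <;> simp <;> exact mul_comm _ _
  have hx : (P.map f).eval (ι X) = ι (P : R⟦X⟧) := by
    rw [Polynomial.eval_map, ← Polynomial.eval₂_C_X_eq_coe, Polynomial.hom_eval₂]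
  have hdx : (P.map f).derivative.eval (ι X) = ι (PowerSeries.derivative R (P : R⟦X⟧)) := by
    rw [Polynomial.derivative_map, Polynomial.eval_map, PowerSeries.derivative_coe,
      ← Polynomial.eval₂_C_X_eq_coe, Polynomial.hom_eval₂]
  have hdet := nwj_det_sub_eps (1 - (X : R⟦X⟧) • B.map (C : R →+* R⟦X⟧)) (nwjGeom B)
    (B.map (C : R →+* R⟦X⟧)) (nwj_one_sub_mul_geom B)
  have hmat : (1 - (X : R⟦X⟧) • B.map (C : R →+* R⟦X⟧)).map ι
      - (DualNumber.eps : DualNumber R⟦X⟧) • (B.map (C : R →+* R⟦X⟧)).map ι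
        = 1 - (ι X + DualNumber.eps) • B.map f := by
    refine Matrix.ext fun a b => ?_
    simp only [Matrix.map_apply, Matrix.sub_apply, Matrix.smul_apply, Matrix.one_apply, map_sub,
      smul_eq_mul, map_mul, f, RingHom.comp_apply]
    split_ifs <;> simp <;> ring
  rw [hev, ← hmat, hdet, hx, hdx, ← nwj_coe_charpolyRev, nwj_trace_geom_mul] at h1
  have h2 := congrArg TrivSqZeroExt.snd h1
  simp only [ι, inlHom_apply, snd_sub, snd_add, snd_inl, DualNumber.snd_mul, DualNumber.fst_eps,
    DualNumber.snd_eps, fst_inl, mul_one, zero_add, zero_sub, mul_zero, add_zero,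
    one_mul] at h2
  rw [← h2]

/-- **Newton's identities for a matrix**: `det (1 - t B)` has Newton sequence `- tr (B^j)` -/
theorem isNewton_charpolyRev {n : ℕ} (B : Matrix (Fin n) (Fin n) R) :
    IsNewton ((B.charpolyRev : Polynomial R) : R⟦X⟧) (fun j => -(B ^ j).trace) := by
  unfold IsNewton
  rw [nwj_derivative_charpolyRev]
  have hS : (PowerSeries.mk fun j => if j = 0 then 0 else -(B ^ j).trace)
      = - (X * PowerSeries.mk fun j => (B ^ (j + 1)).trace) := by
    ext d
    rw [coeff_mk, map_neg]
    cases d with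
    | zero => simp
    | succ d => rw [coeff_succ_X_mul, coeff_mk, if_neg (Nat.succ_ne_zero d)]
  rw [hS]
  ring

/-- an integer polynomial with constant term `1` is `det (1 - t A)` -/
theorem exists_matrix_charpolyRev (P : Polynomial ℤ) (n : ℕ) (hdeg : P.natDegree = n)
    (h0 : P.coeff 0 = 1) :
    ∃ A : Matrix (Fin n) (Fin n) ℤ, A.charpolyRev = P ∧ A.det = (-1) ^ n * P.leadingCoeff := by
  set G : Polynomial ℤ := P.reflect n with hG
  have hGn : G.coeff n = 1 := by
    rw [hG, Polynomial.coeff_reflect, Polynomial.revAt_le le_rfl, Nat.sub_self, h0]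
  have hGdeg_le : G.natDegree ≤ n := by
    have := Polynomial.natDegree_reflect_le (N := n) (p := P)
    rw [hdeg, max_self] at this
    exact this
  have hGmonic : G.Monic := Polynomial.monic_of_natDegree_le_of_coeff_eq_one n hGdeg_le hGn
  have hGdeg : G.natDegree = n := by
    refine le_antisymm hGdeg_le ?_
    refine Polynomial.le_natDegree_of_ne_zero ?_
    rw [hGn]
    exact one_ne_zero
  let pb := AdjoinRoot.powerBasis' hGmonic
  have hdim : pb.dim = n := hGdeg
  have hmin : minpoly ℤ pb.gen = G := by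
    symm
    refine minpoly.unique' ℤ pb.gen hGmonic ?_ ?_
    · show Polynomial.aeval (AdjoinRoot.root G) G = 0
      rw [AdjoinRoot.aeval_eq, AdjoinRoot.mk_self]
    · intro q hq
      by_cases hq0 : q = 0
      · exact Or.inl hq0
      · right
        intro hzero
        have hzero' : Polynomial.aeval (AdjoinRoot.root G) q = 0 := hzero
        rw [AdjoinRoot.aeval_eq, AdjoinRoot.mk_eq_zero] at hzero'
        exact hq0 (Polynomial.eq_zero_of_dvd_of_degree_lt hzero' hq)
  let M0 : Matrix (Fin pb.dim) (Fin pb.dim) ℤ := Algebra.leftMulMatrix pb.basis pb.gen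
  have hchar0 : M0.charpoly = G := (charpoly_leftMulMatrix pb).trans hmin
  refine ⟨Matrix.reindex (finCongr hdim) (finCongr hdim) M0, ?_, ?_⟩
  · rw [← Matrix.reverse_charpoly, Matrix.charpoly_reindex, hchar0, Polynomial.reverse, hGdeg, hG,
      Polynomial.reflect_reflect]
  · rw [Matrix.det_eq_sign_charpoly_coeff, Matrix.charpoly_reindex, hchar0, Fintype.card_fin, hG,
      Polynomial.coeff_reflect, Polynomial.revAt_le (Nat.zero_le n), Nat.sub_zero,
      Polynomial.leadingCoeff, hdeg]

end Fermat.Agent.S27
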