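import Mathlib

/-!
# S27 / D3 : Lang's lemma (semilinear Hilbert 90 for Frobenius)

`k` algebraically closed, `V` a finite-dimensional `k`-vector space, `T : V →+ V` an injective
additive map which is `q`-semilinear (`T (c • v) = c ^ q • T v`, `1 < q`).  Then `V` has a
`k`-basis of `T`-fixed vectors, and the number of fixed vectors is `q ^ dim V`.

Everything is elementary (no Galois cohomology):

* `exists_fixed_ne_zero` : a nonzero fixed vector in `V ≠ 0`;
* `span_fixed_eq_top`    : the fixed vectors span `V` (semilinear form, induction via `V ⧸ W`);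
* `exists_basis_fixed`, `fixed_iff_coord`, `card_fixed` : consumer forms.
-/

namespace Fermat.Agent.S27.Lang

open Polynomial

section Step1

variable {k : Type*} [Field k]

/-- The auxiliary polynomials: `H 0 = a 0`, `H (i+1) = X ^ (q (q-1)) * (H i) ^ q + a (i+1)`. -/
noncomputable def hPoly (q : ℕ) (a : ℕ → k) : ℕ → k[X]
  | 0 => C (a 0)
  | (i + 1) => X ^ (q * (q - 1)) * (hPoly q a i) ^ q + C (a (i + 1))

lemma hPoly_ne_zero {q : ℕ} (hq : 1 < q) (a : ℕ → k) (m : ℕ) (h : ∃ i, i ≤ m ∧ a i ≠ 0) :
    hPoly q a m ≠ 0 := by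
  induction m with
  | zero =>
    obtain ⟨i, hi, hai⟩ := h
    have : i = 0 := by omega
    subst this
    simpa [hPoly] using hai
  | succ m ih =>
    by_cases hm : hPoly q a m = 0
    · have ha : a (m + 1) ≠ 0 := by
        obtain ⟨i, hi, hai⟩ := h
        rcases Nat.lt_or_ge i (m + 1) with h1 | h1
        · exact absurd hm (ih ⟨i, by omega, hai⟩)
        · have : i = m + 1 := by omega
          subst this; exact hai
      have hq0 : q ≠ 0 := by omega
      simp [hPoly, hm, hq0, ha]
    · intro h0
      have h1 : X ^ (q * (q - 1)) * (hPoly q a m) ^ q = C (- a (m + 1)) := by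
        have := h0
        simp only [hPoly] at this
        rw [map_neg]
        exact eq_neg_of_add_eq_zero_left this
      have h2 := congrArg natDegree h1
      rw [natDegree_X_pow_mul _ (pow_ne_zero _ hm), natDegree_C] at h2
      have h3 : 0 < q * (q - 1) := Nat.mul_pos (by omega) (by omega)
      omega

lemma exists_root_aux [IsAlgClosed k] {q : ℕ} (hq : 1 < q) (H : k[X]) (hH : H ≠ 0) :
    ∃ t : k, t ^ (q - 1) * H.eval t = 1 := by
  have hnd : (X ^ (q - 1) * H - 1 : k[X]).natDegree = H.natDegree + (q - 1) := by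
    rw [natDegree_sub_eq_left_of_natDegree_lt, natDegree_X_pow_mul _ hH]
    have h1 : (1 : k[X]).natDegree = 0 := natDegree_one
    rw [natDegree_X_pow_mul _ hH, h1]
    have h2 : 0 < q - 1 := by omega
    exact Nat.lt_of_lt_of_le h2 (Nat.le_add_left _ _)
  have hdeg : (X ^ (q - 1) * H - 1 : k[X]).degree ≠ 0 := by
    intro h0
    have h1 := natDegree_eq_zero_iff_degree_le_zero.2 h0.le
    rw [hnd] at h1
    omega
  obtain ⟨t, ht⟩ := IsAlgClosed.exists_root _ hdeg
  refine ⟨t, ?_⟩
  simpa [IsRoot, sub_eq_zero] using ht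

variable {V : Type*} [AddCommGroup V] [Module k V]

lemma iterate_indep (T : V → V) (v : V) (m : ℕ)
    (h : ∀ r < m, T^[r] v ∉ Submodule.span k (Set.range (fun i : Fin r => T^[(i : ℕ)] v))) :
    LinearIndependent k (fun i : Fin m => T^[(i : ℕ)] v) := by
  induction m with
  | zero => exact linearIndependent_empty_type
  | succ m ih =>
    rw [linearIndependent_finSucc']
    exact ⟨ih (fun r hr => h r (by omega)), h m (Nat.lt_succ_self m)⟩

/-- **Step 1.** A nonzero fixed vector of an injective `q`-semilinear additive endomorphism of a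
nonzero finite-dimensional vector space over an algebraically closed field. -/
theorem exists_fixed_ne_zero [IsAlgClosed k] [FiniteDimensional k V] [Nontrivial V]
    (T : V →+ V) {q : ℕ} (hq : 1 < q)
    (hT : ∀ (c : k) (v : V), T (c • v) = c ^ q • T v) (hinj : Function.Injective T) :
    ∃ w : V, w ≠ 0 ∧ T w = w := by
  classical
  obtain ⟨v, hv⟩ := exists_ne (0 : V)
  have hex : ∃ r, T^[r] v ∈ Submodule.span k (Set.range (fun i : Fin r => T^[(i : ℕ)] v)) := by
    by_contra hne
    push Not at hne
    have := (iterate_indep (k := k) T v (Module.finrank k V + 1)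
      (fun r _ => hne r)).fintype_card_le_finrank
    simp at this
  obtain ⟨r, hPr, hmin⟩ : ∃ r, T^[r] v ∈ Submodule.span k
      (Set.range (fun i : Fin r => T^[(i : ℕ)] v)) ∧
      ∀ m < r, T^[m] v ∉ Submodule.span k (Set.range (fun i : Fin m => T^[(i : ℕ)] v)) :=
    ⟨Nat.find hex, Nat.find_spec hex, fun m hm => Nat.find_min hex hm⟩
  have hind := iterate_indep (k := k) T v r hmin
  have hr0 : r ≠ 0 := by
    rintro rfl
    simp at hPr
    exact hv hPr
  obtain ⟨r', hr'⟩ := Nat.exists_eq_succ_of_ne_zero hr0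
  obtain ⟨a', ha'⟩ := (Submodule.mem_span_range_iff_exists_fun k).1 hPr
  let a : ℕ → k := fun i => if h : i < r then a' ⟨i, h⟩ else 0
  have ha : ∑ i ∈ Finset.range r, a i • T^[i] v = T^[r] v := by
    rw [← ha', ← Fin.sum_univ_eq_sum_range (fun i => a i • T^[i] v) r]
    refine Finset.sum_congr rfl (fun i _ => ?_)
    simp [a]
  have hane : ∃ i, i ≤ r' ∧ a i ≠ 0 := by
    by_contra hcon
    push Not at hcon
    have h0 : T^[r] v = 0 := by
      rw [← ha]
      refine Finset.sum_eq_zero (fun i hi => ?_)
      rw [hcon i (by have := Finset.mem_range.1 hi; omega), zero_smul]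
    have h1 : T^[r] (0 : V) = 0 := by
      clear * -
      induction r with
      | zero => rfl
      | succ n ih => rw [Function.iterate_succ_apply', ih, map_zero]
    exact hv (hinj.iterate r (h0.trans h1.symm))
  obtain ⟨t, ht⟩ := exists_root_aux hq (hPoly q a r') (hPoly_ne_zero hq a r' hane)
  have ht0 : t ≠ 0 := by
    rintro rfl
    have : q - 1 ≠ 0 := by omega
    simp [this] at ht
  let c : ℕ → k := fun i => t ^ q * (hPoly q a i).eval t
  have hc0 : c 0 = t ^ q * a 0 := by simp [c, hPoly]
  have hcs : ∀ i, c (i + 1) = (c i) ^ q + t ^ q * a (i + 1) := by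
    intro i
    simp only [c, hPoly, eval_add, eval_mul, eval_pow, eval_X, eval_C]
    have h1 : t ^ q * t ^ (q * (q - 1)) = (t ^ q) ^ q := by
      rw [← pow_mul, ← pow_add]
      congr 1
      obtain ⟨s, rfl⟩ : ∃ s, q = s + 1 := ⟨q - 1, by omega⟩
      simp only [Nat.add_sub_cancel]
      ring
    rw [mul_pow, ← h1]
    ring
  have hcr : c r' = t := by
    simp only [c]
    have h1 : t ^ q = t * t ^ (q - 1) := by
      rw [← pow_succ']
      congr 1
      omega
    rw [h1, mul_assoc, ht, mul_one]
  refine ⟨∑ i ∈ Finset.range r, c i • T^[i] v, ?_, ?_⟩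
  · intro h0
    rw [← Fin.sum_univ_eq_sum_range (fun i => c i • T^[i] v) r] at h0
    have h1 := (Fintype.linearIndependent_iff.1 hind) (fun i => c i) h0 ⟨r', by omega⟩
    simp only at h1
    exact ht0 (hcr ▸ h1)
  · rw [map_sum]
    simp only [hT, ← Function.iterate_succ_apply']
    rw [hr', Finset.sum_range_succ, Finset.sum_range_succ' (fun i => c i • T^[i] v)]
    rw [← hr', ← ha, hr', Finset.sum_range_succ' (fun i => a i • T^[i] v), hcr, smul_add,
      Finset.smul_sum]
    simp only [hcs, hc0, add_smul, Finset.sum_add_distrib, smul_smul, Function.iterate_zero, id]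
    abel

end Step1

section Step2

variable {k : Type*} [Field k] [IsAlgClosed k] {V : Type*} [AddCommGroup V] [Module k V]

lemma exists_artinSchreier {q : ℕ} (hq : 1 < q) (c : k) : ∃ d : k, d ^ q - d = c := by
  have hnd : (X ^ q - X - C c : k[X]).natDegree = q := by
    rw [natDegree_sub_eq_left_of_natDegree_lt, FiniteField.X_pow_card_sub_X_natDegree_eq k hq]
    rw [FiniteField.X_pow_card_sub_X_natDegree_eq k hq, natDegree_C]
    omega
  have hdeg : (X ^ q - X - C c : k[X]).degree ≠ 0 := by
    intro h0
    have h1 := natDegree_eq_zero_iff_degree_le_zero.2 h0.le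
    rw [hnd] at h1
    omega
  obtain ⟨d, hd⟩ := IsAlgClosed.exists_root _ hdeg
  exact ⟨d, by simpa [IsRoot, sub_eq_zero] using hd⟩

/-- **Lang's lemma, semilinear form.** The fixed vectors of an injective Frobenius-semilinear
endomorphism of a finite-dimensional vector space over an algebraically closed field span it. -/
theorem span_fixed_eq_top [FiniteDimensional k V] {φ : k →+* k} {q : ℕ} (hq : 1 < q)
    (hφ : ∀ c, φ c = c ^ q) (T : V →ₛₗ[φ] V) (hinj : Function.Injective T) :
    Submodule.span k {v : V | T v = v} = ⊤ := by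
  by_contra hW
  have hA : ∀ y ∈ Submodule.span k {v : V | T v = v},
      ∃ x ∈ Submodule.span k {v : V | T v = v}, T x = y := by
    intro y hy
    refine Submodule.closure_induction
      (p := fun y _ => ∃ x ∈ Submodule.span k {v : V | T v = v}, T x = y)
      ⟨0, Submodule.zero_mem _, map_zero T⟩ ?_ ?_ hy
    · rintro y1 y2 - - ⟨x1, hx1, rfl⟩ ⟨x2, hx2, rfl⟩
      exact ⟨x1 + x2, Submodule.add_mem _ hx1 hx2, map_add T x1 x2⟩
    · intro c f hf
      obtain ⟨d, hd⟩ := IsAlgClosed.exists_pow_nat_eq c (by omega : 0 < q)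
      refine ⟨d • f, Submodule.smul_mem _ d (Submodule.subset_span hf), ?_⟩
      have hf' : T f = f := hf
      rw [T.map_smulₛₗ, hφ, hd, hf']
  have hB : ∀ y ∈ Submodule.span k {v : V | T v = v},
      ∃ x ∈ Submodule.span k {v : V | T v = v}, T x - x = y := by
    intro y hy
    refine Submodule.closure_induction
      (p := fun y _ => ∃ x ∈ Submodule.span k {v : V | T v = v}, T x - x = y)
      ⟨0, Submodule.zero_mem _, by simp⟩ ?_ ?_ hy
    · rintro y1 y2 - - ⟨x1, hx1, rfl⟩ ⟨x2, hx2, rfl⟩
      exact ⟨x1 + x2, Submodule.add_mem _ hx1 hx2, by rw [map_add]; abel⟩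
    · intro c f hf
      obtain ⟨d, hd⟩ := exists_artinSchreier hq c
      refine ⟨d • f, Submodule.smul_mem _ d (Submodule.subset_span hf), ?_⟩
      have hf' : T f = f := hf
      rw [T.map_smulₛₗ, hφ, hf', ← sub_smul, hd]
  have hle : Submodule.span k {v : V | T v = v} ≤
      (Submodule.span k {v : V | T v = v}).comap T := by
    rw [Submodule.span_le]
    intro f hf
    have hf' : T f = f := hf
    show T f ∈ Submodule.span k {v : V | T v = v}
    rw [hf']
    exact Submodule.subset_span hf
  have hT'inj : Function.Injective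
      ((Submodule.span k {v : V | T v = v}).mapQ (Submodule.span k {v : V | T v = v}) T hle) := by
    rw [injective_iff_map_eq_zero]
    intro x hx
    obtain ⟨u, rfl⟩ := Submodule.Quotient.mk_surjective _ x
    rw [Submodule.mapQ_apply, Submodule.Quotient.mk_eq_zero] at hx
    obtain ⟨x', hx', hTx'⟩ := hA _ hx
    rw [Submodule.Quotient.mk_eq_zero]
    rwa [← hinj hTx']
  have hnt : Nontrivial (V ⧸ Submodule.span k {v : V | T v = v}) :=
    Submodule.Quotient.nontrivial_iff.2 hW
  obtain ⟨ū, hū0, hūfix⟩ := exists_fixed_ne_zero (k := k)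
    ((Submodule.span k {v : V | T v = v}).mapQ
      (Submodule.span k {v : V | T v = v}) T hle).toAddMonoidHom hq
    (fun c v => by simp [hφ]) hT'inj
  obtain ⟨u, rfl⟩ := Submodule.Quotient.mk_surjective _ ū
  have h1 : T u - u ∈ Submodule.span k {v : V | T v = v} := by
    rw [← Submodule.Quotient.mk_eq_zero, Submodule.Quotient.mk_sub, sub_eq_zero]
    simpa using hūfix
  obtain ⟨x, hx, hTx⟩ := hB _ h1
  have h2 : T (u - x) = u - x := by
    rw [map_sub, ← sub_eq_zero]
    rw [← sub_eq_zero] at hTx
    have h5 : T u - T x - (u - x) = -(T x - x - (T u - u)) := by abel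
    rw [h5, hTx, neg_zero]
  have h3 : u - x ∈ Submodule.span k {v : V | T v = v} := Submodule.subset_span h2
  have h4 : u ∈ Submodule.span k {v : V | T v = v} := by
    simpa using Submodule.add_mem _ h3 hx
  exact hū0 ((Submodule.Quotient.mk_eq_zero _).2 h4)

end Step2

section Consumer

variable {k : Type*} [Field k] {V : Type*} [AddCommGroup V] [Module k V]

/-- On a nonzero space, the existence of an injective `q`-semilinear additive map forces
`x ↦ x ^ q` to be additive. -/
lemma pow_add_of_semilinear [Nontrivial V] (T : V →+ V) {q : ℕ}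
    (hT : ∀ (c : k) (v : V), T (c • v) = c ^ q • T v) (hinj : Function.Injective T) (c d : k) :
    (c + d) ^ q = c ^ q + d ^ q := by
  obtain ⟨v, hv⟩ := exists_ne (0 : V)
  have hTv : T v ≠ 0 := fun h => hv (hinj (h.trans (map_zero T).symm))
  have h1 := hT (c + d) v
  rw [add_smul, map_add, hT, hT, ← add_smul] at h1
  exact (smul_left_injective k hTv h1).symm

/-- The Frobenius `x ↦ x ^ q` as a ring endomorphism, given additivity. -/
noncomputable def frobHom (k : Type*) [Field k] (q : ℕ) (hq0 : q ≠ 0)
    (hadd : ∀ c d : k, (c + d) ^ q = c ^ q + d ^ q) : k →+* k where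
  toFun c := c ^ q
  map_one' := one_pow q
  map_mul' := fun a b => mul_pow a b q
  map_zero' := zero_pow hq0
  map_add' := hadd

lemma frobHom_apply (q : ℕ) (hq0 : q ≠ 0)
    (hadd : ∀ c d : k, (c + d) ^ q = c ^ q + d ^ q) (c : k) :
    frobHom k q hq0 hadd c = c ^ q := rfl

/-- If `x ↦ x ^ q` is additive on an infinite field and `1 < q`, then `q = 0` in the field. -/
lemma natCast_eq_zero_of_pow_add [Infinite k] {q : ℕ} (hq : 1 < q)
    (hadd : ∀ c d : k, (c + d) ^ q = c ^ q + d ^ q) : (q : k) = 0 := by
  have h1 : ((X : k[X]) + 1) ^ q = X ^ q + 1 := by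
    refine Polynomial.funext (fun r => ?_)
    simp [hadd]
  have h2 := congrArg (fun P : k[X] => P.coeff 1) h1
  simp only [coeff_X_add_one_pow, Nat.choose_one_right, coeff_add, coeff_X_pow, coeff_one] at h2
  have h3 : (1 : ℕ) ≠ q := by omega
  simpa [h3] using h2

variable [IsAlgClosed k]

/-- The number of solutions of `x ^ q = x` in an algebraically closed field in which `q = 0`. -/
lemma card_pow_eq_self {q : ℕ} (hq : 1 < q) (hq0 : (q : k) = 0) :
    Nat.card {x : k // x ^ q = x} = q := by
  classical
  obtain ⟨p, hp⟩ := CharP.exists k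
  have hpq : p ∣ q := (CharP.cast_eq_zero_iff k p q).1 hq0
  have hsep : (X ^ q - X : k[X]).Separable := galois_poly_separable p q hpq
  have hsplit : ((X ^ q - X : k[X]).map (algebraMap k k)).Splits := IsAlgClosed.splits _
  have h1 := card_rootSet_eq_natDegree (K := k) hsep hsplit
  rw [FiniteField.X_pow_card_sub_X_natDegree_eq k hq] at h1
  have hne : (X ^ q - X : k[X]) ≠ 0 := by
    intro h0
    have := FiniteField.X_pow_card_sub_X_natDegree_eq k hq
    rw [h0, natDegree_zero] at this
    omega
  have h2 : Nat.card {x : k // x ^ q = x} = Fintype.card ↑((X ^ q - X : k[X]).rootSet k) := by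
    rw [← Nat.card_eq_fintype_card]
    refine Nat.card_congr (Equiv.subtypeEquivRight (fun x => ?_))
    rw [mem_rootSet_of_ne hne]
    simp [sub_eq_zero]
  rw [h2, h1]

variable [FiniteDimensional k V]

/-- **Lang's lemma, additive form.** -/
theorem span_fixed_eq_top' (T : V →+ V) {q : ℕ} (hq : 1 < q)
    (hT : ∀ (c : k) (v : V), T (c • v) = c ^ q • T v) (hinj : Function.Injective T) :
    Submodule.span k {v : V | T v = v} = ⊤ := by
  rcases subsingleton_or_nontrivial V with h | h
  · exact Subsingleton.elim _ _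
  · let T' : V →ₛₗ[frobHom k q (by omega) (pow_add_of_semilinear T hT hinj)] V :=
      { toFun := T
        map_add' := map_add T
        map_smul' := fun c v => hT c v }
    exact span_fixed_eq_top hq (fun c => rfl) T' hinj

/-- **Lang's lemma, basis form.** `V` has a `k`-basis of `T`-fixed vectors. -/
theorem exists_basis_fixed (T : V →+ V) {q : ℕ} (hq : 1 < q)
    (hT : ∀ (c : k) (v : V), T (c • v) = c ^ q • T v) (hinj : Function.Injective T) :
    ∃ b : Module.Basis (Fin (Module.finrank k V)) k V, ∀ i, T (b i) = b i := by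
  classical
  obtain ⟨s, hs, hspan, hli⟩ := exists_linearIndependent k {v : V | T v = v}
  rw [span_fixed_eq_top' T hq hT hinj] at hspan
  let b0 : Module.Basis s k V := Module.Basis.mk hli (by
    rw [Subtype.range_coe_subtype, Set.ofPred_mem_eq, hspan])
  have hfin : Fintype s := FiniteDimensional.fintypeBasisIndex b0
  have hcard : Fintype.card s = Module.finrank k V := (Module.finrank_eq_card_basis b0).symm
  refine ⟨b0.reindex (Fintype.equivFinOfCardEq hcard), fun i => ?_⟩
  have h1 : (b0.reindex (Fintype.equivFinOfCardEq hcard)) i =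
      (((Fintype.equivFinOfCardEq hcard).symm i : s) : V) := by
    simp [b0]
  rw [h1]
  exact hs ((Fintype.equivFinOfCardEq hcard).symm i).2

omit [IsAlgClosed k] [FiniteDimensional k V] in
/-- The coordinates of `T v` in a basis of fixed vectors. -/
lemma repr_apply_of_fixed {n : ℕ} (T : V →+ V) {q : ℕ}
    (hT : ∀ (c : k) (v : V), T (c • v) = c ^ q • T v)
    (b : Module.Basis (Fin n) k V) (hb : ∀ i, T (b i) = b i) (v : V) (i : Fin n) :
    b.repr (T v) i = (b.repr v i) ^ q := by
  have h1 : T v = ∑ j, (b.repr v j) ^ q • b j := by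
    conv_lhs => rw [← b.sum_repr v]
    rw [map_sum]
    exact Finset.sum_congr rfl (fun j _ => by rw [hT, hb])
  rw [h1, b.repr_sum_self]

omit [IsAlgClosed k] [FiniteDimensional k V] in
/-- In a basis of fixed vectors, `v` is fixed iff all its coordinates lie in `𝔽_q`. -/
lemma fixed_iff_coord {n : ℕ} (T : V →+ V) {q : ℕ}
    (hT : ∀ (c : k) (v : V), T (c • v) = c ^ q • T v)
    (b : Module.Basis (Fin n) k V) (hb : ∀ i, T (b i) = b i) (v : V) :
    T v = v ↔ ∀ i, (b.repr v i) ^ q = b.repr v i := by
  constructor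
  · intro h i
    rw [← repr_apply_of_fixed T hT b hb v i, h]
  · intro h
    apply b.repr.injective
    ext i
    rw [repr_apply_of_fixed T hT b hb v i, h i]

/-- **Lang's lemma, counting form.** An injective `q`-semilinear additive endomorphism of a
finite-dimensional vector space over an algebraically closed field has exactly `q ^ dim V`
fixed vectors. -/
theorem card_fixed (T : V →+ V) {q : ℕ} (hq : 1 < q)
    (hT : ∀ (c : k) (v : V), T (c • v) = c ^ q • T v) (hinj : Function.Injective T) :
    Nat.card {v : V // T v = v} = q ^ Module.finrank k V := by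
  classical
  rcases subsingleton_or_nontrivial V with h | h
  · rw [Module.finrank_zero_of_subsingleton, pow_zero]
    exact Nat.card_eq_one_iff_unique.2 ⟨inferInstance, ⟨⟨0, map_zero T⟩⟩⟩
  · obtain ⟨b, hb⟩ := exists_basis_fixed T hq hT hinj
    have hq0 : (q : k) = 0 :=
      natCast_eq_zero_of_pow_add hq (pow_add_of_semilinear T hT hinj)
    have e1 : {v : V // T v = v} ≃
        {c : Fin (Module.finrank k V) → k // ∀ i, c i ^ q = c i} :=
      Equiv.subtypeEquiv b.equivFun.toEquiv (fun v => by
        rw [fixed_iff_coord T hT b hb v]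
        rfl)
    have e2 : {c : Fin (Module.finrank k V) → k // ∀ i, c i ^ q = c i} ≃
        (Fin (Module.finrank k V) → {x : k // x ^ q = x}) :=
      Equiv.subtypePiEquivPi (β := fun _ => k) (p := fun _ x => x ^ q = x)
    rw [Nat.card_congr (e1.trans e2), Nat.card_fun, card_pow_eq_self hq hq0, Nat.card_eq_fintype_card,
      Fintype.card_fin]

end Consumer

end Fermat.Agent.S27.Lang

namespace Fermat.Agent.S27

/-- **Seat Z3a (LANG).**  (`[IsAlgClosed k]` is needed: for `k = 𝔽_p`, `f = 1`, `T` is an
arbitrary linear automorphism.  `hp`, `halg` and the surjectivity of `T` are not used.) -/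
theorem card_fixed_semilinear {k V : Type*} [Field k] [AddCommGroup V] [Module k V]
    [FiniteDimensional k V] (p : ℕ) (hp : p.Prime) [CharP k p] [IsAlgClosed k] (f : ℕ)
    (hf : 0 < f)
    (halg : ∀ c : k, ∃ n : ℕ, 0 < n ∧ c ^ (p ^ n) = c)
    (T : V →+ V) (hT : Function.Bijective T)
    (hsl : ∀ (c : k) (v : V), T (c • v) = c ^ (p ^ f) • T v) :
    Nat.card {v : V // T v = v} = (p ^ f) ^ Module.finrank k V := by
  have _ := halg
  have hq : 1 < p ^ f := Nat.one_lt_pow hf.ne' hp.one_lt
  exact Lang.card_fixed T hq hsl hT.1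

end Fermat.Agent.S27
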