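import Mathlib
import Fermat.Agent.S27.Zeta.Defs
import Fermat.Agent.S27.Zeta.Lang

set_option autoImplicit false
set_option linter.unusedSectionVars false
set_option linter.unusedVariables false
set_option linter.style.haveILetI false

/-!
# S27, part D, seat Z3b (CLASS): the number of invariant effective divisors in an invariant class

`D₀` a divisor whose class is `σ`-invariant: `σ D₀ = D₀ + div u`.  The effective divisors linearly
equivalent to `D₀` are the `D₀ + div f`, `f ∈ L(D₀) \ {0}`, and `σ (D₀ + div f) = D₀ + div (u σ f)`.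
So `σ` acts on `ℙ(L(D₀))` through the `q`-semilinear bijection `T f = u σ(f)` of `L(D₀)`.
A line `k f` is fixed iff `T f = λ f`; then `μ f` is a fixed VECTOR for `μ ^ (q - 1) = λ⁻¹`
(`k` algebraically closed), and the fixed vectors on a fixed line are the `𝔽_q`-multiples of one of
them.  With seat Z3a (`card_fixed_semilinear`): `(q - 1) #{invariant E} = q ^ ℓ(D₀) - 1`.
-/

noncomputable section

open AlgebraicCurve

namespace Fermat.Agent.S27

open Fermat.Agent.RR

variable {k F : Type*} [Field k] [Field F] [Algebra k F]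

namespace ClassCount

/-- every constant lies in a finite field. -/
theorem halg (S : FrobStr k F) (c : k) : ∃ n : ℕ, 0 < n ∧ c ^ (S.p ^ n) = c := by
  obtain ⟨m, hm, hx⟩ := S.orbit (algebraMap k F c)
  refine ⟨S.f * m, Nat.mul_pos S.hf hm, ?_⟩
  have h1 := SemilinearAut.smul_algebraMap (S.σ ^ m) c
  rw [hx, S.base_pow] at h1
  exact ((algebraMap k F).injective h1).symm

theorem smul_algebraMap_σ (S : FrobStr k F) (c : k) :
    S.σ • algebraMap k F c = algebraMap k F (c ^ S.q) := by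
  rw [SemilinearAut.smul_algebraMap, S.base]
  rfl

theorem ord_smul' (g : SemilinearAut k F) (w : Place k F) (f : F) :
    w.ord (g • f) = (g⁻¹ • w).ord f := by
  have h := SemilinearAut.ord_smul g (g⁻¹ • w) f
  rwa [smul_inv_smul] at h

theorem smul_ne_zero' (g : SemilinearAut k F) {f : F} (hf : f ≠ 0) : g • f ≠ 0 := by
  intro h0
  apply hf
  have := congrArg (fun x => g⁻¹ • x) h0
  simpa using this

section T

variable (S : FrobStr k F) (D₀ : Divisor k F) (u : F)

/-- `σ D₀ - D₀ = div u` -/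
def IsTwist : Prop := u ≠ 0 ∧ ∀ w : Place k F, (S.σ • D₀ - D₀) w = w.ord u

variable {S D₀ u}

theorem IsTwist.apply (hu : IsTwist S D₀ u) (w : Place k F) :
    D₀ (S.σ⁻¹ • w) - D₀ w = w.ord u := by
  rw [← hu.2 w, Finsupp.sub_apply, SemilinearAut.divisor_smul_apply]

theorem IsTwist.apply_smul (hu : IsTwist S D₀ u) (w : Place k F) :
    D₀ w - D₀ (S.σ • w) = (S.σ • w).ord u := by
  have h := hu.apply (S.σ • w)
  rwa [inv_smul_smul] at h

/-- the order of `u σ(f)` -/
theorem IsTwist.ord_T (hu : IsTwist S D₀ u) {f : F} (hf : f ≠ 0) (w : Place k F) :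
    w.ord (u * S.σ • f) = D₀ (S.σ⁻¹ • w) - D₀ w + (S.σ⁻¹ • w).ord f := by
  rw [w.ord_mul hu.1 (smul_ne_zero' S.σ hf), ord_smul', hu.apply w]

theorem IsTwist.mem_T (hu : IsTwist S D₀ u) {f : F} (hf : f ∈ riemannRochSpace D₀) :
    u * S.σ • f ∈ riemannRochSpace D₀ := by
  rw [mem_riemannRochSpace_iff] at hf ⊢
  intro w
  rcases eq_or_ne f 0 with rfl | hf0
  · left
    rw [smul_zero, mul_zero]
  · right
    have h1 := (hf (S.σ⁻¹ • w)).resolve_left hf0
    rw [hu.ord_T hf0 w]
    linarith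

theorem IsTwist.mem_Tinv (hu : IsTwist S D₀ u) {g : F} (hg : g ∈ riemannRochSpace D₀) :
    S.σ⁻¹ • (u⁻¹ * g) ∈ riemannRochSpace D₀ := by
  rw [mem_riemannRochSpace_iff] at hg ⊢
  intro w
  rcases eq_or_ne g 0 with rfl | hg0
  · left
    rw [mul_zero, smul_zero]
  · right
    have h1 := (hg (S.σ • w)).resolve_left hg0
    have h2 := hu.apply_smul w
    rw [ord_smul', inv_inv, (S.σ • w).ord_mul (inv_ne_zero hu.1) hg0, Place.ord_inv]
    linarith

/-- the `q`-semilinear map `T f = u σ(f)` of `L(D₀)` -/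
def T (hu : IsTwist S D₀ u) : ↥(riemannRochSpace D₀) →+ ↥(riemannRochSpace D₀) where
  toFun f := ⟨u * S.σ • (f : F), hu.mem_T f.2⟩
  map_zero' := by
    apply Subtype.ext
    show u * S.σ • ((0 : ↥(riemannRochSpace D₀)) : F) = 0
    rw [Submodule.coe_zero, smul_zero, mul_zero]
  map_add' a b := by
    apply Subtype.ext
    show u * S.σ • ((a + b : ↥(riemannRochSpace D₀)) : F) = u * S.σ • (a : F) + u * S.σ • (b : F)
    rw [Submodule.coe_add, smul_add, mul_add]

theorem coe_T (hu : IsTwist S D₀ u) (f : ↥(riemannRochSpace D₀)) :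
    ((T hu f : ↥(riemannRochSpace D₀)) : F) = u * S.σ • (f : F) := rfl

theorem T_smul (hu : IsTwist S D₀ u) (c : k) (f : ↥(riemannRochSpace D₀)) :
    T hu (c • f) = c ^ (S.p ^ S.f) • T hu f := by
  apply Subtype.ext
  rw [coe_T, Submodule.coe_smul, Submodule.coe_smul, coe_T, Algebra.smul_def, Algebra.smul_def,
    smul_mul', smul_algebraMap_σ]
  show u * (algebraMap k F (c ^ S.q) * S.σ • (f : F)) =
    algebraMap k F (c ^ S.p ^ S.f) * (u * S.σ • (f : F))
  rw [FrobStr.q]
  ring

theorem T_bijective (hu : IsTwist S D₀ u) : Function.Bijective (T hu) := by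
  constructor
  · intro a b hab
    have h1 := congrArg Subtype.val hab
    rw [coe_T, coe_T] at h1
    have h2 := mul_left_cancel₀ hu.1 h1
    apply Subtype.ext
    have h3 := congrArg (fun x => S.σ⁻¹ • x) h2
    simpa using h3
  · intro g
    refine ⟨⟨S.σ⁻¹ • (u⁻¹ * (g : F)), hu.mem_Tinv g.2⟩, ?_⟩
    apply Subtype.ext
    rw [coe_T]
    show u * S.σ • (S.σ⁻¹ • (u⁻¹ * (g : F))) = g
    rw [smul_inv_smul, mul_inv_cancel_left₀ hu.1]


/-- two functions with the same divisor differ by a constant. -/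
theorem exists_const_of_ord_eq (hRR : IsRRField k F) {f g : F} (hf : f ≠ 0) (hg : g ≠ 0)
    (h : ∀ v : Place k F, v.ord g = v.ord f) :
    ∃ c : k, c ≠ 0 ∧ g = algebraMap k F c * f := by
  have hq0 : g / f ≠ 0 := div_ne_zero hg hf
  have hmem : g / f ∈ riemannRochSpace (0 : Divisor k F) := by
    rw [mem_riemannRochSpace_iff]
    intro v
    right
    rw [div_eq_mul_inv, v.ord_mul hg (inv_ne_zero hf), Place.ord_inv, h v]
    simp
  obtain ⟨c, hc⟩ := (mem_riemannRochSpace_zero_iff hRR (g / f)).mp hmem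
  refine ⟨c, ?_, ?_⟩
  · rintro rfl
    rw [map_zero] at hc
    exact hq0 hc.symm
  · rw [hc, div_mul_cancel₀ _ hf]

/-- the set of invariant effective divisors in the class of `D₀` -/
abbrev InvEff (S : FrobStr k F) (D₀ : Divisor k F) : Type _ :=
  {E : Divisor k F // 0 ≤ E ∧ E - D₀ ∈ Divisor.principal (K := k) (F := F) ∧ S.σ • E = E}

/-- the nonzero fixed vectors of `T` -/
abbrev FixNz (hu : IsTwist S D₀ u) : Type _ :=
  {x : ↥(riemannRochSpace D₀) // T hu x = x ∧ x ≠ 0}

/-- the nonzero elements of `𝔽_q` -/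
abbrev FqNz (S : FrobStr k F) : Type _ := {c : k // c ^ (S.p ^ S.f) = c ∧ c ≠ 0}

/-- the divisor `D₀ + div x` of a fixed vector is invariant -/
theorem IsTwist.invariant_of_fixed (hu : IsTwist S D₀ u) {x : F} (hx0 : x ≠ 0)
    (hx : u * S.σ • x = x) {E : Divisor k F} (hE : ∀ v : Place k F, E v = D₀ v + v.ord x) :
    S.σ • E = E := by
  ext w
  rw [SemilinearAut.divisor_smul_apply, hE, hE]
  have h1 := hu.ord_T hx0 w
  rw [hx] at h1
  linarith

/-- an invariant effective divisor in the class of `D₀` is `D₀ + div x`, `x` a fixed vector -/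
theorem IsTwist.exists_rep [IsAlgClosed k] (hRR : IsRRField k F) (hu : IsTwist S D₀ u)
    (E : InvEff S D₀) :
    ∃ x : ↥(riemannRochSpace D₀), T hu x = x ∧ x ≠ 0 ∧
      ∀ v : Place k F, (E : Divisor k F) v = D₀ v + v.ord (x : F) := by
  obtain ⟨E, hE0, ⟨f₀, hf₀, hEf⟩, hEσ⟩ := E
  have hEf' : ∀ v : Place k F, E v = D₀ v + v.ord f₀ := by
    intro v
    have := hEf v
    rw [Finsupp.sub_apply] at this
    linarith
  have hmem : f₀ ∈ riemannRochSpace D₀ := by
    rw [mem_riemannRochSpace_iff]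
    intro v
    right
    have h1 := hEf' v
    have h2 : (0 : ℤ) ≤ E v := by
      have := (Finsupp.le_def.mp hE0) v
      simpa using this
    linarith
  -- `T f₀ = λ f₀`
  have hT0 : u * S.σ • f₀ ≠ 0 := mul_ne_zero hu.1 (smul_ne_zero' S.σ hf₀)
  have hord : ∀ v : Place k F, v.ord (u * S.σ • f₀) = v.ord f₀ := by
    intro w
    rw [hu.ord_T hf₀ w]
    have h1 := hEf' (S.σ⁻¹ • w)
    have h2 := hEf' w
    have h3 : (S.σ • E) w = E w := by rw [hEσ]
    rw [SemilinearAut.divisor_smul_apply] at h3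
    linarith
  obtain ⟨lam, hlam0, hlam⟩ := exists_const_of_ord_eq hRR hf₀ hT0 hord
  -- `μ ^ (q - 1) = λ⁻¹`
  have hq1 : 0 < S.p ^ S.f - 1 := by
    have := S.one_lt_q
    unfold FrobStr.q at this
    omega
  obtain ⟨μ, hμ⟩ := IsAlgClosed.exists_pow_nat_eq lam⁻¹ hq1
  have hμ0 : μ ≠ 0 := by
    rintro rfl
    rw [zero_pow hq1.ne'] at hμ
    exact inv_ne_zero hlam0 hμ.symm
  have hμq : μ ^ (S.p ^ S.f) * lam = μ := by
    have e : S.p ^ S.f = (S.p ^ S.f - 1) + 1 := by omega
    rw [e, pow_succ, hμ]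
    field_simp
  refine ⟨μ • ⟨f₀, hmem⟩, ?_, ?_, ?_⟩
  · rw [T_smul]
    apply Subtype.ext
    rw [Submodule.coe_smul, Submodule.coe_smul, coe_T]
    show μ ^ (S.p ^ S.f) • (u * S.σ • f₀) = μ • f₀
    rw [hlam, Algebra.smul_def, Algebra.smul_def, ← mul_assoc, ← map_mul, hμq]
  · intro h0
    have h1 := congrArg Subtype.val h0
    rw [Submodule.coe_smul] at h1
    have h2 : μ • f₀ = 0 := h1
    rw [smul_eq_zero] at h2
    rcases h2 with h2 | h2
    · exact hμ0 h2
    · exact hf₀ h2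
  · intro v
    rw [Submodule.coe_smul]
    show E v = D₀ v + v.ord (μ • f₀)
    rw [Algebra.smul_def, v.ord_mul ((map_ne_zero _).mpr hμ0) hf₀,
      Fermat.Agent.S24Res.ord_algebraMap, zero_add]
    exact hEf' v

end T

/-! ### counting -/

/-- removing one element. -/
theorem card_ne_add_one {α : Type*} (P : α → Prop) (a₀ : α) (h0 : P a₀)
    (hfin : Finite {x : α // P x}) :
    Nat.card {x : α // P x ∧ x ≠ a₀} + 1 = Nat.card {x : α // P x} := by
  have hs : {x : α | P x}.Finite := Set.finite_coe_iff.mp hfin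
  have h1 := Set.ncard_sdiff_singleton_add_one (a := a₀) (s := {x : α | P x}) h0 hs
  have e1 : Nat.card {x : α // P x} = {x : α | P x}.ncard := Nat.card_coe_set_eq _
  have e2 : Nat.card {x : α // P x ∧ x ≠ a₀} = ({x : α | P x} \ {a₀}).ncard := by
    rw [← Nat.card_coe_set_eq]
    rfl
  rw [e1, e2, h1]

/-- `#𝔽_q = q` -/
theorem card_Fq (S : FrobStr k F) [IsAlgClosed k] :
    Nat.card {c : k // c ^ (S.p ^ S.f) = c} = S.p ^ S.f := by
  haveI := S.char
  haveI : Fact S.p.Prime := ⟨S.hp⟩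
  haveI : ExpChar k S.p := ExpChar.prime S.hp
  have h := card_fixed_semilinear (k := k) (V := k) S.p S.hp S.f S.hf (halg S)
    (iterateFrobenius k S.p S.f).toAddMonoidHom (bijective_iterateFrobenius k S.p S.f)
    (fun c v => by
      show iterateFrobenius k S.p S.f (c • v) = c ^ (S.p ^ S.f) • iterateFrobenius k S.p S.f v
      rw [smul_eq_mul, map_mul, smul_eq_mul, iterateFrobenius_def])
  rw [Module.finrank_self, pow_one] at h
  refine Eq.trans (Nat.card_congr (Equiv.subtypeEquivRight fun c => ?_)) h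
  show c ^ (S.p ^ S.f) = c ↔ iterateFrobenius k S.p S.f c = c
  rw [iterateFrobenius_def]

theorem card_FqNz (S : FrobStr k F) [IsAlgClosed k] :
    Nat.card (FqNz S) + 1 = S.p ^ S.f := by
  rw [← card_Fq S]
  refine card_ne_add_one (fun c : k => c ^ (S.p ^ S.f) = c) 0 ?_ ?_
  · have : 0 < S.p ^ S.f := pow_pos S.hp.pos _
    exact zero_pow this.ne'
  · apply Nat.finite_of_card_ne_zero
    rw [card_Fq S]
    exact (pow_pos S.hp.pos _).ne'

section Count

variable {S : FrobStr k F} {D₀ : Divisor k F} {u : F}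

theorem card_fix [IsAlgClosed k] (hRR : IsRRField k F) (hu : IsTwist S D₀ u) :
    Nat.card {x : ↥(riemannRochSpace D₀) // T hu x = x} = (S.p ^ S.f) ^ ell D₀ := by
  haveI := S.char
  haveI : Module.Finite k ↥(riemannRochSpace D₀) := finite_riemannRochSpace hRR D₀
  exact card_fixed_semilinear S.p S.hp S.f S.hf (halg S) (T hu) (T_bijective hu) (T_smul hu)

theorem card_FixNz [IsAlgClosed k] (hRR : IsRRField k F) (hu : IsTwist S D₀ u) :
    Nat.card (FixNz hu) + 1 = (S.p ^ S.f) ^ ell D₀ := by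
  rw [← card_fix hRR hu]
  refine card_ne_add_one (fun x : ↥(riemannRochSpace D₀) => T hu x = x) 0 (map_zero _) ?_
  apply Nat.finite_of_card_ne_zero
  rw [card_fix hRR hu]
  exact (pow_pos (pow_pos S.hp.pos _) _).ne'

/-- a representative fixed vector of an invariant effective divisor -/
def rep [IsAlgClosed k] (hRR : IsRRField k F) (hu : IsTwist S D₀ u) (E : InvEff S D₀) :
    ↥(riemannRochSpace D₀) :=
  (hu.exists_rep hRR E).choose

theorem rep_spec [IsAlgClosed k] (hRR : IsRRField k F) (hu : IsTwist S D₀ u) (E : InvEff S D₀) :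
    T hu (rep hRR hu E) = rep hRR hu E ∧ rep hRR hu E ≠ 0 ∧
      ∀ v : Place k F, (E : Divisor k F) v = D₀ v + v.ord (rep hRR hu E : F) :=
  (hu.exists_rep hRR E).choose_spec

theorem coe_ne_zero {x : ↥(riemannRochSpace D₀)} (hx : x ≠ 0) : (x : F) ≠ 0 :=
  fun h => hx (Subtype.ext h)

/-- the parametrisation of the fixed vectors -/
def param [IsAlgClosed k] (hRR : IsRRField k F) (hu : IsTwist S D₀ u) :
    InvEff S D₀ × FqNz S → FixNz hu := fun Ec =>
  ⟨(Ec.2 : k) • rep hRR hu Ec.1, by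
    rw [T_smul, (rep_spec hRR hu Ec.1).1, Ec.2.2.1], by
    intro h0
    rw [smul_eq_zero] at h0
    rcases h0 with h0 | h0
    · exact Ec.2.2.2 h0
    · exact (rep_spec hRR hu Ec.1).2.1 h0⟩

theorem coe_param [IsAlgClosed k] (hRR : IsRRField k F) (hu : IsTwist S D₀ u)
    (Ec : InvEff S D₀ × FqNz S) :
    (((param hRR hu Ec : FixNz hu) : ↥(riemannRochSpace D₀)) : F) =
      algebraMap k F (Ec.2 : k) * (rep hRR hu Ec.1 : F) := by
  show (((Ec.2 : k) • rep hRR hu Ec.1 : ↥(riemannRochSpace D₀)) : F) = _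
  rw [Submodule.coe_smul, Algebra.smul_def]

theorem ord_param [IsAlgClosed k] (hRR : IsRRField k F) (hu : IsTwist S D₀ u)
    (Ec : InvEff S D₀ × FqNz S) (v : Place k F) :
    (Ec.1 : Divisor k F) v = D₀ v +
      v.ord (((param hRR hu Ec : FixNz hu) : ↥(riemannRochSpace D₀)) : F) := by
  rw [coe_param, v.ord_mul ((map_ne_zero _).mpr Ec.2.2.2)
    (coe_ne_zero (rep_spec hRR hu Ec.1).2.1), Fermat.Agent.S24Res.ord_algebraMap, zero_add]
  exact (rep_spec hRR hu Ec.1).2.2 v

theorem param_injective [IsAlgClosed k] (hRR : IsRRField k F) (hu : IsTwist S D₀ u) :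
    Function.Injective (param hRR hu) := by
  rintro ⟨E, c⟩ ⟨E', c'⟩ h
  have hE : E = E' := by
    apply Subtype.ext
    ext v
    rw [ord_param hRR hu (E, c) v, ord_param hRR hu (E', c') v, h]
  subst hE
  have h1 := congrArg (fun x : FixNz hu => ((x : ↥(riemannRochSpace D₀)) : F)) h
  simp only [coe_param] at h1
  have h2 := mul_right_cancel₀ (coe_ne_zero (rep_spec hRR hu E).2.1) h1
  have h3 : (c : k) = c' := (algebraMap k F).injective h2
  rw [Prod.mk.injEq]
  exact ⟨rfl, Subtype.ext h3⟩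

theorem param_surjective [IsAlgClosed k] (hRR : IsRRField k F) (hu : IsTwist S D₀ u) :
    Function.Surjective (param hRR hu) := by
  rintro ⟨x, hxT, hx0⟩
  have hxF : (x : F) ≠ 0 := coe_ne_zero hx0
  have hxT' : u * S.σ • (x : F) = x := by
    have := congrArg Subtype.val hxT
    rwa [coe_T] at this
  -- the divisor of `x`
  have hEv : ∀ v : Place k F, (D₀ + divOf hRR (x : F)) v = D₀ v + v.ord (x : F) := by
    intro v
    rw [Finsupp.add_apply, divOf_apply]
  have hE0 : 0 ≤ D₀ + divOf hRR (x : F) := by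
    have h1 := (mem_riemannRochSpace_iff_le hRR hxF).mp x.2
    rw [Finsupp.le_def] at h1 ⊢
    intro v
    have h2 := h1 v
    simp only [Finsupp.neg_apply, Finsupp.add_apply, Finsupp.coe_zero, Pi.zero_apply] at h2 ⊢
    linarith
  have hEp : D₀ + divOf hRR (x : F) - D₀ ∈ Divisor.principal (K := k) (F := F) := by
    refine ⟨(x : F), hxF, fun v => ?_⟩
    rw [add_sub_cancel_left, divOf_apply]
  set E : InvEff S D₀ := ⟨D₀ + divOf hRR (x : F), hE0, hEp, hu.invariant_of_fixed hxF hxT' hEv⟩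
    with hE
  obtain ⟨hrT, hr0, hrv⟩ := rep_spec hRR hu E
  have hrF : (rep hRR hu E : F) ≠ 0 := coe_ne_zero hr0
  have hord : ∀ v : Place k F, v.ord (x : F) = v.ord (rep hRR hu E : F) := by
    intro v
    have h1 := hrv v
    have h2 := hEv v
    have h3 : (E : Divisor k F) v = (D₀ + divOf hRR (x : F)) v := rfl
    linarith
  obtain ⟨c, hc0, hc⟩ := exists_const_of_ord_eq hRR hrF hxF hord
  have hx' : x = c • rep hRR hu E := by
    apply Subtype.ext
    rw [Submodule.coe_smul, Algebra.smul_def]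
    exact hc
  have hcq : c ^ (S.p ^ S.f) = c := by
    have h1 := hxT
    rw [hx', T_smul, hrT] at h1
    exact smul_left_injective k hr0 h1
  refine ⟨(E, ⟨c, hcq, hc0⟩), ?_⟩
  apply Subtype.ext
  exact hx'.symm

theorem card_prod_eq [IsAlgClosed k] (hRR : IsRRField k F) (hu : IsTwist S D₀ u) :
    Nat.card (InvEff S D₀) * Nat.card (FqNz S) = Nat.card (FixNz hu) := by
  rw [← Nat.card_prod]
  exact Nat.card_congr (Equiv.ofBijective (param hRR hu)
    ⟨param_injective hRR hu, param_surjective hRR hu⟩)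

end Count

end ClassCount

/-- **Seat Z3b (CLASS).** -/
theorem card_effInv_class (hRR : IsRRField k F) (S : FrobStr k F) [IsAlgClosed k]
    (D₀ : Divisor k F) (hD₀ : S.σ • D₀ - D₀ ∈ Divisor.principal (K := k) (F := F)) :
    Nat.card {E : Divisor k F // 0 ≤ E ∧ E - D₀ ∈ Divisor.principal (K := k) (F := F) ∧
        S.σ • E = E} * (S.q - 1)
      = S.q ^ ell D₀ - 1 := by
  obtain ⟨u, hu0, hu⟩ := hD₀
  have hu' : ClassCount.IsTwist S D₀ u := ⟨hu0, hu⟩
  have h1 := ClassCount.card_prod_eq hRR hu'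
  have h2 := ClassCount.card_FixNz hRR hu'
  have h3 := ClassCount.card_FqNz S
  have e1 : Nat.card (ClassCount.FqNz S) = S.q - 1 := by
    unfold FrobStr.q
    omega
  have e2 : Nat.card (ClassCount.FixNz hu') = S.q ^ ell D₀ - 1 := by
    unfold FrobStr.q
    omega
  rw [← e1, ← e2]
  exact h1

end Fermat.Agent.S27
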