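import Mathlib
import Fermat.Agent.S27.Zeta.Defs
import Fermat.Agent.S27.Zeta.Fin
import Fermat.Agent.S27.Zeta.ClassCount

set_option autoImplicit false
set_option linter.style.haveILetI false
set_option linter.unusedSectionVars false

/-!
# S27, part D, seat Z4 (RAT), third statement: `L(χ, t)` is a polynomial  (helper27)

`lser_polynomial_of_finite`: for a character `χ ≠ 1` of the finite group `J₁` the series `L(χ, t)`
is a polynomial (of degree `< 2g`).

For `d > 2g - 2` and `x ∈ J₁` the invariant effective divisors `E` of degree `d` with `cls E = x`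
are the invariant effective divisors linearly equivalent to `D₀ = D_x + d P₀` (`x = [D_x]`), and
`ℓ(D₀) = d + 1 - g`; by seat Z3b their number `c` satisfies `c (q - 1) = q^(d+1-g) - 1`, the same
for all `x`.  So `Lcoef χ d = c Σ_{x ∈ J₁} χ(x) = 0` (orthogonality).
-/

noncomputable section

open AlgebraicCurve PowerSeries

namespace Fermat.Agent.S27

open Fermat.Agent.RR

variable {k F : Type*} [Field k] [Field F] [Algebra k F]

/-! ### classes -/

theorem lp_degree_sub (hRR : IsRRField k F) (S : FrobStr k F) (D : Divisor k F) :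
    Divisor.degree (D - Divisor.degree D • Finsupp.single S.P₀ (1 : ℤ)) = 0 := by
  rw [map_sub, map_zsmul, Divisor.degree_single, hRR.deg_one]
  simp

theorem lp_cls_eq (hRR : IsRRField k F) (S : FrobStr k F) (D : Divisor k F) :
    S.cls D = Pic0.mk ⟨D - Divisor.degree D • Finsupp.single S.P₀ (1 : ℤ),
      lp_degree_sub hRR S D⟩ := by
  unfold FrobStr.cls
  rw [dif_pos (lp_degree_sub hRR S D)]

theorem lp_smul_cls (hRR : IsRRField k F) (S : FrobStr k F) (D : Divisor k F) :
    S.σ • S.cls D = S.cls (S.σ • D) := by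
  rw [lp_cls_eq hRR, lp_cls_eq hRR, SemilinearAut.pic0_smul_mk]
  congr 1
  apply Subtype.ext
  rw [SemilinearAut.coe_degZeroSMulHom]
  show S.σ • (D - Divisor.degree D • Finsupp.single S.P₀ (1 : ℤ)) =
    S.σ • D - Divisor.degree (S.σ • D) • Finsupp.single S.P₀ (1 : ℤ)
  rw [smul_sub, SemilinearAut.degree_smul]
  congr 1
  have h := map_zsmul (DistribSMul.toAddMonoidHom (Divisor k F) S.σ)
    (Divisor.degree D) (Finsupp.single S.P₀ (1 : ℤ))
  have h2 : S.σ • (Divisor.degree D • Finsupp.single S.P₀ (1 : ℤ) : Divisor k F) =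
      Divisor.degree D • (S.σ • (Finsupp.single S.P₀ (1 : ℤ) : Divisor k F)) := h
  rw [h2, SemilinearAut.smul_single, S.fixed]

/-- the class of an invariant divisor is invariant. -/
theorem lp_cls_mem (hRR : IsRRField k F) (S : FrobStr k F) {D : Divisor k F}
    (hD : S.σ • D = D) : S.cls D ∈ fixedPow S.sigmaEnd 1 := by
  rw [mem_fixedPow, pow_one, S.sigmaEnd_apply, lp_smul_cls hRR, hD]

/-- a principal divisor has degree `0`. -/
theorem lp_degree_of_principal (hRR : IsRRField k F) {D : Divisor k F}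
    (hD : D ∈ Divisor.principal (K := k) (F := F)) : Divisor.degree D = 0 := by
  obtain ⟨f, hf, hDf⟩ := hD
  obtain ⟨D', hD', hdeg⟩ := hRR.principal f hf
  have : D = D' := by
    ext v
    rw [hDf, hD']
  rw [this, hdeg]

/-- equality of classes is linear equivalence. -/
theorem lp_mk_eq_mk_iff (D E : Divisor.degZero (K := k) (F := F)) :
    Pic0.mk D = Pic0.mk E ↔
      (D : Divisor k F) - (E : Divisor k F) ∈ Divisor.principal (K := k) (F := F) := by
  unfold Pic0.mk
  rw [QuotientAddGroup.eq, AddSubgroup.mem_addSubgroupOf]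
  have h1 : ((-D + E : Divisor.degZero (K := k) (F := F)) : Divisor k F) =
      -((D : Divisor k F) - (E : Divisor k F)) := by
    push_cast
    abel
  rw [h1, neg_mem_iff]

/-! ### the fibres of `cls` -/

/-- the invariant effective divisors of degree `d` in the class `x`, `d > 2g - 2`. -/
theorem lp_fibre_card (hRR : IsRRField k F) (S : FrobStr k F) [IsAlgClosed k] (d : ℕ)
    (hd : 2 * (genusFF k F : ℤ) - 2 < (d : ℤ)) {x : Pic0 k F}
    (hx : x ∈ fixedPow S.sigmaEnd 1) :
    Nat.card {E : Divisor k F // E ∈ S.effInv d ∧ S.cls E = x} * (S.q - 1) =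
      S.q ^ (d + 1 - genusFF k F) - 1 := by
  obtain ⟨⟨Dx, hDx⟩, rfl⟩ := Pic0.mk_surjective x
  have hDx0 : Divisor.degree Dx = 0 := hDx
  set D₀ : Divisor k F := Dx + (d : ℤ) • Finsupp.single S.P₀ (1 : ℤ) with hD₀
  have hdeg₀ : Divisor.degree D₀ = (d : ℤ) := by
    rw [hD₀, map_add, map_zsmul, Divisor.degree_single, hRR.deg_one, hDx0]
    simp
  -- the class of `D₀` is invariant
  have hσP : S.σ • ((d : ℤ) • Finsupp.single S.P₀ (1 : ℤ) : Divisor k F) =
      (d : ℤ) • Finsupp.single S.P₀ (1 : ℤ) := by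
    have h := map_zsmul (DistribSMul.toAddMonoidHom (Divisor k F) S.σ)
      (d : ℤ) (Finsupp.single S.P₀ (1 : ℤ))
    have h2 : S.σ • ((d : ℤ) • Finsupp.single S.P₀ (1 : ℤ) : Divisor k F) =
        (d : ℤ) • (S.σ • (Finsupp.single S.P₀ (1 : ℤ) : Divisor k F)) := h
    rw [h2, SemilinearAut.smul_single, S.fixed]
  have hinv : S.σ • D₀ - D₀ ∈ Divisor.principal (K := k) (F := F) := by
    rw [mem_fixedPow, pow_one, S.sigmaEnd_apply, SemilinearAut.pic0_smul_mk,
      lp_mk_eq_mk_iff] at hx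
    have h1 : S.σ • D₀ - D₀ = S.σ • Dx - Dx := by
      rw [hD₀, smul_add, hσP]
      abel
    rw [h1]
    exact hx
  have hcard := card_effInv_class hRR S D₀ hinv
  -- `ℓ(D₀) = d + 1 - g`
  have hell : ell D₀ = d + 1 - genusFF k F := by
    have h1 := ell_of_degree_gt hRR (D := D₀) (by rw [hdeg₀]; exact hd)
    rw [hdeg₀] at h1
    omega
  rw [hell] at hcard
  rw [← hcard]
  congr 1
  apply Nat.card_congr
  refine Equiv.subtypeEquivRight fun E => ?_
  have hclsE : ∀ E : Divisor k F, Divisor.degree E = (d : ℤ) →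
      (S.cls E = Pic0.mk ⟨Dx, hDx⟩ ↔ E - D₀ ∈ Divisor.principal (K := k) (F := F)) := by
    intro E hE
    rw [lp_cls_eq hRR, lp_mk_eq_mk_iff]
    have h1 : E - Divisor.degree E • Finsupp.single S.P₀ (1 : ℤ) - Dx = E - D₀ := by
      rw [hD₀, hE]
      abel
    show E - Divisor.degree E • Finsupp.single S.P₀ (1 : ℤ) - Dx ∈ _ ↔ _
    rw [h1]
  constructor
  · rintro ⟨⟨h1, h2, h3⟩, h4⟩
    exact ⟨h1, (hclsE E h2).mp h4, h3⟩
  · rintro ⟨h1, h2, h3⟩
    have hE : Divisor.degree E = (d : ℤ) := by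
      have := lp_degree_of_principal hRR h2
      rw [map_sub, hdeg₀] at this
      linarith
    exact ⟨⟨h1, hE, h3⟩, (hclsE E hE).mpr h2⟩

/-! ### orthogonality -/

theorem lp_sum_char_eq_zero {J : Type*} [AddCommGroup J] (J₁ : AddSubgroup J)
    (hfin : (J₁ : Set J).Finite) (χ : J → ℂ)
    (hadd : ∀ x ∈ J₁, ∀ y ∈ J₁, χ (x + y) = χ x * χ y) {x₁ : J} (hx₁ : x₁ ∈ J₁)
    (hne : χ x₁ ≠ 1) : ∑ x ∈ hfin.toFinset, χ x = 0 := by
  have h1 : ∑ x ∈ hfin.toFinset, χ x = ∑ x ∈ hfin.toFinset, χ (x + x₁) := by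
    refine (Finset.sum_bij (fun x _ => x + x₁) ?_ ?_ ?_ ?_).symm
    · intro x hx
      rw [Set.Finite.mem_toFinset] at hx ⊢
      exact J₁.add_mem hx hx₁
    · intro x _ y _ hxy
      exact add_right_cancel hxy
    · intro y hy
      rw [Set.Finite.mem_toFinset] at hy
      refine ⟨y - x₁, ?_, by abel⟩
      rw [Set.Finite.mem_toFinset]
      exact J₁.sub_mem hy hx₁
    · intro x _
      rfl
  have h2 : ∑ x ∈ hfin.toFinset, χ (x + x₁) = (∑ x ∈ hfin.toFinset, χ x) * χ x₁ := by
    rw [Finset.sum_mul]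
    refine Finset.sum_congr rfl fun x hx => ?_
    rw [Set.Finite.mem_toFinset] at hx
    exact hadd x hx x₁ hx₁
  rw [h2] at h1
  have h3 : (∑ x ∈ hfin.toFinset, χ x) * (1 - χ x₁) = 0 := by
    rw [mul_sub, mul_one, ← h1, sub_self]
  rcases mul_eq_zero.mp h3 with h | h
  · exact h
  · exact absurd (sub_eq_zero.mp h).symm hne

/-! ### the coefficients of `L(χ, t)` in high degree -/

theorem lp_Lcoef_eq_zero (hRR : IsRRField k F) (S : FrobStr k F) [IsAlgClosed k]
    (hfin : (fixedPow S.sigmaEnd 1 : Set (Pic0 k F)).Finite)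
    (χ : Pic0 k F → ℂ) (hχ : S.IsCharOn χ) (hne : ∃ x ∈ fixedPow S.sigmaEnd 1, χ x ≠ 1)
    (d : ℕ) (hd : 2 * (genusFF k F : ℤ) - 2 < (d : ℤ)) : S.Lcoef χ d = 0 := by
  classical
  obtain ⟨x₁, hx₁, hχx₁⟩ := hne
  have hT := effInv_finite hRR S d
  unfold FrobStr.Lcoef
  rw [finsum_mem_eq_finite_toFinset_sum _ hT]
  have hmaps : ∀ E ∈ hT.toFinset, S.cls E ∈ hfin.toFinset := by
    intro E hE
    rw [Set.Finite.mem_toFinset] at hE ⊢
    exact lp_cls_mem hRR S hE.2.2
  rw [← Finset.sum_fiberwise_of_maps_to hmaps]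
  -- the common cardinality of the fibres
  have hq1 : 0 < S.q - 1 := by
    have := S.one_lt_q
    omega
  set c : ℕ := (S.q ^ (d + 1 - genusFF k F) - 1) / (S.q - 1) with hc
  have hfib : ∀ x ∈ hfin.toFinset,
      ∑ E ∈ hT.toFinset with S.cls E = x, χ (S.cls E) = (c : ℂ) * χ x := by
    intro x hx
    rw [Set.Finite.mem_toFinset] at hx
    have h1 : ∑ E ∈ hT.toFinset with S.cls E = x, χ (S.cls E) =
        ∑ _E ∈ hT.toFinset with S.cls _E = x, χ x := by
      refine Finset.sum_congr rfl fun E hE => ?_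
      rw [(Finset.mem_filter.mp hE).2]
    rw [h1, Finset.sum_const, nsmul_eq_mul]
    congr 2
    have h2 := lp_fibre_card hRR S d hd hx
    have h3 : Nat.card {E : Divisor k F // E ∈ S.effInv d ∧ S.cls E = x} =
        (hT.toFinset.filter fun E => S.cls E = x).card := by
      rw [← Set.ncard_coe_finset, ← Nat.card_coe_set_eq]
      refine Nat.card_congr (Equiv.subtypeEquivRight fun E => ?_)
      rw [Finset.mem_coe, Finset.mem_filter, Set.Finite.mem_toFinset]
    rw [← h3, hc, ← h2, Nat.mul_div_cancel _ hq1]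
  rw [Finset.sum_congr rfl hfib, ← Finset.mul_sum,
    lp_sum_char_eq_zero (fixedPow S.sigmaEnd 1) hfin χ hχ.map_add hx₁ hχx₁, mul_zero]

/-- **Seat Z4, third statement.** `L(χ, t)` is a polynomial for a nontrivial character `χ` of the
finite group `J₁`. -/
theorem lser_polynomial_of_finite (hRR : IsRRField k F) (S : FrobStr k F) [IsAlgClosed k]
    (hfin : (fixedPow S.sigmaEnd 1 : Set (Pic0 k F)).Finite)
    (χ : Pic0 k F → ℂ) (hχ : S.IsCharOn χ) (hne : ∃ x ∈ fixedPow S.sigmaEnd 1, χ x ≠ 1) :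
    ∃ P : Polynomial ℂ, S.Lser χ = (P : ℂ⟦X⟧) := by
  refine ⟨PowerSeries.trunc (2 * genusFF k F) (S.Lser χ), ?_⟩
  ext d
  rw [Polynomial.coeff_coe, PowerSeries.coeff_trunc]
  split_ifs with h
  · rfl
  · unfold FrobStr.Lser
    rw [coeff_mk]
    apply lp_Lcoef_eq_zero hRR S hfin χ hχ hne d
    have : (2 * genusFF k F : ℤ) ≤ (d : ℤ) := by exact_mod_cast not_lt.mp h
    linarith

end Fermat.Agent.S27
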