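import Mathlib
import Fermat.Agent.S27.Zeta.Defs
import Fermat.Agent.S27.Zeta.Fin
import Fermat.Agent.S27.Zeta.ClassCount
import Fermat.Agent.S27.Zeta.Rat.Poly
import Fermat.Agent.S27.Zeta.LserPoly

set_option autoImplicit false

/-!
# S27, part D, seat Z4 (RAT): class sums, finiteness of `J₁`, rationality of `Z`, polynomial `L`

`h = #J₁`.  Every invariant class of degree `d` is `cls`-represented: `c ↦ c - d P₀` is a bijection
from the invariant classes of degree `d` to `J₁`, and by seat Z3b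
  `a_d = Σ_{x ∈ J₁} (q ^ ℓ(x + d P₀) - 1) / (q - 1)`,   `Lcoef χ d = Σ_{x ∈ J₁} χ(x) (q ^ ℓ(x + d P₀) - 1) / (q - 1)`.
* `J₁` is finite: it is the image of `effInv g` under `cls` (`ℓ ≥ 1` in degree `g`), seat Z2.
* `d ≥ 2g - 1`: `ℓ = d - g + 1`, so `a_d = h (q^(d-g+1) - 1)/(q - 1)` and `Lcoef χ d = 0` for `χ ≠ 1`
  (orthogonality): `L(χ, t)` is a polynomial.
* `P := (1 - t)(1 - q t) Z(t)` is a polynomial of degree `2g`: `P(0) = 1` (`ℓ(0) = 1`, `ℓ(x) = 0` for
  `x ≠ 0` of degree `0`), `P(1) = h`, leading coefficient `q^g` (in degree `2g - 2`: `ℓ(W) = g`,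
  `ℓ(c) = g - 1` for `c ≠ W`; the canonical class is `σ`-invariant because it is the only class of
  degree `2g - 2` with `ℓ = g`, and `σ` preserves `deg` and `ℓ`).  No functional equation is needed.

Proofs: `Zeta/Rat/{Classes,Sums,Canon,Poly}.lean` (helper99), `Zeta/LserPoly.lean` (helper27).
-/

noncomputable section

open AlgebraicCurve PowerSeries

namespace Fermat.Agent.S27

open Fermat.Agent.RR

variable {k F : Type*} [Field k] [Field F] [Algebra k F]

/-- **Seat Z4.** `J₁` is finite -/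
theorem finite_fixed_one (hRR : IsRRField k F) (S : FrobStr k F) [IsAlgClosed k] :
    (fixedPow S.sigmaEnd 1 : Set (Pic0 k F)).Finite :=
  finite_fixed_one' hRR S

/-- **Seat Z4.** `(1 - t)(1 - q t) Z(t) = P(t)`, `deg P = 2g`, `P(0) = 1`, `P(1) = h`,
leading coefficient `q^g` -/
theorem zeta_rational (hRR : IsRRField k F) (S : FrobStr k F) [IsAlgClosed k] :
    ∃ P : Polynomial ℤ, P.natDegree = 2 * genusFF k F ∧ P.coeff 0 = 1 ∧
      P.leadingCoeff = (S.q : ℤ) ^ genusFF k F ∧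
      P.eval 1 = (Nat.card (fixedPow S.sigmaEnd 1) : ℤ) ∧
      (1 - (X : ℤ⟦X⟧)) * (1 - C (S.q : ℤ) * X) * S.zeta = (P : ℤ⟦X⟧) :=
  zeta_rational' hRR S

/-- **Seat Z4.** `L(χ, t)` is a polynomial for a nontrivial character `χ` of `J₁` -/
theorem Lser_polynomial (hRR : IsRRField k F) (S : FrobStr k F) [IsAlgClosed k]
    (χ : Pic0 k F → ℂ) (hχ : S.IsCharOn χ) (hne : ∃ x ∈ fixedPow S.sigmaEnd 1, χ x ≠ 1) :
    ∃ P : Polynomial ℂ, S.Lser χ = (P : ℂ⟦X⟧) :=
  lser_polynomial_of_finite hRR S (finite_fixed_one' hRR S) χ hχ hne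

end Fermat.Agent.S27
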