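import Mathlib
import Fermat.Agent.S27.Zeta.Defs
import Fermat.Agent.S27.Zeta.Rational
import Fermat.Agent.S27.Zeta.Newton
import Fermat.Agent.S27.Zeta.NewtonMat
import Fermat.Agent.S27.Zeta.Count

set_option autoImplicit false

/-!
# S27, part D, seat Z5c (DET): `#J_m = det (1 - A ^ m)`   (helper28)

`P` from `zeta_rational S`, `A` from `exists_matrix_charpolyRev P (2g)`: `det (1 - t A) = P`,
`det A = q^g`.  Newton sequences: `Z ↦ N_j` (seat Z5b), `1 - t ↦ -1`, `1 - q t ↦ -q^j`, so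
`P ↦ N_j - 1 - q^j`, and `P = det (1 - t A) ↦ - tr (A^j)`: `tr (A^j) = 1 + q^j - N_j` for `j ≥ 1`.
For `m ≥ 1`, `S' = S.pow m`: `N'_j = N_{m j}`, `q' = q^m`, `P'` from `zeta_rational S'` has Newton
sequence `N_{mj} - 1 - q^{mj} = - tr ((A^m)^j)`, the Newton sequence of `det (1 - t A^m)`.  By
`IsNewton.unique` (`ℤ`): `P' = det (1 - t A^m)`, and `#J_m = P'(1) = det (1 - A^m)`.
-/

noncomputable section

open AlgebraicCurve PowerSeries

namespace Fermat.Agent.S27

open Fermat.Agent.RR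

variable {k F : Type*} [Field k] [Field F] [Algebra k F]

theorem FrobStr.fixPl_pow (S : FrobStr k F) (m : ℕ) (hm : 0 < m) (j : ℕ) :
    (S.pow m hm).fixPl j = S.fixPl (m * j) := by
  ext P
  show ((S.σ ^ m) ^ j) • P = P ↔ (S.σ ^ (m * j)) • P = P
  rw [pow_mul]

theorem FrobStr.Npl_pow (S : FrobStr k F) (m : ℕ) (hm : 0 < m) (j : ℕ) :
    (S.pow m hm).Npl j = S.Npl (m * j) := by
  unfold FrobStr.Npl
  rw [S.fixPl_pow m hm j]

/-- two Newton sequences of the same power series with constant term `1` agree -/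
theorem IsNewton.eq_of_same {R : Type*} [CommRing R] [IsDomain R] {Z : R⟦X⟧} {N N' : ℕ → R}
    (h : IsNewton Z N) (h' : IsNewton Z N') (h0 : constantCoeff Z = 1) (j : ℕ) (hj : 0 < j) :
    N j = N' j := by
  unfold IsNewton at h h'
  have hZ : Z ≠ 0 := by
    intro hz
    rw [hz, map_zero] at h0
    exact zero_ne_one h0
  have e := mul_left_cancel₀ hZ (h.symm.trans h')
  have e2 := congrArg (coeff j) e
  rw [coeff_mk, coeff_mk, if_neg hj.ne', if_neg hj.ne'] at e2
  exact e2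

/-- the Newton sequence of `(1 - t)(1 - q t) Z` -/
theorem isNewton_numerator (hRR : IsRRField k F) (S : FrobStr k F) :
    IsNewton ((1 - (X : ℤ⟦X⟧)) * (1 - C (S.q : ℤ) * X) * S.zeta)
      (fun j => -1 + -(S.q : ℤ) ^ j + (S.Npl j : ℤ)) := by
  have h1 : IsNewton (1 - (X : ℤ⟦X⟧)) (fun j => -(1 : ℤ) ^ j) := by
    have := isNewton_one_sub (1 : ℤ)
    rwa [map_one, one_mul] at this
  have h2 := isNewton_one_sub (S.q : ℤ)
  have h3 := isNewton_zeta hRR S
  have h := (h1.mul h2).mul h3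
  convert h using 2
  rw [one_pow]

theorem constantCoeff_charpolyRev {n : ℕ} (B : Matrix (Fin n) (Fin n) ℤ) :
    constantCoeff ((B.charpolyRev : Polynomial ℤ) : ℤ⟦X⟧) = 1 := by
  rw [← coeff_zero_eq_constantCoeff_apply, Polynomial.coeff_coe, Polynomial.coeff_zero_eq_eval_zero,
    Matrix.eval_charpolyRev]

theorem eval_one_charpolyRev {n : ℕ} (B : Matrix (Fin n) (Fin n) ℤ) :
    (B.charpolyRev).eval 1 = (1 - B).det := by
  rw [Matrix.charpolyRev, ← Polynomial.coe_evalRingHom, RingHom.map_det]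
  congr 1
  ext i j
  rcases eq_or_ne i j with hij | hij <;>
    simp [hij, Matrix.one_apply]

/-- **Seat Z5c (DET).** -/
theorem exists_matrix (hRR : IsRRField k F) (S : FrobStr k F) [IsAlgClosed k] :
    ∃ A : Matrix (Fin (2 * genusFF k F)) (Fin (2 * genusFF k F)) ℤ,
      A.det = (S.q : ℤ) ^ genusFF k F ∧
      ∀ m : ℕ, 0 < m → (Nat.card (fixedPow S.sigmaEnd m) : ℤ) = (1 - A ^ m).det := by
  obtain ⟨P, hdeg, hP0, hlead, -, hP⟩ := zeta_rational hRR S
  obtain ⟨A, hA, hdet⟩ := exists_matrix_charpolyRev P (2 * genusFF k F) hdeg hP0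
  refine ⟨A, ?_, ?_⟩
  · rw [hdet, hlead, pow_mul, neg_one_sq, one_pow, one_mul]
  -- traces of the powers of `A`
  have htr : ∀ j : ℕ, 0 < j → -(A ^ j).trace = -1 + -(S.q : ℤ) ^ j + (S.Npl j : ℤ) := by
    intro j hj
    have h1 : IsNewton ((A.charpolyRev : Polynomial ℤ) : ℤ⟦X⟧) (fun j => -(A ^ j).trace) :=
      isNewton_charpolyRev A
    have h2 := isNewton_numerator hRR S
    rw [hP, ← hA] at h2
    exact IsNewton.eq_of_same h1 h2 (constantCoeff_charpolyRev A) j hj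
  intro m hm
  obtain ⟨P', -, hP'0, -, hP'1, hP'⟩ := zeta_rational hRR (S.pow m hm)
  have h1 : IsNewton ((( A ^ m).charpolyRev : Polynomial ℤ) : ℤ⟦X⟧)
      (fun j => -((A ^ m) ^ j).trace) := isNewton_charpolyRev (A ^ m)
  have h2 := isNewton_numerator hRR (S.pow m hm)
  rw [hP'] at h2
  have hc' : constantCoeff (P' : ℤ⟦X⟧) = 1 := by
    rw [← coeff_zero_eq_constantCoeff_apply, Polynomial.coeff_coe]
    exact hP'0
  have heq : (P' : ℤ⟦X⟧) = (((A ^ m).charpolyRev : Polynomial ℤ) : ℤ⟦X⟧) := by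
    refine IsNewton.unique h2 h1 (fun j hj => ?_) hc' (constantCoeff_charpolyRev (A ^ m))
    show -1 + -((S.pow m hm).q : ℤ) ^ j + ((S.pow m hm).Npl j : ℤ) = -((A ^ m) ^ j).trace
    rw [S.pow_q m hm, S.Npl_pow m hm j, ← pow_mul, htr (m * j) (Nat.mul_pos hm hj)]
    push_cast
    rw [← pow_mul]
  have heq' : P' = (A ^ m).charpolyRev := Polynomial.coe_injective ℤ heq
  have h3 : (Nat.card (fixedPow S.sigmaEnd m) : ℤ) = P'.eval 1 := by
    rw [hP'1, S.fixedPow_pow m hm 1, mul_one]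
  rw [h3, heq', eval_one_charpolyRev]

end Fermat.Agent.S27
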