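import Mathlib
import Fermat.Agent.S27.Zeta.Defs
import Fermat.Agent.S27.Zeta.Rational
import Fermat.Agent.S27.Zeta.Newton
import Fermat.Agent.S27.Zeta.Count

set_option autoImplicit false
set_option linter.style.haveILetI false
set_option linter.unusedSectionVars false

/-!
# S27, part D, seat Z6 (NORM): the norm `J_ℓ → J₁` is surjective  (helper27)

`ν = 1 + σ + ⋯ + σ^{ℓ-1} : J_ℓ → J₁`.  If `ν J_ℓ ≠ J₁` there is a character `χ ≠ 1` of the finite
group `J₁` which is trivial on `ν J_ℓ` (`z6_exists_char`).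
(1) for `ℓ ∣ j` and `σ^j P = P`: `cls (nrmPl j P) = ν y` with `y = Σ_{b < j/ℓ} σ^{ℓ b} (P - P₀) ∈ J_ℓ`
    (`z6_cls_nrmPl_mem`), so `ν_j(χ) = ν_j(1)`.
(2) `ζ` a primitive `ℓ`-th root of unity in `ℂ`, `M_χ(t) := Π_{i < ℓ} L(χ, ζ^i t)`: Newton sequence
    `Σ_i ζ^{ij} ν_j(χ)` (`z6_isNewton_prod_rescale`), which is `0` for `ℓ ∤ j` and the same as for
    `M_1` for `ℓ ∣ j`; so `M_χ = M_1` (`IsNewton.unique`).
(3) `M_χ` has finitely many coefficients (`Lser_polynomial`).  `M_1` has not: its Newton sequence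
    is real `≥ 0` and `≥ ℓ` at `j = ℓ` (`P₀` is fixed), so its coefficients in the degrees `ℓ d`
    are `> 0` (`z6_coeff_pos`).  Contradiction.
-/

noncomputable section

open AlgebraicCurve PowerSeries

namespace Fermat.Agent.S27

open Fermat.Agent.RR

/-! ### abstract group theory -/

section Abstract

variable {J : Type*} [AddCommGroup J]

theorem z6_pow_succ_apply (σ : AddMonoid.End J) (u : ℕ) (y : J) :
    σ ((σ ^ u) y) = (σ ^ (u + 1)) y := by
  rw [pow_succ']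
  rfl

theorem z6_normPow_apply (σ : AddMonoid.End J) (ℓ : ℕ) (y : J) :
    normPow σ 1 ℓ y = ∑ u ∈ Finset.range ℓ, (σ ^ u) y := by
  unfold normPow
  rw [pow_one]
  induction ℓ with
  | zero => simp
  | succ n ih =>
    rw [Finset.sum_range_succ, Finset.sum_range_succ, ← ih]
    rfl

/-- the norm maps `J_ℓ` into `J₁`. -/
theorem z6_norm_mem (σ : AddMonoid.End J) (ℓ : ℕ) {y : J} (hy : y ∈ fixedPow σ ℓ) :
    normPow σ 1 ℓ y ∈ fixedPow σ 1 := by
  rw [mem_fixedPow, pow_one, z6_normPow_apply, map_sum]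
  simp only [z6_pow_succ_apply]
  have h1 := Finset.sum_range_succ (fun u => (σ ^ u) y) ℓ
  have h2 := Finset.sum_range_succ' (fun u => (σ ^ u) y) ℓ
  rw [h1] at h2
  simp only [pow_zero] at h2
  rw [mem_fixedPow] at hy
  rw [hy] at h2
  have h3 : (1 : AddMonoid.End J) y = y := rfl
  rw [h3] at h2
  exact (add_right_cancel h2).symm

/-- a character of a finite abelian group which is trivial on a subgroup and nontrivial at a given
element outside it. -/
theorem z6_exists_char (J₁ H : AddSubgroup J) (hH : H ≤ J₁) (hfin : (J₁ : Set J).Finite)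
    {x₀ : J} (hx₀ : x₀ ∈ J₁) (hx₀H : x₀ ∉ H) :
    ∃ χ : J → ℂ, χ 0 = 1 ∧ (∀ x ∈ J₁, ∀ y ∈ J₁, χ (x + y) = χ x * χ y) ∧
      (∀ x ∈ H, χ x = 1) ∧ χ x₀ ≠ 1 := by
  classical
  haveI : Finite J₁ := hfin
  let G := J₁ ⧸ H.addSubgroupOf J₁
  haveI : Finite G := inferInstance
  let a : G := QuotientAddGroup.mk ⟨x₀, hx₀⟩
  have ha : a ≠ 0 := by
    intro h
    rw [QuotientAddGroup.eq_zero_iff] at h
    exact hx₀H h
  have ha' : Multiplicative.ofAdd a ≠ 1 := fun h => ha (by simpa using h)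
  haveI : NeZero (Monoid.exponent (Multiplicative G)) :=
    ⟨Monoid.exponent_ne_zero_of_finite⟩
  obtain ⟨φ, hφ⟩ := CommGroup.exists_apply_ne_one_of_hasEnoughRootsOfUnity
    (Multiplicative G) ℂ ha'
  refine ⟨fun x => if hx : x ∈ J₁ then ((φ (Multiplicative.ofAdd
    (QuotientAddGroup.mk ⟨x, hx⟩ : G)) : ℂˣ) : ℂ) else 1, ?_, ?_, ?_, ?_⟩
  · simp only [dif_pos J₁.zero_mem]
    have : (QuotientAddGroup.mk (⟨0, J₁.zero_mem⟩ : J₁) : G) = 0 := rfl
    rw [this, ofAdd_zero, map_one, Units.val_one]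
  · intro x hx y hy
    simp only [dif_pos hx, dif_pos hy, dif_pos (J₁.add_mem hx hy)]
    rw [← Units.val_mul, ← map_mul, ← ofAdd_add]
    rfl
  · intro x hx
    simp only [dif_pos (hH hx)]
    have : (QuotientAddGroup.mk (⟨x, hH hx⟩ : J₁) : G) = 0 := by
      rw [QuotientAddGroup.eq_zero_iff]
      exact hx
    rw [this, ofAdd_zero, map_one, Units.val_one]
  · simp only [dif_pos hx₀]
    intro h
    apply hφ
    exact Units.ext h

end Abstract

/-! ### Newton sequences -/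

section NewtonAux

variable {R : Type*} [CommRing R]

theorem z6_isNewton_congr {Z : R⟦X⟧} {N N' : ℕ → R} (h : IsNewton Z N)
    (hN : ∀ j, 0 < j → N j = N' j) : IsNewton Z N' := by
  unfold IsNewton at h ⊢
  rw [h]
  congr 1
  ext j
  simp only [coeff_mk]
  split_ifs with hj
  · rfl
  · exact hN j (Nat.pos_of_ne_zero hj)

theorem z6_isNewton_one : IsNewton (1 : R⟦X⟧) (fun _ => 0) := by
  unfold IsNewton
  have h1 : (PowerSeries.mk fun j : ℕ => if j = 0 then (0 : R) else 0) = 0 := by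
    ext j
    simp
  rw [h1, mul_zero]
  have h2 : PowerSeries.derivative R (1 : R⟦X⟧) = 0 := by
    have := (PowerSeries.derivative R).map_one_eq_zero
    exact this
  rw [h2, mul_zero]

/-- the Newton sequence of `∏_{i ∈ s} Z(c_i t)`. -/
theorem z6_isNewton_prod_rescale {Z : R⟦X⟧} {N : ℕ → R} (h : IsNewton Z N) {ι : Type*}
    (s : Finset ι) (c : ι → R) :
    IsNewton (∏ i ∈ s, PowerSeries.rescale (c i) Z) (fun j => (∑ i ∈ s, c i ^ j) * N j) := by
  classical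
  induction s using Finset.induction_on with
  | empty =>
    simp only [Finset.prod_empty, Finset.sum_empty, zero_mul]
    exact z6_isNewton_one
  | insert i s hi ih =>
    rw [Finset.prod_insert hi]
    have h1 := (h.rescale (c i)).mul ih
    refine z6_isNewton_congr h1 fun j _ => ?_
    rw [Finset.sum_insert hi]
    ring

end NewtonAux

/-! ### roots of unity -/

theorem z6_sum_pow_of_dvd {ζ : ℂ} {ℓ : ℕ} (hζ : ζ ^ ℓ = 1) {j : ℕ} (hj : ℓ ∣ j) :
    ∑ i ∈ Finset.range ℓ, (ζ ^ i) ^ j = (ℓ : ℂ) := by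
  obtain ⟨b, rfl⟩ := hj
  have : ∀ i ∈ Finset.range ℓ, (ζ ^ i) ^ (ℓ * b) = 1 := by
    intro i _
    rw [← pow_mul, mul_comm i, mul_assoc, pow_mul, hζ, one_pow]
  rw [Finset.sum_congr rfl this, Finset.sum_const, Finset.card_range, nsmul_eq_mul, mul_one]

theorem z6_sum_pow_of_not_dvd {ζ : ℂ} {ℓ : ℕ} (hζ : IsPrimitiveRoot ζ ℓ) {j : ℕ}
    (hj : ¬ ℓ ∣ j) : ∑ i ∈ Finset.range ℓ, (ζ ^ i) ^ j = 0 := by
  have h1 : ζ ^ j ≠ 1 := fun h => hj ((hζ.pow_eq_one_iff_dvd j).mp h)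
  have h2 : ∑ i ∈ Finset.range ℓ, (ζ ^ i) ^ j = ∑ i ∈ Finset.range ℓ, (ζ ^ j) ^ i := by
    refine Finset.sum_congr rfl fun i _ => ?_
    rw [← pow_mul, ← pow_mul, mul_comm]
  rw [h2]
  have h3 := geom_sum_mul (ζ ^ j) ℓ
  rw [← pow_mul, mul_comm j ℓ, pow_mul, hζ.pow_eq_one, one_pow, sub_self] at h3
  rcases mul_eq_zero.mp h3 with h | h
  · exact h
  · exact absurd (sub_eq_zero.mp h) h1

/-! ### series with eventually vanishing coefficients -/

/-- the coefficients vanish from some degree on. -/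
def Z6EvZero (f : ℂ⟦X⟧) : Prop := ∃ D : ℕ, ∀ d : ℕ, D ≤ d → coeff d f = 0

theorem z6EvZero_one : Z6EvZero 1 := by
  refine ⟨1, fun d hd => ?_⟩
  rw [coeff_one, if_neg (by omega)]

theorem z6EvZero_coe (P : Polynomial ℂ) : Z6EvZero (P : ℂ⟦X⟧) := by
  refine ⟨P.natDegree + 1, fun d hd => ?_⟩
  rw [Polynomial.coeff_coe]
  exact Polynomial.coeff_eq_zero_of_natDegree_lt (by omega)

theorem Z6EvZero.rescale {f : ℂ⟦X⟧} (h : Z6EvZero f) (c : ℂ) :
    Z6EvZero (PowerSeries.rescale c f) := by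
  obtain ⟨D, hD⟩ := h
  refine ⟨D, fun d hd => ?_⟩
  rw [coeff_rescale, hD d hd, mul_zero]

theorem Z6EvZero.mul {f g : ℂ⟦X⟧} (hf : Z6EvZero f) (hg : Z6EvZero g) : Z6EvZero (f * g) := by
  obtain ⟨D, hD⟩ := hf
  obtain ⟨E, hE⟩ := hg
  refine ⟨D + E, fun d hd => ?_⟩
  rw [coeff_mul]
  refine Finset.sum_eq_zero fun x hx => ?_
  have hx' : x.1 + x.2 = d := Finset.HasAntidiagonal.mem_antidiagonal.mp hx
  by_cases h1 : D ≤ x.1
  · rw [hD _ h1, zero_mul]
  · rw [hE _ (by omega), mul_zero]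

theorem z6EvZero_prod {ι : Type*} (s : Finset ι) (f : ι → ℂ⟦X⟧) (h : ∀ i ∈ s, Z6EvZero (f i)) :
    Z6EvZero (∏ i ∈ s, f i) := by
  classical
  induction s using Finset.induction_on with
  | empty => simpa using z6EvZero_one
  | insert i s hi ih =>
    rw [Finset.prod_insert hi]
    exact (h i (Finset.mem_insert_self i s)).mul
      (ih fun j hj => h j (Finset.mem_insert_of_mem hj))

/-! ### positivity -/

/-- a series with constant term `1` whose Newton sequence is real `≥ 0` and positive at `ℓ`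
has positive coefficients in all degrees `ℓ d`. -/
theorem z6_coeff_pos {Z : ℂ⟦X⟧} {N : ℕ → ℂ} (h : IsNewton Z N) (h0 : constantCoeff Z = 1)
    (r : ℕ → ℝ) (hr : ∀ j, 0 < j → N j = (r j : ℂ)) (hr0 : ∀ j, 0 < j → 0 ≤ r j)
    {ℓ : ℕ} (hℓ : 0 < ℓ) (hrℓ : 0 < r ℓ) :
    ∀ d : ℕ, ∃ a : ℝ, 0 < a ∧ coeff (ℓ * d) Z = (a : ℂ) := by
  have hiff := isNewton_iff.mp h
  -- all coefficients are real and nonnegative
  have hnn : ∀ d : ℕ, ∃ a : ℝ, 0 ≤ a ∧ coeff d Z = (a : ℂ) := by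
    intro d
    induction d using Nat.strong_induction_on with
    | _ d ih =>
      rcases Nat.eq_zero_or_pos d with rfl | hd
      · refine ⟨1, zero_le_one, ?_⟩
        rw [coeff_zero_eq_constantCoeff_apply, h0, Complex.ofReal_one]
      · choose! a ha using fun e (he : e < d) => ih e he
        refine ⟨(∑ j ∈ Finset.range d, r (j + 1) * a (d - 1 - j)) / d, ?_, ?_⟩
        · apply div_nonneg _ (Nat.cast_nonneg d)
          refine Finset.sum_nonneg fun j hj => ?_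
          rw [Finset.mem_range] at hj
          exact mul_nonneg (hr0 _ (Nat.succ_pos j)) (ha _ (by omega)).1
        · have h1 := hiff d
          have hd0 : (d : ℂ) ≠ 0 := by exact_mod_cast hd.ne'
          rw [Complex.ofReal_div, Complex.ofReal_natCast, eq_div_iff hd0, mul_comm, h1,
            Complex.ofReal_sum]
          refine Finset.sum_congr rfl fun j hj => ?_
          rw [Finset.mem_range] at hj
          rw [Complex.ofReal_mul, hr _ (Nat.succ_pos j), (ha _ (by omega)).2]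
  choose a ha using hnn
  intro d
  induction d with
  | zero =>
    refine ⟨1, zero_lt_one, ?_⟩
    rw [mul_zero, coeff_zero_eq_constantCoeff_apply, h0, Complex.ofReal_one]
  | succ d ih =>
    obtain ⟨b, hb, hbd⟩ := ih
    refine ⟨a (ℓ * (d + 1)), ?_, (ha _).2⟩
    have hpos : 0 < ℓ * (d + 1) := Nat.mul_pos hℓ (Nat.succ_pos d)
    have h1 := hiff (ℓ * (d + 1))
    have h2 : ((ℓ * (d + 1) : ℕ) : ℝ) * a (ℓ * (d + 1)) =
        ∑ j ∈ Finset.range (ℓ * (d + 1)), r (j + 1) * a (ℓ * (d + 1) - 1 - j) := by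
      have h3 : (((ℓ * (d + 1) : ℕ) : ℝ) * a (ℓ * (d + 1)) : ℂ) =
          ((∑ j ∈ Finset.range (ℓ * (d + 1)), r (j + 1) * a (ℓ * (d + 1) - 1 - j) : ℝ) : ℂ) := by
        rw [Complex.ofReal_sum]
        rw [Complex.ofReal_natCast, ← (ha _).2, h1]
        refine Finset.sum_congr rfl fun j _ => ?_
        rw [Complex.ofReal_mul, hr _ (Nat.succ_pos j), (ha _).2]
      exact_mod_cast h3
    have hmem : ℓ - 1 ∈ Finset.range (ℓ * (d + 1)) := by
      rw [Finset.mem_range]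
      have : ℓ ≤ ℓ * (d + 1) := Nat.le_mul_of_pos_right ℓ (Nat.succ_pos d)
      omega
    have h4 : r ℓ * a (ℓ * d) ≤
        ∑ j ∈ Finset.range (ℓ * (d + 1)), r (j + 1) * a (ℓ * (d + 1) - 1 - j) := by
      have h5 := Finset.single_le_sum (f := fun j => r (j + 1) * a (ℓ * (d + 1) - 1 - j))
        (fun j _ => mul_nonneg (hr0 _ (Nat.succ_pos j)) (ha _).1) hmem
      have e1 : ℓ - 1 + 1 = ℓ := by omega
      have e2 : ℓ * (d + 1) - 1 - (ℓ - 1) = ℓ * d := by
        rw [Nat.mul_succ]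
        omega
      simp only [e1, e2] at h5
      exact h5
    have hb' : a (ℓ * d) = b := by
      have := (ha (ℓ * d)).2
      rw [hbd] at this
      exact_mod_cast this.symm
    have h6 : 0 < r ℓ * a (ℓ * d) := by
      rw [hb']
      exact mul_pos hrℓ hb
    have h7 : 0 < ((ℓ * (d + 1) : ℕ) : ℝ) * a (ℓ * (d + 1)) := by
      rw [h2]
      exact lt_of_lt_of_le h6 h4
    have h8 : (0 : ℝ) < ((ℓ * (d + 1) : ℕ) : ℝ) := by exact_mod_cast hpos
    exact (mul_pos_iff_of_pos_left h8).mp h7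

/-- such a series is not eventually zero. -/
theorem z6_not_evZero {Z : ℂ⟦X⟧} {N : ℕ → ℂ} (h : IsNewton Z N) (h0 : constantCoeff Z = 1)
    (r : ℕ → ℝ) (hr : ∀ j, 0 < j → N j = (r j : ℂ)) (hr0 : ∀ j, 0 < j → 0 ≤ r j)
    {ℓ : ℕ} (hℓ : 0 < ℓ) (hrℓ : 0 < r ℓ) : ¬ Z6EvZero Z := by
  rintro ⟨D, hD⟩
  obtain ⟨a, ha, had⟩ := z6_coeff_pos h h0 r hr hr0 hℓ hrℓ D
  have h1 : D ≤ ℓ * D := Nat.le_mul_of_pos_left D hℓ
  rw [hD _ h1] at had
  have : a = 0 := by exact_mod_cast had.symm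
  exact ha.ne' this

section Abstract2

variable {J : Type*} [AddCommGroup J]

theorem z6_pow_add_apply (σ : AddMonoid.End J) (a b : ℕ) (y : J) :
    (σ ^ (a + b)) y = (σ ^ a) ((σ ^ b) y) := by
  rw [pow_add]
  rfl

/-- `Σ_{i < ℓ b} σ^i z = ν (Σ_{c < b} σ^{ℓ c} z)`. -/
theorem z6_sum_eq_norm (σ : AddMonoid.End J) (ℓ b : ℕ) (z : J) :
    ∑ i ∈ Finset.range (ℓ * b), (σ ^ i) z =
      normPow σ 1 ℓ (∑ c ∈ Finset.range b, (σ ^ (ℓ * c)) z) := by
  induction b with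
  | zero => simp
  | succ b ih =>
    rw [Nat.mul_succ, Finset.sum_range_add, ih, Finset.sum_range_succ, map_add]
    congr 1
    rw [z6_normPow_apply]
    refine Finset.sum_congr rfl fun u _ => ?_
    rw [add_comm, z6_pow_add_apply]

/-- `Σ_{c < b} σ^{ℓ c} z` is fixed by `σ^ℓ` if `σ^{ℓ b} z = z`. -/
theorem z6_sum_mem_fixed (σ : AddMonoid.End J) (ℓ b : ℕ) (z : J) (hz : (σ ^ (ℓ * b)) z = z) :
    ∑ c ∈ Finset.range b, (σ ^ (ℓ * c)) z ∈ fixedPow σ ℓ := by
  rw [mem_fixedPow, map_sum]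
  have h0 : ∀ c, (σ ^ ℓ) ((σ ^ (ℓ * c)) z) = (σ ^ (ℓ * (c + 1))) z := by
    intro c
    rw [← z6_pow_add_apply, Nat.mul_succ, add_comm]
  simp only [h0]
  have h1 := Finset.sum_range_succ (fun c => (σ ^ (ℓ * c)) z) b
  have h2 := Finset.sum_range_succ' (fun c => (σ ^ (ℓ * c)) z) b
  rw [h1] at h2
  simp only [mul_zero, pow_zero] at h2
  rw [hz] at h2
  have h3 : (1 : AddMonoid.End J) z = z := rfl
  rw [h3] at h2
  exact (add_right_cancel h2).symm

end Abstract2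

/-! ### classes of divisors -/

section Cls

variable {k F : Type*} [Field k] [Field F] [Algebra k F]

theorem z6_degree_sub (hRR : IsRRField k F) (S : FrobStr k F) (D : Divisor k F) :
    Divisor.degree (D - Divisor.degree D • Finsupp.single S.P₀ (1 : ℤ)) = 0 := by
  rw [map_sub, map_zsmul, Divisor.degree_single, hRR.deg_one]
  simp

theorem z6_cls_eq (hRR : IsRRField k F) (S : FrobStr k F) (D : Divisor k F) :
    S.cls D = Pic0.mk ⟨D - Divisor.degree D • Finsupp.single S.P₀ (1 : ℤ),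
      z6_degree_sub hRR S D⟩ := by
  unfold FrobStr.cls
  rw [dif_pos (z6_degree_sub hRR S D)]

theorem z6_cls_zero (hRR : IsRRField k F) (S : FrobStr k F) : S.cls 0 = 0 := by
  rw [z6_cls_eq hRR]
  have : (⟨(0 : Divisor k F) - Divisor.degree (0 : Divisor k F) • Finsupp.single S.P₀ (1 : ℤ),
      z6_degree_sub hRR S 0⟩ : Divisor.degZero (K := k) (F := F)) = 0 := by
    apply Subtype.ext
    simp
  rw [this]
  rfl

theorem z6_cls_add (hRR : IsRRField k F) (S : FrobStr k F) (D E : Divisor k F) :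
    S.cls (D + E) = S.cls D + S.cls E := by
  rw [z6_cls_eq hRR, z6_cls_eq hRR, z6_cls_eq hRR, ← Pic0.mk_add]
  congr 1
  apply Subtype.ext
  show D + E - Divisor.degree (D + E) • Finsupp.single S.P₀ (1 : ℤ) =
    (D - Divisor.degree D • Finsupp.single S.P₀ (1 : ℤ)) +
      (E - Divisor.degree E • Finsupp.single S.P₀ (1 : ℤ))
  rw [map_add, add_smul]
  abel

theorem z6_cls_sum (hRR : IsRRField k F) (S : FrobStr k F) {ι : Type*} (s : Finset ι)
    (f : ι → Divisor k F) : S.cls (∑ i ∈ s, f i) = ∑ i ∈ s, S.cls (f i) := by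
  classical
  induction s using Finset.induction_on with
  | empty => simpa using z6_cls_zero hRR S
  | insert i s hi ih => rw [Finset.sum_insert hi, Finset.sum_insert hi, z6_cls_add hRR, ih]

theorem z6_smul_cls (hRR : IsRRField k F) (S : FrobStr k F) (m : ℕ) (D : Divisor k F) :
    (S.σ ^ m) • S.cls D = S.cls ((S.σ ^ m) • D) := by
  rw [z6_cls_eq hRR, z6_cls_eq hRR, SemilinearAut.pic0_smul_mk]
  congr 1
  apply Subtype.ext
  rw [SemilinearAut.coe_degZeroSMulHom]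
  show (S.σ ^ m) • (D - Divisor.degree D • Finsupp.single S.P₀ (1 : ℤ)) =
    (S.σ ^ m) • D - Divisor.degree ((S.σ ^ m) • D) • Finsupp.single S.P₀ (1 : ℤ)
  rw [smul_sub, SemilinearAut.degree_smul]
  congr 1
  have h := map_zsmul (DistribSMul.toAddMonoidHom (Divisor k F) (S.σ ^ m))
    (Divisor.degree D) (Finsupp.single S.P₀ (1 : ℤ))
  have h2 : (S.σ ^ m) • (Divisor.degree D • Finsupp.single S.P₀ (1 : ℤ) : Divisor k F) =
      Divisor.degree D • ((S.σ ^ m) • (Finsupp.single S.P₀ (1 : ℤ) : Divisor k F)) := h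
  rw [h2, SemilinearAut.smul_single, S.pow_smul_P₀]

/-- the class of the norm divisor of a place fixed by `σ^j`. -/
theorem z6_cls_nrmPl (hRR : IsRRField k F) (S : FrobStr k F) (j : ℕ) (P : Place k F) :
    S.cls (S.nrmPl j P) =
      ∑ i ∈ Finset.range j, (S.sigmaEnd ^ i) (S.cls (Finsupp.single P (1 : ℤ))) := by
  unfold FrobStr.nrmPl
  rw [z6_cls_sum hRR]
  refine Finset.sum_congr rfl fun i _ => ?_
  rw [S.sigmaEnd_pow_apply, z6_smul_cls hRR, SemilinearAut.smul_single]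

/-- for `ℓ ∣ j` and `σ^j P = P` the class of the norm divisor is a norm from `J_ℓ`. -/
theorem z6_cls_nrmPl_mem (hRR : IsRRField k F) (S : FrobStr k F) {ℓ j : ℕ} (hj : ℓ ∣ j)
    {P : Place k F} (hP : P ∈ S.fixPl j) :
    ∃ y ∈ fixedPow S.sigmaEnd ℓ, normPow S.sigmaEnd 1 ℓ y = S.cls (S.nrmPl j P) := by
  obtain ⟨b, rfl⟩ := hj
  set z := S.cls (Finsupp.single P (1 : ℤ)) with hz
  have hfix : (S.sigmaEnd ^ (ℓ * b)) z = z := by
    rw [S.sigmaEnd_pow_apply, hz, z6_smul_cls hRR, SemilinearAut.smul_single]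
    have : (S.σ ^ (ℓ * b)) • P = P := hP
    rw [this]
  refine ⟨∑ c ∈ Finset.range b, (S.sigmaEnd ^ (ℓ * c)) z,
    z6_sum_mem_fixed S.sigmaEnd ℓ b z hfix, ?_⟩
  rw [z6_cls_nrmPl hRR, ← z6_sum_eq_norm]

/-- the only invariant effective divisor of degree `0` is `0`. -/
theorem z6_effInv_zero (hRR : IsRRField k F) (S : FrobStr k F) : S.effInv 0 = {0} := by
  ext D
  constructor
  · rintro ⟨h1, h2, -⟩
    rw [Set.mem_singleton_iff]
    exact Fermat.Agent.RR.eq_zero_of_nonneg_of_degree_eq_zero hRR h1 (by simpa using h2)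
  · intro h
    rw [Set.mem_singleton_iff] at h
    subst h
    exact ⟨le_refl _, by simp, smul_zero _⟩

theorem z6_constantCoeff_Lser (hRR : IsRRField k F) (S : FrobStr k F) (χ : Pic0 k F → ℂ)
    (hχ : χ 0 = 1) : constantCoeff (S.Lser χ) = 1 := by
  rw [← coeff_zero_eq_constantCoeff_apply]
  unfold FrobStr.Lser
  rw [coeff_mk]
  unfold FrobStr.Lcoef
  rw [z6_effInv_zero hRR, finsum_mem_singleton, z6_cls_zero hRR, hχ]

end Cls

/-! ### the theorem -/

section Main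

variable {k F : Type*} [Field k] [Field F] [Algebra k F]

/-- `ν_j` of the trivial character is `N_j`. -/
theorem z6_nu_one (hRR : IsRRField k F) (S : FrobStr k F) (j : ℕ) (hj : 0 < j) :
    S.nu (fun _ => (1 : ℂ)) j = ((S.Npl j : ℝ) : ℂ) := by
  unfold FrobStr.nu FrobStr.Npl
  have hfin := fixPl_finite hRR S j hj
  rw [finsum_mem_eq_finite_toFinset_sum _ hfin, Finset.sum_const, nsmul_eq_mul, mul_one,
    Nat.card_coe_set_eq, Set.ncard_eq_toFinset_card _ hfin]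
  norm_cast

theorem z6_one_le_Npl (hRR : IsRRField k F) (S : FrobStr k F) (j : ℕ) (hj : 0 < j) :
    1 ≤ S.Npl j := by
  unfold FrobStr.Npl
  have hfin := fixPl_finite hRR S j hj
  haveI : Finite (S.fixPl j) := hfin
  haveI : Nonempty (S.fixPl j) := ⟨⟨S.P₀, S.pow_smul_P₀ j⟩⟩
  exact Nat.card_pos

/-- **Seat Z6 (NORM).** -/
theorem norm_surj_one (hRR : IsRRField k F) (S : FrobStr k F) [IsAlgClosed k] (ℓ : ℕ)
    (hℓ : 0 < ℓ) :
    ∀ x ∈ fixedPow S.sigmaEnd 1, ∃ y ∈ fixedPow S.sigmaEnd ℓ, normPow S.sigmaEnd 1 ℓ y = x := by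
  intro x₀ hx₀
  by_contra hcon
  -- the subgroup of norms
  set H : AddSubgroup (Pic0 k F) :=
    (fixedPow S.sigmaEnd ℓ).map (normPow S.sigmaEnd 1 ℓ) with hH
  have hHle : H ≤ fixedPow S.sigmaEnd 1 := by
    rintro _ ⟨y, hy, rfl⟩
    exact z6_norm_mem S.sigmaEnd ℓ hy
  have hx₀H : x₀ ∉ H := by
    rintro ⟨y, hy, hyx⟩
    exact hcon ⟨y, hy, hyx⟩
  obtain ⟨χ, hχ0, hχadd, hχH, hχx₀⟩ :=
    z6_exists_char (fixedPow S.sigmaEnd 1) H hHle (finite_fixed_one hRR S) hx₀ hx₀H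
  have hχ : S.IsCharOn χ := ⟨hχ0, hχadd⟩
  have hχ₁ : S.IsCharOn (fun _ => (1 : ℂ)) := ⟨rfl, fun _ _ _ _ => (one_mul 1).symm⟩
  -- the root of unity
  obtain ⟨ζ, hζ⟩ : ∃ ζ : ℂ, IsPrimitiveRoot ζ ℓ := ⟨_, Complex.isPrimitiveRoot_exp ℓ hℓ.ne'⟩
  -- the two products
  have hM := z6_isNewton_prod_rescale (isNewton_Lser hRR S χ hχ) (Finset.range ℓ)
    (fun i => ζ ^ i)
  have hM₁ := z6_isNewton_prod_rescale (isNewton_Lser hRR S (fun _ => (1 : ℂ)) hχ₁)
    (Finset.range ℓ) (fun i => ζ ^ i)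
  -- (1) the Newton sequences agree
  have hnu : ∀ j, 0 < j → ℓ ∣ j → S.nu χ j = S.nu (fun _ => (1 : ℂ)) j := by
    intro j _ hjℓ
    unfold FrobStr.nu
    refine finsum_mem_congr rfl fun P hP => ?_
    obtain ⟨y, hy, hyP⟩ := z6_cls_nrmPl_mem hRR S hjℓ hP
    rw [← hyP]
    exact hχH _ ⟨y, hy, rfl⟩
  have hseq : ∀ j, 0 < j →
      (∑ i ∈ Finset.range ℓ, (ζ ^ i) ^ j) * S.nu χ j =
        (∑ i ∈ Finset.range ℓ, (ζ ^ i) ^ j) * S.nu (fun _ => (1 : ℂ)) j := by
    intro j hj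
    by_cases hjℓ : ℓ ∣ j
    · rw [hnu j hj hjℓ]
    · rw [z6_sum_pow_of_not_dvd hζ hjℓ, zero_mul, zero_mul]
  -- constant coefficients
  have hc : ∀ ψ : Pic0 k F → ℂ, ψ 0 = 1 →
      constantCoeff (∏ i ∈ Finset.range ℓ, PowerSeries.rescale (ζ ^ i) (S.Lser ψ)) = 1 := by
    intro ψ hψ
    rw [map_prod]
    refine Finset.prod_eq_one fun i _ => ?_
    rw [← coeff_zero_eq_constantCoeff_apply, coeff_rescale, pow_zero, one_mul,
      coeff_zero_eq_constantCoeff_apply, z6_constantCoeff_Lser hRR S ψ hψ]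
  -- (2) the products are equal
  have heq := IsNewton.unique hM hM₁ hseq (hc χ hχ0) (hc _ rfl)
  -- (3) contradiction
  obtain ⟨P, hP⟩ := Lser_polynomial hRR S χ hχ ⟨x₀, hx₀, hχx₀⟩
  have hev : Z6EvZero (∏ i ∈ Finset.range ℓ, PowerSeries.rescale (ζ ^ i) (S.Lser χ)) := by
    apply z6EvZero_prod
    intro i _
    rw [hP]
    exact (z6EvZero_coe P).rescale _
  rw [heq] at hev
  refine z6_not_evZero hM₁ (hc _ rfl)
    (fun j => (if ℓ ∣ j then (ℓ : ℝ) else 0) * (S.Npl j : ℝ)) ?_ ?_ hℓ ?_ hev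
  · intro j hj
    rw [z6_nu_one hRR S j hj]
    by_cases hjℓ : ℓ ∣ j
    · rw [z6_sum_pow_of_dvd hζ.pow_eq_one hjℓ, if_pos hjℓ]
      push_cast
      rfl
    · rw [z6_sum_pow_of_not_dvd hζ hjℓ, if_neg hjℓ]
      push_cast
      ring
  · intro j _
    apply mul_nonneg
    · split_ifs
      · exact Nat.cast_nonneg ℓ
      · exact le_refl _
    · exact Nat.cast_nonneg _
  · rw [if_pos (dvd_refl ℓ)]
    apply mul_pos
    · exact_mod_cast hℓ
    · have := z6_one_le_Npl hRR S ℓ hℓ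
      exact_mod_cast this

end Main

end Fermat.Agent.S27
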