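import Mathlib
import Fermat.Agent.S27.Zeta.Defs
import Fermat.Agent.S27.Zeta.Fin
import Fermat.Agent.S27.Zeta.Rational
import Fermat.Agent.S27.Zeta.Det
import Fermat.Agent.S27.Zeta.Norm
import Fermat.Agent.S27.Growth
import Fermat.Agent.S27.Abstract

set_option autoImplicit false

/-!
# S27, part D: the torsion count in characteristic `p`  (assembly, helper28)

`frobCount`    : the hypotheses `FrobCount` of the abstract counting lemma (D8) hold for
                 `(Pic⁰ F, σ)`, `ℓ ≠ p`, `g = genusFF k F`.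
`card_torsion_of_frobStr` : `#Pic⁰(F)[ℓ^j] = ℓ^(2 g j)` for `ℓ ≠ p`.
-/

noncomputable section

open AlgebraicCurve

namespace Fermat.Agent.S27

open Fermat.Agent.RR

variable {k F : Type*} [Field k] [Field F] [Algebra k F]

/-- `J_m` is finite -/
theorem finite_fixedPow (hRR : IsRRField k F) (S : FrobStr k F) [IsAlgClosed k] (m : ℕ)
    (hm : 0 < m) : (fixedPow S.sigmaEnd m : Set (Pic0 k F)).Finite := by
  have h := finite_fixed_one hRR (S.pow m hm)
  rwa [S.fixedPow_pow m hm 1, mul_one] at h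

/-- the norm `J_{mℓ} → J_m` is surjective -/
theorem norm_surj (hRR : IsRRField k F) (S : FrobStr k F) [IsAlgClosed k] (ℓ : ℕ) (hℓ : 0 < ℓ)
    (m : ℕ) (hm : 0 < m) :
    ∀ x ∈ fixedPow S.sigmaEnd m, ∃ y ∈ fixedPow S.sigmaEnd (m * ℓ), normPow S.sigmaEnd m ℓ y = x := by
  intro x hx
  have hx' : x ∈ fixedPow (S.pow m hm).sigmaEnd 1 := by
    rw [S.fixedPow_pow m hm 1, mul_one]
    exact hx
  obtain ⟨y, hy, hxy⟩ := norm_surj_one hRR (S.pow m hm) ℓ hℓ x hx'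
  refine ⟨y, ?_, ?_⟩
  · rwa [S.fixedPow_pow m hm ℓ] at hy
  · rwa [S.normPow_pow m hm ℓ] at hxy

/-- **Part D.** The hypotheses of the abstract counting lemma. -/
theorem frobCount (hRR : IsRRField k F) (S : FrobStr k F) [IsAlgClosed k] (ℓ : ℕ)
    [hℓ : Fact ℓ.Prime] (hℓp : ℓ ≠ S.p) : FrobCount S.sigmaEnd ℓ (genusFF k F) := by
  obtain ⟨A, hdet, hA⟩ := exists_matrix hRR S
  have hndvd : ¬ (ℓ : ℤ) ∣ A.det := by
    rw [hdet]
    intro hd
    have h1 : (ℓ : ℤ) ∣ (S.q : ℤ) := (Nat.prime_iff_prime_int.mp hℓ.out).dvd_of_dvd_pow hd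
    have h2 : ℓ ∣ S.q := Int.natCast_dvd_natCast.mp h1
    have h3 : ℓ ∣ S.p := hℓ.out.dvd_of_dvd_pow h2
    exact hℓp ((Nat.prime_dvd_prime_iff_eq hℓ.out S.hp).mp h3)
  have hfin := finite_fixedPow hRR S
  have hne : ∀ m, 0 < m → Nat.card (fixedPow S.sigmaEnd m) ≠ 0 := by
    intro m hm
    have : Finite (fixedPow S.sigmaEnd m) := (hfin m hm).to_subtype
    exact Nat.card_ne_zero.mpr ⟨⟨⟨0, (fixedPow S.sigmaEnd m).zero_mem⟩⟩, inferInstance⟩
  have hh : ∀ m, 0 < m → Nat.card (fixedPow S.sigmaEnd m) = (1 - A ^ m).det.natAbs := by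
    intro m hm
    rw [← hA m hm, Int.natAbs_natCast]
  refine ⟨hfin, exhaust hRR S, fun m hm => norm_surj hRR S ℓ hℓ.out.pos m hm, ?_⟩
  exact exists_growth_padicValNat A ℓ hndvd (fun m => Nat.card (fixedPow S.sigmaEnd m)) hh hne

/-- **Part D, final form.** `#Pic⁰(F)[ℓ^j] = ℓ^(2 g j)` for a function field over `𝔽̄_p` with a
Frobenius structure, `ℓ ≠ p`. -/
theorem card_torsion_of_frobStr (hRR : IsRRField k F) (S : FrobStr k F) [IsAlgClosed k] (ℓ : ℕ)
    [hℓ : Fact ℓ.Prime] (hℓp : ℓ ≠ S.p) (j : ℕ) :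
    Nat.card (Pic0.torsion k F (ℓ ^ j)) = ℓ ^ (2 * genusFF k F * j) := by
  have h := card_tors_of_frobCount hℓ.out (frobCount hRR S ℓ hℓp) j
  rw [← h]
  refine Nat.card_congr (Equiv.subtypeEquivRight fun x => ?_)
  rw [Pic0.mem_torsion, mem_tors, natCast_zsmul]

end Fermat.Agent.S27
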