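import Mathlib
import Fermat.Agent.S27.Zeta.Newton

set_option autoImplicit false

/-!
# S27, part D, seat Z5a-MAT: Newton's identities for a matrix, PROOF (helper13)

`isNewton_charpolyRev_pf`: `det (1 - t B)` has Newton sequence `- tr (B^j)`  (same statement as
`isNewton_charpolyRev` of `Zeta/NewtonMat.lean`).
Proof: `A = 1 - t B` over `R⟦t⟧` is invertible, `M = B A⁻¹`; the ring homomorphism
`Φ : R[X] → R⟦t⟧[X]`, `X ↦ X + t`, maps `f = det (1 - X B)` to `det A * det (1 - X M)`; the
coefficient of `X` is `f'(t)` on the left (Taylor) and `- f tr M` on the right; `M = B + t B M`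
gives the coefficients `B^(j+1)` of `M`.
-/

noncomputable section

open PowerSeries

namespace Fermat.Agent.S27

variable {R : Type*} [CommRing R]

/-! ### Newton's identities for a matrix -/

section Charpoly

variable {n : ℕ} (B : Matrix (Fin n) (Fin n) R)

/-- `1 - t B` over `R⟦t⟧` -/
def nwA : Matrix (Fin n) (Fin n) R⟦X⟧ := 1 - (X : R⟦X⟧) • B.map (C : R →+* R⟦X⟧)

/-- `B (1 - t B)⁻¹` over `R⟦t⟧` -/
def nwM : Matrix (Fin n) (Fin n) R⟦X⟧ := B.map (C : R →+* R⟦X⟧) * (nwA B)⁻¹

theorem nw_coe_charpolyRev : ((B.charpolyRev : Polynomial R) : R⟦X⟧) = (nwA B).det := by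
  unfold Matrix.charpolyRev nwA
  rw [← Polynomial.coeToPowerSeries.ringHom_apply, RingHom.map_det]
  congr 1
  ext i j
  simp only [RingHom.mapMatrix_apply, Matrix.map_apply, Matrix.sub_apply, Matrix.one_apply,
    Matrix.smul_apply, smul_eq_mul, Polynomial.coeToPowerSeries.ringHom_apply,
    Polynomial.coe_sub, Polynomial.coe_mul, Polynomial.coe_X, Polynomial.coe_C]
  split_ifs <;> simp

theorem nw_isUnit_det : IsUnit (nwA B).det := by
  rw [← nw_coe_charpolyRev, PowerSeries.isUnit_iff_constantCoeff]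
  have : constantCoeff ((B.charpolyRev : Polynomial R) : R⟦X⟧) = 1 := by
    rw [← coeff_zero_eq_constantCoeff_apply, Polynomial.coeff_coe,
      Polynomial.coeff_zero_eq_eval_zero, Matrix.eval_charpolyRev]
  rw [this]
  exact isUnit_one

theorem nw_comm : nwA B * B.map (C : R →+* R⟦X⟧) = B.map (C : R →+* R⟦X⟧) * nwA B := by
  unfold nwA
  rw [Matrix.sub_mul, Matrix.mul_sub, Matrix.one_mul, Matrix.mul_one, Matrix.smul_mul,
    Matrix.mul_smul]

theorem nwA_mul_nwM : nwA B * nwM B = B.map (C : R →+* R⟦X⟧) := by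
  unfold nwM
  rw [← Matrix.mul_assoc, nw_comm, Matrix.mul_assoc, Matrix.mul_nonsing_inv _ (nw_isUnit_det B),
    Matrix.mul_one]

theorem nwM_eq : nwM B = B.map (C : R →+* R⟦X⟧)
    + (X : R⟦X⟧) • (B.map (C : R →+* R⟦X⟧) * nwM B) := by
  have h := nwA_mul_nwM B
  unfold nwA at h
  rw [Matrix.sub_mul, Matrix.one_mul, Matrix.smul_mul] at h
  exact eq_add_of_sub_eq h

/-- the matrix of the coefficients of degree `j` -/
def nwCf (j : ℕ) (N : Matrix (Fin n) (Fin n) R⟦X⟧) : Matrix (Fin n) (Fin n) R :=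
  N.map fun φ => coeff j φ

theorem nwCf_mul (j : ℕ) (N : Matrix (Fin n) (Fin n) R⟦X⟧) :
    nwCf j (B.map (C : R →+* R⟦X⟧) * N) = B * nwCf j N := by
  ext i k
  simp only [nwCf, Matrix.map_apply, Matrix.mul_apply, map_sum, PowerSeries.coeff_C_mul]

theorem nwCf_nwM (j : ℕ) : nwCf j (nwM B) = B ^ (j + 1) := by
  induction j with
  | zero =>
    rw [nwM_eq]
    ext i k
    simp [nwCf]
  | succ j ih =>
    rw [nwM_eq, pow_succ', ← ih, ← nwCf_mul]
    ext i k
    simp only [nwCf, Matrix.map_apply, Matrix.add_apply, Matrix.smul_apply, smul_eq_mul, map_add,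
      coeff_succ_X_mul, PowerSeries.coeff_C, if_neg (Nat.succ_ne_zero j), zero_add]

theorem coeff_trace_nwM (j : ℕ) : coeff j (nwM B).trace = (B ^ (j + 1)).trace := by
  rw [← nwCf_nwM]
  simp only [Matrix.trace, Matrix.diag_apply, map_sum, nwCf, Matrix.map_apply]

/-- the derivative of `det (1 - t B)` -/
theorem nw_derivative : PowerSeries.derivative R ((B.charpolyRev : Polynomial R) : R⟦X⟧)
    = ((B.charpolyRev : Polynomial R) : R⟦X⟧) * (-(nwM B).trace) := by
  -- the ring homomorphism `R[X] → R⟦t⟧[X]`, `X ↦ X + t`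
  set Φ : Polynomial R →+* Polynomial R⟦X⟧ :=
    (Polynomial.compRingHom (Polynomial.X + Polynomial.C (X : R⟦X⟧))).comp
      (Polynomial.mapRingHom (C : R →+* R⟦X⟧)) with hΦ
  have hΦapp : ∀ g : Polynomial R, Φ g
      = (g.map (C : R →+* R⟦X⟧)).comp (Polynomial.X + Polynomial.C (X : R⟦X⟧)) := fun g => rfl
  -- the coefficient of `X` in `Φ f` is the derivative
  have h1 : (Φ B.charpolyRev).coeff 1
      = PowerSeries.derivative R ((B.charpolyRev : Polynomial R) : R⟦X⟧) := by
    rw [hΦapp, ← Polynomial.taylor_apply, Polynomial.taylor_coeff_one, Polynomial.derivative_map,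
      Polynomial.eval_map, Polynomial.eval₂_C_X_eq_coe, PowerSeries.derivative_coe]
  -- `Φ f = det (1 - t B) * det (1 - X M)`
  have h2 : Φ B.charpolyRev = Polynomial.C (nwA B).det * (nwM B).charpolyRev := by
    have e1 : Φ B.charpolyRev
        = ((nwA B).map Polynomial.C * (1 - (Polynomial.X : Polynomial R⟦X⟧) •
            (nwM B).map Polynomial.C)).det := by
      unfold Matrix.charpolyRev
      rw [RingHom.map_det]
      congr 1
      rw [Matrix.mul_sub, Matrix.mul_one, Matrix.mul_smul, ← Matrix.map_mul, nwA_mul_nwM]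
      ext i j
      simp only [nwA, hΦ, RingHom.mapMatrix_apply, Matrix.map_apply, Matrix.sub_apply,
        Matrix.smul_apply, Matrix.one_apply, smul_eq_mul, RingHom.comp_apply,
        Polynomial.coe_mapRingHom, Polynomial.coe_compRingHom_apply]
      split_ifs <;> simp <;> ring
    rw [e1, Matrix.det_mul]
    congr 1
    exact (RingHom.map_det _ _).symm
  rw [← h1, h2, Polynomial.coeff_C_mul, Matrix.coeff_charpolyRev_eq_neg_trace,
    nw_coe_charpolyRev]

/-- **Newton's identities for a matrix**: `det (1 - t B)` has Newton sequence `- tr (B^j)` -/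
theorem isNewton_charpolyRev_pf {n : ℕ} (B : Matrix (Fin n) (Fin n) R) :
    IsNewton ((B.charpolyRev : Polynomial R) : R⟦X⟧) (fun j => -(B ^ j).trace) := by
  rw [isNewton_def, nw_derivative]
  have e : newtonSer (fun j => -(B ^ j).trace) = X * (-(nwM B).trace) := by
    rw [newtonSer_eq_X_mul]
    congr 1
    ext j
    rw [coeff_mk, map_neg, coeff_trace_nwM]
  rw [e]
  ring

end Charpoly

end Fermat.Agent.S27
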